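/-
S17 / LOC, KEY [S17/L-BIL]  (Mathlib + MK + Loc/Norm only, ~200 lines).  Bilinear maps without zero divisors are bounded below.

PROOF.  For every pair `(i₀, j₀)` apply `MK.nss` with `σ = ι₁ ⊕ ι₂`, `p m = ∑ i, ∑ j, C (γ i j m) * X (inl i) * X (inr j)`,
`g : Bool → _`, `g true = X (inl i₀) - 1`, `g false = X (inr j₀) - 1`: a common zero `z` gives `u = z ∘ inl`, `w = z ∘ inr` with `u i₀ = 1`, `w j₀ = 1`,
`β(u,w) = 0`, contradicting `hγ`.  This gives `(S,M)` depending on `(i₀,j₀)`; `MK.exists_mk_ge` over the finite type `ι₁ × ι₂` gives one `(T,N)`.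
Given `v, u, w`: if `u = 0` or `w = 0` the left side is `0` (`nv` of the zero vector is `0`) and the right side is `≥ 0`.  Otherwise `ι₁, ι₂` are nonempty; take `i₀`, `j₀` with
`nv v u = v (u i₀) > 0`, `nv v w = v (w j₀) > 0` (`exists_nv_eq`), `z = Sum.elim (u / u i₀) (w / w j₀)`: all `v (z _) ≤ 1 ≤ tau v`; `nss` gives `m` with
`1 ≤ mk * v (β(u,w)_m / (u i₀ * w j₀))`; multiply by `v (u i₀) * v (w j₀)`, and `v (β_m) ≤ nv v β` (`le_nv`).
-/
import Fermat.Agent.S17.Loc.Norm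

set_option autoImplicit false

noncomputable section

namespace Fermat.Agent.S17.Loc

open MvPolynomial MK

theorem bil_aux {K : Type*} [Field K] [IsAlgClosed K] {ι₁ ι₂ ι₃ : Type*} [Fintype ι₁] [Fintype ι₂]
    [Finite ι₃] (γ : ι₁ → ι₂ → ι₃ → K)
    (hγ : ∀ (u : ι₁ → K) (w : ι₂ → K), (∀ m, ∑ i, ∑ j, γ i j m * u i * w j = 0) → u = 0 ∨ w = 0)
    (i₀ : ι₁) (j₀ : ι₂) :
    ∃ (S : Finset K) (M : ℕ), ∀ (v : AbsoluteValue K ℝ) (u : ι₁ → K) (w : ι₂ → K),
      u i₀ = 1 → w j₀ = 1 → (∀ i, v (u i) ≤ 1) → (∀ j, v (w j) ≤ 1) →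
      ∃ m, 1 ≤ mk S M v * v (∑ i, ∑ j, γ i j m * u i * w j) := by
  classical
  let p : ι₃ → MvPolynomial (ι₁ ⊕ ι₂) K := fun m =>
    ∑ i, ∑ j, C (γ i j m) * X (Sum.inl i) * X (Sum.inr j)
  let g : Bool → MvPolynomial (ι₁ ⊕ ι₂) K := fun b =>
    if b then X (Sum.inl i₀) - 1 else X (Sum.inr j₀) - 1
  have hp : ∀ (z : ι₁ ⊕ ι₂ → K) (m : ι₃), eval z (p m)
      = ∑ i, ∑ j, γ i j m * z (Sum.inl i) * z (Sum.inr j) := by
    intro z m
    simp [p, map_sum]
  obtain ⟨S, M, h⟩ := nss p g (by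
    intro z hz
    by_contra hcon
    push Not at hcon
    have h1 : z (Sum.inl i₀) = 1 := by
      have := hz true
      simp only [g, if_true, map_sub, eval_X, map_one] at this
      exact sub_eq_zero.mp this
    have h2 : z (Sum.inr j₀) = 1 := by
      have := hz false
      simp only [g, Bool.false_eq_true, if_false, map_sub, eval_X, map_one] at this
      exact sub_eq_zero.mp this
    rcases hγ (fun i => z (Sum.inl i)) (fun j => z (Sum.inr j))
      (fun m => by rw [← hp]; exact hcon m) with h0 | h0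
    · have := congrFun h0 i₀
      simp only [Pi.zero_apply] at this
      rw [h1] at this
      exact one_ne_zero this
    · have := congrFun h0 j₀
      simp only [Pi.zero_apply] at this
      rw [h2] at this
      exact one_ne_zero this)
  refine ⟨S, M, fun v u w hu hw hu1 hw1 => ?_⟩
  obtain ⟨m, hm⟩ := h v (Sum.elim u w) (by
      intro b
      cases b
      · simp [g, hw]
      · simp [g, hu]) (by
      intro i
      rcases i with i | j
      · exact le_trans (hu1 i) (one_le_tau v)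
      · exact le_trans (hw1 j) (one_le_tau v))
  refine ⟨m, ?_⟩
  rw [hp] at hm
  exact hm

theorem nv_zero' {K ι : Type*} [Field K] (v : AbsoluteValue K ℝ) (x : ι → K) (hx : x = 0) :
    nv v x = 0 := by
  subst hx
  unfold nv
  simp

theorem bil {K : Type*} [Field K] [IsAlgClosed K] {ι₁ ι₂ ι₃ : Type*} [Fintype ι₁] [Fintype ι₂] [Finite ι₃]
    (γ : ι₁ → ι₂ → ι₃ → K)
    (hγ : ∀ (u : ι₁ → K) (w : ι₂ → K), (∀ m, ∑ i, ∑ j, γ i j m * u i * w j = 0) → u = 0 ∨ w = 0) :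
    ∃ (S : Finset K) (M : ℕ), ∀ (v : AbsoluteValue K ℝ) (u : ι₁ → K) (w : ι₂ → K),
      nv v u * nv v w ≤ mk S M v * nv v (fun m => ∑ i, ∑ j, γ i j m * u i * w j) := by
  classical
  choose S M h using fun q : ι₁ × ι₂ => bil_aux γ hγ q.1 q.2
  obtain ⟨T, N, hTN⟩ := exists_mk_ge S M
  refine ⟨T, N, fun v u w => ?_⟩
  have hR : 0 ≤ mk T N v * nv v (fun m => ∑ i, ∑ j, γ i j m * u i * w j) :=
    mul_nonneg (mk_pos _ _ _).le (nv_nonneg _ _)
  by_cases hu : u = 0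
  · rw [nv_zero' v u hu, zero_mul]; exact hR
  by_cases hw : w = 0
  · rw [nv_zero' v w hw, mul_zero]; exact hR
  obtain ⟨i1, hi1⟩ : ∃ i, u i ≠ 0 := by
    by_contra hcon
    push Not at hcon
    exact hu (funext hcon)
  obtain ⟨j1, hj1⟩ : ∃ j, w j ≠ 0 := by
    by_contra hcon
    push Not at hcon
    exact hw (funext hcon)
  haveI : Nonempty ι₁ := ⟨i1⟩
  haveI : Nonempty ι₂ := ⟨j1⟩
  obtain ⟨i₀, hi₀⟩ := exists_nv_eq v u
  obtain ⟨j₀, hj₀⟩ := exists_nv_eq v w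
  have hupos : 0 < v (u i₀) := by rw [← hi₀]; exact nv_pos v hi1
  have hwpos : 0 < v (w j₀) := by rw [← hj₀]; exact nv_pos v hj1
  have hu0 : u i₀ ≠ 0 := v.pos_iff.mp hupos
  have hw0 : w j₀ ≠ 0 := v.pos_iff.mp hwpos
  obtain ⟨m, hm⟩ := h (i₀, j₀) v (fun i => u i / u i₀) (fun j => w j / w j₀)
    (div_self hu0) (div_self hw0)
    (fun i => by
      rw [map_div₀, div_le_one hupos, ← hi₀]; exact le_nv v u i)
    (fun j => by
      rw [map_div₀, div_le_one hwpos, ← hj₀]; exact le_nv v w j)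
  have e1 : ∑ i, ∑ j, γ i j m * (u i / u i₀) * (w j / w j₀)
      = (∑ i, ∑ j, γ i j m * u i * w j) / (u i₀ * w j₀) := by
    rw [Finset.sum_div]
    refine Finset.sum_congr rfl fun i _ => ?_
    rw [Finset.sum_div]
    refine Finset.sum_congr rfl fun j _ => ?_
    field_simp
  rw [e1, map_div₀, map_mul] at hm
  rw [hi₀, hj₀]
  have hpos : 0 < v (u i₀) * v (w j₀) := mul_pos hupos hwpos
  have h2 : v (u i₀) * v (w j₀) ≤ mk (S (i₀, j₀)) (M (i₀, j₀)) v * v (∑ i, ∑ j, γ i j m * u i * w j) := by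
    rw [← mul_div_assoc, le_div_iff₀ hpos, one_mul] at hm
    exact hm
  refine le_trans h2 ?_
  exact mul_le_mul (hTN _ v) (le_nv v (fun m => ∑ i, ∑ j, γ i j m * u i * w j) m) (v.nonneg _)
    (mk_pos _ _ _).le

end Fermat.Agent.S17.Loc
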