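/-
S17 / LOC : definitions   (blueprint: briefing 'S17-BLUEPRINT (helper29)', block LOC; sub-owner helper7)

`K` algebraically closed of characteristic 0, `F/K` a function field in one variable (`S37.IsFF K F`), API = S27 (`Reg`, `val`, `rr`, ...).

* `PE K F` : "projective embedding data": a place `oo`, `c0` with `H1(D) = 0` for `deg D ≥ c0`, `n0 = 2 c0 + 4`,
  a basis `f 0 = 1, ..., f r` of `W 1 = L(n0 oo)`, `f r` of exact pole order `n0`.
* `E.D e = e n0 oo`, `E.W e = L(e n0 oo)`  ("sections of degree e").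
* `E.lift x = x~` : `x~_j = val_x (f_j / f_a)`, `a = 0` if `x ≠ oo`, `a = r` if `x = oo`.
* `E.ev e u x = u(x~) = val_x (u / f_a ^ e)`   (`u ∈ W e`).
* `nv v z = max_j v (z_j)`, `nP v P = max` of `v` of the coefficients of the polynomial `P`.
* `E.B e` : a set of monomials of degree `e` such that the `f^m`, `m ∈ B e`, are a basis of `W e`;
  `E.co e u` : the polynomial supported in `B e` with `aeval f (co e u) = u`;   `E.nm v e u = ‖u‖_v = nP v (co e u)`.
* `E.nx v x = ‖x~‖_v`,  `E.dist v x y = d_v(x,y)` the projective chordal distance.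
-/
import Fermat.Agent.S27.Val
import Fermat.Agent.S17.MK.NSS

set_option autoImplicit false

noncomputable section

namespace Fermat.Agent.S17.Loc

open AlgebraicCurve Fermat.Agent.S37 Fermat.Agent.S27 MvPolynomial

/-- sup norm of a vector -/
def nv {K ι : Type*} [Field K] (v : AbsoluteValue K ℝ) (z : ι → K) : ℝ := ⨆ j, v (z j)

/-- sup norm of the coefficients of a polynomial -/
def nP {K σ : Type*} [Field K] (v : AbsoluteValue K ℝ) (P : MvPolynomial σ K) : ℝ :=
  ⨆ m : σ →₀ ℕ, v (P.coeff m)

/-- projective embedding data -/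
structure PE (K F : Type*) [Field K] [Field F] [Algebra K F] where
  oo : Place K F
  c0 : ℕ
  r : ℕ
  f : Fin (r + 1) → F
  hc0 : ∀ D : Divisor K F, (c0 : ℤ) ≤ Divisor.degree D → Module.finrank K (H1 D) = 0
  f_zero : f 0 = 1
  f_last : oo.ord (f (Fin.last r)) = -((2 * c0 + 4 : ℕ) : ℤ)
  f_li : LinearIndependent K f
  f_span : Submodule.span K (Set.range f) =
    riemannRochSpace (Finsupp.single oo ((2 * c0 + 4 : ℕ) : ℤ))

namespace PE

variable {K F : Type*} [Field K] [Field F] [Algebra K F] (E : PE K F)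

/-- the degree of the embedding -/
def n0 : ℕ := 2 * E.c0 + 4

/-- `e n0 oo` -/
def D (e : ℕ) : Divisor K F := Finsupp.single E.oo ((e * E.n0 : ℕ) : ℤ)

/-- sections of degree `e` -/
def W (e : ℕ) : Submodule K F := riemannRochSpace (E.D e)

open Classical in
/-- the index of the normalising coordinate at `x` -/
def a (x : Place K F) : Fin (E.r + 1) := if x = E.oo then Fin.last E.r else 0

/-- the lift `x~` -/
def lift (x : Place K F) : Fin (E.r + 1) → K := fun j => val x (E.f j / E.f (E.a x))

/-- the value `u(x~)` of a section of degree `e` -/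
def ev (e : ℕ) (u : F) (x : Place K F) : K := val x (u / E.f (E.a x) ^ e)

/-- `B` is a monomial basis of `W e` -/
def IsMB (e : ℕ) (B : Finset (Fin (E.r + 1) →₀ ℕ)) : Prop :=
  (∀ m ∈ B, m.degree = e) ∧
  LinearIndependent K (fun m : B => aeval E.f (monomial (m : Fin (E.r + 1) →₀ ℕ) (1 : K))) ∧
  Submodule.span K (Set.range fun m : B => aeval E.f (monomial (m : Fin (E.r + 1) →₀ ℕ) (1 : K))) = E.W e

open Classical in
/-- the chosen monomial basis of `W e` -/
def B (e : ℕ) : Finset (Fin (E.r + 1) →₀ ℕ) := if h : ∃ B, E.IsMB e B then h.choose else ∅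

open Classical in
/-- coordinates: the polynomial supported in `B e` representing `u` -/
def co (e : ℕ) (u : F) : MvPolynomial (Fin (E.r + 1)) K :=
  if h : ∃ Q : MvPolynomial (Fin (E.r + 1)) K, Q.support ⊆ E.B e ∧ aeval E.f Q = u then h.choose else 0

/-- `‖u‖_v` for a section of degree `e` -/
def nm (v : AbsoluteValue K ℝ) (e : ℕ) (u : F) : ℝ := nP v (E.co e u)

/-- `‖x~‖_v` -/
def nx (v : AbsoluteValue K ℝ) (x : Place K F) : ℝ := nv v (E.lift x)

/-- `max_{j,k} v (x~_j y~_k - x~_k y~_j)` -/
def wedge (v : AbsoluteValue K ℝ) (x y : Place K F) : ℝ :=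
  ⨆ p : Fin (E.r + 1) × Fin (E.r + 1), v (E.lift x p.1 * E.lift y p.2 - E.lift x p.2 * E.lift y p.1)

/-- the chordal distance `d_v(x,y)` -/
def dist (v : AbsoluteValue K ℝ) (x y : Place K F) : ℝ := E.wedge v x y / (E.nx v x * E.nx v y)

/-- affine coordinates in the chart `b` (only meaningful if `lift x b ≠ 0`) -/
def z (b : Fin (E.r + 1)) (x : Place K F) : Fin (E.r + 1) → K := fun j => E.lift x j / E.lift x b

/-- the divisor `∑ i, t i` -/
def sumD {k : ℕ} (t : Fin k → Place K F) : Divisor K F := ∑ i, Finsupp.single (t i) 1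

end PE

end Fermat.Agent.S17.Loc
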