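/-
S17 / LOC, KEY [S17/L-RR]  (~200 lines, S27/AR API).  Consequences of Riemann-Roch for `PE`.

`finrank_L`: `S27.rr h D` + `E.hc0 D hD`.
`exists_not_mem`: `finrank_L` for `D` and for `D - P` (degree drops by one: `Divisor.degree_single`, `h.deg_eq_one`), `L(D - P) ≤ L(D)`; if every
  `s ∈ L(D)` were in `L(D - P)` the two spaces would be equal (finite dimensional: `S27.finite_L`).
`ord_eq_of_not_mem`: `mem_riemannRochSpace_iff`: for `v ≠ P` the conditions agree, so the condition at `P` fails: `¬ (-(D P) + 1 ≤ ord_P s)` and `- D P ≤ ord_P s`.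
`finite_zeros`: `AR.finite_ord_neg h w⁻¹` + `Place.ord_inv`.
`eq_zero_of_infinite`: contrapositive of `finite_zeros`.
-/
import Fermat.Agent.S17.Loc.Defs

set_option autoImplicit false

noncomputable section

namespace Fermat.Agent.S17.Loc

open AlgebraicCurve Fermat.Agent.S37 Fermat.Agent.S27 MvPolynomial MK

variable {K F : Type*} [Field K] [Field F] [Algebra K F] [IsAlgClosed K] [CharZero K]

namespace PE

variable (E : PE K F)

omit [IsAlgClosed K] [CharZero K] in
theorem n0_pos : 0 < E.n0 := by unfold n0; omega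

theorem degree_D (h : IsFF K F) (e : ℕ) : Divisor.degree (E.D e) = ((e * E.n0 : ℕ) : ℤ) := by
  unfold D
  rw [Divisor.degree_single, h.deg_eq_one]
  simp

theorem degree_sumD (h : IsFF K F) {k : ℕ} (t : Fin k → Place K F) : Divisor.degree (sumD t) = k := by
  unfold sumD
  rw [map_sum]
  simp [Divisor.degree_single, h.deg_eq_one]

theorem finrank_L (h : IsFF K F) (D : Divisor K F) (hD : (E.c0 : ℤ) ≤ Divisor.degree D) :
    (Module.finrank K (riemannRochSpace D) : ℤ) = Divisor.degree D + 1 - genusFF K F := by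
  have h1 := S27.rr h D
  rw [E.hc0 D hD] at h1
  simpa using h1

omit [IsAlgClosed K] [CharZero K] in
theorem L_mono {D D' : Divisor K F} (hD : D ≤ D') : riemannRochSpace D ≤ riemannRochSpace D' := by
  intro s hs
  rw [mem_riemannRochSpace_iff] at *
  intro v
  rcases hs v with h0 | h0
  · exact Or.inl h0
  · right
    have := Finsupp.le_def.mp hD v
    omega

theorem exists_not_mem (h : IsFF K F) (D : Divisor K F) (P : Place K F) (hD : (E.c0 : ℤ) + 1 ≤ Divisor.degree D) :
    ∃ s ∈ riemannRochSpace D, s ∉ riemannRochSpace (D - Finsupp.single P 1) := by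
  by_contra hcon
  push Not at hcon
  have hdeg : Divisor.degree (D - Finsupp.single P 1) = Divisor.degree D - 1 := by
    rw [map_sub, Divisor.degree_single, h.deg_eq_one]; simp
  have h1 := E.finrank_L h D (by omega)
  have h2 := E.finrank_L h (D - Finsupp.single P 1) (by rw [hdeg]; omega)
  have hle : riemannRochSpace D ≤ riemannRochSpace (D - Finsupp.single P 1) := hcon
  haveI := S27.finite_L h (D - Finsupp.single P 1)
  have h3 := Submodule.finrank_mono hle
  rw [hdeg] at h2
  omega

omit [IsAlgClosed K] [CharZero K] in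
theorem ord_eq_of_not_mem {D : Divisor K F} {P : Place K F} {s : F} (hs : s ∈ riemannRochSpace D)
    (hs' : s ∉ riemannRochSpace (D - Finsupp.single P 1)) : s ≠ 0 ∧ P.ord s = - D P := by
  classical
  have hs0 : s ≠ 0 := by
    rintro rfl
    exact hs' (zero_mem _)
  refine ⟨hs0, ?_⟩
  rw [mem_riemannRochSpace_iff] at hs hs'
  push Not at hs'
  obtain ⟨v, -, hv⟩ := hs'
  have hv2 := (hs v).resolve_left hs0
  by_cases hvP : v = P
  · subst hvP
    rw [Finsupp.sub_apply, Finsupp.single_eq_same] at hv
    omega
  · rw [Finsupp.sub_apply, Finsupp.single_eq_of_ne hvP] at hv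
    omega

end PE

theorem finite_zeros (h : IsFF K F) {w : F} (hw : w ≠ 0) : {x : Place K F | 0 < x.ord w}.Finite := by
  refine (AR.finite_ord_neg h w⁻¹).subset fun x hx => ?_
  simp only [Set.mem_ofPred_eq] at *
  rw [Place.ord_inv]
  omega

theorem eq_zero_of_infinite (h : IsFF K F) {w : F} (hw : {x : Place K F | Van x w}.Infinite) : w = 0 := by
  by_contra hw0
  apply hw
  refine (finite_zeros h hw0).subset fun x hx => ?_
  exact hx.resolve_left hw0

end Fermat.Agent.S17.Loc
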