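/-
S17 / LOC, KEY [S17/L-GEN]  (~350 lines, uses Loc/RR).  Projective normality: `W e` is spanned by the monomials of degree `e` in the `f j`.

`W_mul`: `mem_riemannRochSpace_iff`, `Place.ord_mul`, `E.D (e + e') = E.D e + E.D e'` (`Finsupp.single_add`, `add_mul`).
`f_mem`: `E.f_span` (`E.D 1 = single oo (2 c0 + 4)` by `one_mul`, `n0`).
`aeval_mem`: `P = ∑ m ∈ support, monomial m (coeff m P)`; `aeval f (monomial m c) = c • ∏ f_i^(m i)`, induction with `W_mul` (`W 0 ∋ 1`), `∑ m i = e` by homogeneity.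
`exists_hom` (THE CONTENT), induction on `e`.
  `e = 0`: `W 0 = L(0)`: no poles, so constant (`S27.exists_eq_algebraMap`); `P = C c`.
  `e = 1`: `E.f_span`: `u = ∑ c_j f_j`, `P = ∑ C (c_j) * X j`.
  `e → e + 1` (`e ≥ 1`): CLAIM: every `y ∈ W (e+1)` is a finite sum of products `u * w`, `u ∈ W 1`, `w ∈ W e`  (then `P = ∑ P_u * P_w`).
   Strong induction on the pole order `H` : statement `∀ H : ℕ, ∀ y ∈ L(H oo), H ≤ (e+1) n0 → y ∈ span {u * w}`.
   If `H ≤ e n0`: `y = 1 * y`, `1 = f 0 ∈ W 1`, `y ∈ W e` (`L_mono`).   If `e n0 < H`: `h₂ := max (c0 + 1) (H - n0)`, `h₁ := H - h₂`.  Then `c0 < h₁ ≤ n0`, `c0 < h₂ ≤ e n0`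
   (`n0 = 2 c0 + 4`).  `exists_not_mem (h_i oo) oo` gives `u ∈ L(h₁ oo)`, `w ∈ L(h₂ oo)` with `ord_oo u = - h₁`, `ord_oo w = - h₂` (`ord_eq_of_not_mem`).  If `y ∈ L((H-1) oo)` use the induction hypothesis.
   Otherwise `ord_oo y = - H = ord_oo (u w)`; `c := val oo (y / (u w))`; `y - c u w ∈ L((H-1) oo)` (`van_sub_val` for `y/(uw)`, regular of order 0) and the induction hypothesis applies.
`exists_isMB`: the family `m ↦ aeval f (monomial m 1)` over the FINITE set of `m` with `degree m = e` spans `W e` (`exists_hom` + `aeval_mem`); extract a basis: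
   `exists_linearIndependent` / `exists_linearIndependent'` (a maximal linearly independent subfamily spans the same space); two different `m` in the subfamily give different (independent) vectors.
`isMB_B`: `dif_pos (exists_isMB ..)` + `Exists.choose_spec`.
-/
import Fermat.Agent.S17.Loc.RR

set_option autoImplicit false

noncomputable section

namespace Fermat.Agent.S17.Loc

open AlgebraicCurve Fermat.Agent.S37 Fermat.Agent.S27 MvPolynomial MK

variable {K F : Type*} [Field K] [Field F] [Algebra K F] [IsAlgClosed K] [CharZero K]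

namespace PE

variable (E : PE K F)

omit [IsAlgClosed K] [CharZero K] in
theorem D_add (e e' : ℕ) : E.D (e + e') = E.D e + E.D e' := by
  unfold D
  rw [← Finsupp.single_add]
  congr 1
  push_cast
  ring

omit [IsAlgClosed K] [CharZero K] in
theorem L_mul {D D' : Divisor K F} {u w : F} (hu : u ∈ riemannRochSpace D)
    (hw : w ∈ riemannRochSpace D') : u * w ∈ riemannRochSpace (D + D') := by
  rw [mem_riemannRochSpace_iff] at *
  intro v
  by_cases hu0 : u = 0
  · left; rw [hu0, zero_mul]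
  by_cases hw0 : w = 0
  · left; rw [hw0, mul_zero]
  right
  rw [Place.ord_mul _ hu0 hw0, Finsupp.add_apply]
  have h1 := (hu v).resolve_left hu0
  have h2 := (hw v).resolve_left hw0
  omega

omit [IsAlgClosed K] [CharZero K] in
theorem W_mul {e e' : ℕ} {u w : F} (hu : u ∈ E.W e) (hw : w ∈ E.W e') : u * w ∈ E.W (e + e') := by
  unfold W at *
  rw [D_add]
  exact L_mul hu hw

omit [IsAlgClosed K] [CharZero K] in
theorem one_mem_W_zero : (1 : F) ∈ E.W 0 := by
  unfold W
  rw [mem_riemannRochSpace_iff]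
  intro v
  right
  rw [Place.ord_one]
  simp [D]

omit [IsAlgClosed K] [CharZero K] in
theorem W_pow {e : ℕ} {u : F} (hu : u ∈ E.W e) (n : ℕ) : u ^ n ∈ E.W (n * e) := by
  induction n with
  | zero => rw [pow_zero, zero_mul]; exact E.one_mem_W_zero
  | succ n ih =>
    rw [pow_succ, Nat.succ_mul]
    exact E.W_mul ih hu

omit [IsAlgClosed K] [CharZero K] in
theorem W_one_eq : E.W 1 = Submodule.span K (Set.range E.f) := by
  rw [E.f_span]
  unfold W D n0
  rw [one_mul]

omit [IsAlgClosed K] [CharZero K] in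
theorem f_mem (j : Fin (E.r + 1)) : E.f j ∈ E.W 1 := by
  rw [W_one_eq]
  exact Submodule.subset_span ⟨j, rfl⟩

omit [IsAlgClosed K] [CharZero K] in
theorem prod_mem_W_aux {ι : Type*} (s : Finset ι) (l : ι → F) (d : ι → ℕ)
    (hl : ∀ i ∈ s, l i ∈ E.W (d i)) : ∏ i ∈ s, l i ∈ E.W (∑ i ∈ s, d i) := by
  classical
  induction s using Finset.induction_on with
  | empty => simpa using E.one_mem_W_zero
  | insert a s ha ih =>
    rw [Finset.prod_insert ha, Finset.sum_insert ha]
    exact E.W_mul (hl a (Finset.mem_insert_self a s))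
      (ih fun i hi => hl i (Finset.mem_insert_of_mem hi))

omit [IsAlgClosed K] [CharZero K] in
theorem prod_mem_W {n : ℕ} (l : Fin n → F) (hl : ∀ i, l i ∈ E.W 1) : ∏ i, l i ∈ E.W n := by
  have := E.prod_mem_W_aux Finset.univ l (fun _ => 1) (fun i _ => hl i)
  simpa using this

omit [IsAlgClosed K] [CharZero K] in
theorem aeval_mem {e : ℕ} {P : MvPolynomial (Fin (E.r + 1)) K} (hP : P.IsHomogeneous e) :
    aeval E.f P ∈ E.W e := by
  rw [aeval_def, eval₂_eq']
  refine Submodule.sum_mem _ fun d hd => ?_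
  rw [← Algebra.smul_def]
  refine Submodule.smul_mem _ _ ?_
  have hde : ∑ i, d i = e := by
    rw [← Finsupp.degree_eq_sum]
    by_contra hne
    exact (MvPolynomial.mem_support_iff.mp hd) (hP.coeff_eq_zero hne)
  have := E.prod_mem_W_aux Finset.univ (fun i => E.f i ^ d i) (fun i => d i)
    (fun i _ => by
      have := E.W_pow (E.f_mem i) (d i)
      rwa [mul_one] at this)
  rwa [hde] at this

/-- `L(H oo)` -/
def LH (H : ℕ) : Submodule K F := riemannRochSpace (Finsupp.single E.oo (H : ℤ))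

omit [IsAlgClosed K] [CharZero K] in
theorem LH_mono {H H' : ℕ} (hH : H ≤ H') : E.LH H ≤ E.LH H' := by
  apply L_mono
  rw [Finsupp.single_le_single]
  exact_mod_cast hH

omit [IsAlgClosed K] [CharZero K] in
theorem W_eq_LH (e : ℕ) : E.W e = E.LH (e * E.n0) := rfl

theorem exists_exact (h : IsFF K F) (H : ℕ) (hH : E.c0 + 1 ≤ H) :
    ∃ u ∈ E.LH H, u ≠ 0 ∧ E.oo.ord u = -(H : ℤ) := by
  obtain ⟨s, hs, hs'⟩ := E.exists_not_mem h (Finsupp.single E.oo (H : ℤ)) E.oo (by
    rw [Divisor.degree_single, h.deg_eq_one]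
    push_cast
    omega)
  obtain ⟨h0, h1⟩ := ord_eq_of_not_mem hs hs'
  refine ⟨s, hs, h0, ?_⟩
  rw [h1, Finsupp.single_eq_same]

/-- span of the products -/
def Sp (e : ℕ) : Submodule K F := Submodule.span K {y | ∃ u ∈ E.W 1, ∃ w ∈ E.W e, y = u * w}

theorem LH_le_Sp (h : IsFF K F) (e : ℕ) (he : 1 ≤ e) :
    ∀ H : ℕ, H ≤ (e + 1) * E.n0 → ∀ y ∈ E.LH H, y ∈ E.Sp e := by
  intro H
  induction H with
  | zero =>
    intro _ y hy
    apply Submodule.subset_span
    refine ⟨1, ?_, y, ?_, (one_mul y).symm⟩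
    · rw [← E.f_zero]; exact E.f_mem 0
    · rw [W_eq_LH]; exact E.LH_mono (Nat.zero_le _) hy
  | succ H ih =>
    intro hH y hy
    by_cases hle : H + 1 ≤ e * E.n0
    · apply Submodule.subset_span
      refine ⟨1, ?_, y, ?_, (one_mul y).symm⟩
      · rw [← E.f_zero]; exact E.f_mem 0
      · rw [W_eq_LH]; exact E.LH_mono hle hy
    push Not at hle
    by_cases hy' : y ∈ E.LH H
    · exact ih (by omega) y hy'
    have hn0 : E.n0 = 2 * E.c0 + 4 := rfl
    have hen : E.n0 ≤ e * E.n0 := Nat.le_mul_of_pos_left _ he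
    have hexp : (e + 1) * E.n0 = e * E.n0 + E.n0 := by ring
    obtain ⟨h₂, hh₂⟩ : ∃ h₂, h₂ = max (E.c0 + 1) (H + 1 - E.n0) := ⟨_, rfl⟩
    obtain ⟨h₁, hh₁⟩ : ∃ h₁, h₁ = H + 1 - h₂ := ⟨_, rfl⟩
    have b1 : E.c0 + 1 ≤ h₂ := by rw [hh₂]; exact le_max_left _ _
    have b2 : h₂ ≤ e * E.n0 := by
      rw [hh₂]; apply max_le <;> omega
    have b2' : h₂ ≤ H + 1 := by omega
    have b3 : h₁ ≤ E.n0 := by
      have : H + 1 - E.n0 ≤ h₂ := by rw [hh₂]; exact le_max_right _ _
      omega
    have b4 : E.c0 + 1 ≤ h₁ := by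
      rcases max_cases (E.c0 + 1) (H + 1 - E.n0) with ⟨hm, _⟩ | ⟨hm, _⟩ <;> rw [hm] at hh₂ <;> omega
    have b5 : h₁ + h₂ = H + 1 := by omega
    obtain ⟨u, hu, hu0, hou⟩ := E.exists_exact h h₁ b4
    obtain ⟨w, hw, hw0, how⟩ := E.exists_exact h h₂ b1
    have huw0 : u * w ≠ 0 := mul_ne_zero hu0 hw0
    have huw : u * w ∈ E.LH (H + 1) := by
      have := L_mul hu hw
      rw [← Finsupp.single_add] at this
      unfold LH
      rw [← b5]
      push_cast
      exact this
    have hsub : (Finsupp.single E.oo ((H + 1 : ℕ) : ℤ) - Finsupp.single E.oo 1 : Divisor K F)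
        = Finsupp.single E.oo (H : ℤ) := by
      rw [← Finsupp.single_sub]
      congr 1
      push_cast
      ring
    obtain ⟨hy0, hoy⟩ := ord_eq_of_not_mem (P := E.oo) hy (by rw [hsub]; exact hy')
    rw [Finsupp.single_eq_same] at hoy
    have houw : E.oo.ord (u * w) = -((H + 1 : ℕ) : ℤ) := by
      rw [Place.ord_mul _ hu0 hw0, hou, how, ← b5]
      push_cast
      ring
    have hq : E.oo.ord (y / (u * w)) = 0 := by
      rw [div_eq_mul_inv, Place.ord_mul _ hy0 (inv_ne_zero huw0), Place.ord_inv, hoy, houw]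
      ring
    have hreg : Reg E.oo (y / (u * w)) := by rw [reg_iff, hq]
    obtain ⟨c, hc⟩ : ∃ c, c = val E.oo (y / (u * w)) := ⟨_, rfl⟩
    have hvan := van_sub_val h hreg
    rw [← hc] at hvan
    have hz : y - c • (u * w) ∈ E.LH (H + 1) := Submodule.sub_mem _ hy (Submodule.smul_mem _ _ huw)
    have hz' : y - c • (u * w) ∈ E.LH H := by
      by_contra hcon
      obtain ⟨hz0, hoz⟩ := ord_eq_of_not_mem (P := E.oo) hz (by rw [hsub]; exact hcon)
      rw [Finsupp.single_eq_same] at hoz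
      have e1 : y - c • (u * w) = (u * w) * (y / (u * w) - algebraMap K F c) := by
        rw [Algebra.smul_def]
        field_simp
      rcases hvan with h0 | hpos
      · rw [e1, h0, mul_zero] at hz0
        exact hz0 rfl
      · have hne : y / (u * w) - algebraMap K F c ≠ 0 := by
          intro h0
          rw [e1, h0, mul_zero] at hz0
          exact hz0 rfl
        rw [e1, Place.ord_mul _ huw0 hne, houw] at hoz
        omega
    have hfin : y = (y - c • (u * w)) + c • (u * w) := by ring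
    rw [hfin]
    refine Submodule.add_mem _ (ih (by omega) _ hz') (Submodule.smul_mem _ _ ?_)
    apply Submodule.subset_span
    refine ⟨u, ?_, w, ?_, rfl⟩
    · rw [W_eq_LH, one_mul]; exact E.LH_mono b3 hu
    · rw [W_eq_LH]; exact E.LH_mono b2 hw

/-- projective normality -/
theorem exists_hom (h : IsFF K F) (e : ℕ) {u : F} (hu : u ∈ E.W e) :
    ∃ P : MvPolynomial (Fin (E.r + 1)) K, P.IsHomogeneous e ∧ aeval E.f P = u := by
  have h1 : ∀ u ∈ E.W 1, ∃ P : MvPolynomial (Fin (E.r + 1)) K, P.IsHomogeneous 1 ∧ aeval E.f P = u := by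
    intro u hu
    rw [W_one_eq, Submodule.mem_span_range_iff_exists_fun] at hu
    obtain ⟨c, hc⟩ := hu
    refine ⟨∑ j, C (c j) * X j, IsHomogeneous.sum _ _ _ fun j _ => isHomogeneous_C_mul_X _ _, ?_⟩
    rw [map_sum, ← hc]
    refine Finset.sum_congr rfl fun j _ => ?_
    rw [map_mul, aeval_C, aeval_X, Algebra.smul_def]
  induction e generalizing u with
  | zero =>
    have hreg : ∀ P : Place K F, Reg P u := by
      intro P
      rw [reg_iff]
      unfold W at hu
      rw [mem_riemannRochSpace_iff] at hu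
      rcases hu P with h0 | h0
      · rw [h0, Place.ord_zero]
      · have hD : E.D 0 P = 0 := by simp [D]
        rw [hD] at h0
        omega
    obtain ⟨c, hc⟩ := exists_eq_algebraMap h hreg
    exact ⟨C c, isHomogeneous_C _ _, by rw [aeval_C, hc]⟩
  | succ e ih =>
    rcases Nat.eq_zero_or_pos e with he | he
    · subst he
      exact h1 u hu
    have hSp := E.LH_le_Sp h e he ((e + 1) * E.n0) le_rfl u hu
    have key : ∀ y ∈ E.Sp e, ∃ P : MvPolynomial (Fin (E.r + 1)) K,
        P.IsHomogeneous (e + 1) ∧ aeval E.f P = y := by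
      intro y hy
      unfold Sp at hy
      induction hy using Submodule.span_induction with
      | mem x hx =>
        obtain ⟨a, ha, b, hb, rfl⟩ := hx
        obtain ⟨Pa, hPa, hPa'⟩ := h1 a ha
        obtain ⟨Pb, hPb, hPb'⟩ := ih hb
        refine ⟨Pb * Pa, hPb.mul hPa, ?_⟩
        rw [map_mul, hPa', hPb', mul_comm]
      | zero => exact ⟨0, isHomogeneous_zero _ _ _, map_zero _⟩
      | add x y _ _ hx hy =>
        obtain ⟨Px, hPx, hPx'⟩ := hx
        obtain ⟨Py, hPy, hPy'⟩ := hy
        exact ⟨Px + Py, hPx.add hPy, by rw [map_add, hPx', hPy']⟩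
      | smul a x _ hx =>
        obtain ⟨Px, hPx, hPx'⟩ := hx
        refine ⟨C a * Px, ?_, by rw [map_mul, aeval_C, hPx', Algebra.smul_def]⟩
        have := (isHomogeneous_C (Fin (E.r + 1)) a).mul hPx
        rwa [zero_add] at this
    exact key u hSp

theorem exists_isMB (h : IsFF K F) (e : ℕ) : ∃ B, E.IsMB e B := by
  classical
  let T : Finset (Fin (E.r + 1) →₀ ℕ) := Finset.univ.finsuppAntidiag e
  have hT : ∀ m, m ∈ T ↔ Finsupp.degree m = e := by
    intro m
    rw [Finset.mem_finsuppAntidiag, Finsupp.degree_eq_sum]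
    exact ⟨fun hh => hh.1, fun hh => ⟨hh, Finset.subset_univ _⟩⟩
  let g : (Fin (E.r + 1) →₀ ℕ) → F := fun m => aeval E.f (monomial m (1 : K))
  obtain ⟨b, hbT, -, hspan, hli⟩ := exists_linearIndepOn_extension (K := K) (v := g)
    (s := ∅) (t := (T : Set _)) (linearIndepOn_empty _ _) (Set.empty_subset _)
  have hbfin : b.Finite := T.finite_toSet.subset hbT
  refine ⟨hbfin.toFinset, ?_, ?_, ?_⟩
  · intro m hm
    exact (hT m).mp (hbT (hbfin.mem_toFinset.mp hm))
  · have : LinearIndepOn K g (hbfin.toFinset : Set _) := by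
      rw [Set.Finite.coe_toFinset]; exact hli
    exact this
  · have hr : (Set.range fun m : hbfin.toFinset => aeval E.f (monomial (m : Fin (E.r + 1) →₀ ℕ) (1 : K)))
        = g '' b := by
      ext y
      constructor
      · rintro ⟨⟨m, hm⟩, rfl⟩
        exact ⟨m, hbfin.mem_toFinset.mp hm, rfl⟩
      · rintro ⟨m, hm, rfl⟩
        exact ⟨⟨m, hbfin.mem_toFinset.mpr hm⟩, rfl⟩
    rw [hr]
    apply le_antisymm
    · rw [Submodule.span_le]
      rintro _ ⟨m, hm, rfl⟩
      exact E.aeval_mem (isHomogeneous_monomial _ ((hT m).mp (hbT hm)))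
    · intro u hu
      obtain ⟨P, hP, rfl⟩ := E.exists_hom h e hu
      rw [P.as_sum, map_sum]
      refine Submodule.sum_mem _ fun m hm => ?_
      have hmT : m ∈ T := by
        rw [hT]
        by_contra hne
        exact (MvPolynomial.mem_support_iff.mp hm) (hP.coeff_eq_zero hne)
      have e1 : aeval E.f (monomial m (coeff m P)) = coeff m P • g m := by
        show _ = coeff m P • aeval E.f (monomial m (1 : K))
        rw [← map_smul, smul_monomial, smul_eq_mul, mul_one]
      rw [e1]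
      exact Submodule.smul_mem _ _ (hspan ⟨m, hmT, rfl⟩)

theorem isMB_B (h : IsFF K F) (e : ℕ) : E.IsMB e (E.B e) := by
  unfold B
  rw [dif_pos (E.exists_isMB h e)]
  exact (E.exists_isMB h e).choose_spec

end PE

end Fermat.Agent.S17.Loc
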