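/-
S17 / LOC, KEY [S17/L-EV]  (~300 lines, uses Loc/RR, Loc/Gen statements, S27 `val` API).  The evaluation `E.ev e u x = val x (u / f_a ^ e)`.

`f_ne_zero`: `E.f_li.ne_zero`.
`ord_f_a`: `x ≠ oo`: `a x = 0`, `f 0 = 1`, `ord = 0`, `E.D 1 x = 0` (`Finsupp.single_apply`).  `x = oo`: `a x = last`, `E.f_last`, `E.D 1 oo = n0`.
`reg_div`: `reg_iff`; `u = 0` trivial; else `ord_x (u / f_a^e) = ord_x u - e * ord_x f_a ≥ - E.D e x + e * E.D 1 x = 0` (`mem_riemannRochSpace_iff`, `Place.ord_mul`, `ord_inv`, `ord_zpow`/induction for pow).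
`lift_a`: `f_a / f_a = 1`, `val_algebraMap` for `1`.
`ev_add, ev_smul, ev_mul, ev_sum, ev_prod`: `val_add`, `val_mul`, `val_algebraMap` + `reg_div` (`add_div`, `mul_div_mul_comm`, `pow_add`).
`ev_f`: `pow_one`.      `ev_aeval`: induction on `P` is awkward with homogeneity; instead: `aeval f P / f_a^e = aeval (fun j => f j / f_a) P` for `P` homogeneous of degree `e`
   (`MvPolynomial.IsHomogeneous.eval₂`-type scaling lemma: `aeval (c • g) P = c^e • aeval g P`; see `MvPolynomial.IsHomogeneous.aeval`/`eval₂_smul`..., or expand `P` as a sum of monomials), then `val x (aeval g P) = eval (val x ∘ g) P`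
   for `g j` regular at `x` (`MvPolynomial.induction_on`: `val_add`, `val_mul`, `val_algebraMap`, together with `Reg x (aeval g P)`).
`ev_eq_zero_iff`: `val_eq_zero_iff`: `Van x (u / f_a^e)` iff `u = 0` or `ord_x u > - E.D e x`; compare with `mem_riemannRochSpace_iff` for `E.D e - single x 1` (at the places `≠ x` the condition is `hu`).
-/
import Fermat.Agent.S17.Loc.Gen

set_option autoImplicit false

noncomputable section

namespace Fermat.Agent.S17.Loc

open AlgebraicCurve Fermat.Agent.S37 Fermat.Agent.S27 MvPolynomial MK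

variable {K F : Type*} [Field K] [Field F] [Algebra K F] [IsAlgClosed K] [CharZero K]

namespace PE

variable (E : PE K F)

omit [IsAlgClosed K] [CharZero K] in
theorem f_ne_zero (j : Fin (E.r + 1)) : E.f j ≠ 0 := E.f_li.ne_zero j

omit [IsAlgClosed K] [CharZero K] in
theorem ord_f_a (x : Place K F) : x.ord (E.f (E.a x)) = - E.D 1 x := by
  classical
  unfold a D
  by_cases hx : x = E.oo
  · rw [if_pos hx, hx, E.f_last, Finsupp.single_eq_same]
    simp [n0]
  · rw [if_neg hx, E.f_zero, Place.ord_one, Finsupp.single_apply, if_neg (Ne.symm hx), neg_zero]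

omit [IsAlgClosed K] [CharZero K] in
theorem D_apply_eq (e : ℕ) (x : Place K F) : E.D e x = e * E.D 1 x := by
  classical
  unfold D
  rw [Finsupp.single_apply, Finsupp.single_apply]
  split_ifs
  · push_cast; ring
  · simp

omit [IsAlgClosed K] [CharZero K] in
theorem ord_div_pow {e : ℕ} {u : F} (hu0 : u ≠ 0) (x : Place K F) :
    x.ord (u / E.f (E.a x) ^ e) = x.ord u + E.D e x := by
  rw [div_eq_mul_inv, Place.ord_mul _ hu0 (inv_ne_zero (pow_ne_zero _ (E.f_ne_zero _))),
    Place.ord_inv, ← zpow_natCast, Place.ord_zpow, E.ord_f_a, E.D_apply_eq e x]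
  ring

theorem reg_div {e : ℕ} {u : F} (hu : u ∈ E.W e) (x : Place K F) : Reg x (u / E.f (E.a x) ^ e) := by
  rw [reg_iff]
  by_cases hu0 : u = 0
  · rw [hu0, zero_div, Place.ord_zero]
  · have h1 := (mem_riemannRochSpace_iff.1 hu x).resolve_left hu0
    rw [E.ord_div_pow hu0 x]
    omega

theorem lift_a (h : IsFF K F) (x : Place K F) : E.lift x (E.a x) = 1 := by
  unfold lift
  rw [div_self (E.f_ne_zero _)]
  simpa using val_algebraMap h x (1 : K)

theorem ev_zero (h : IsFF K F) (e : ℕ) (x : Place K F) : E.ev e 0 x = 0 := by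
  unfold ev
  rw [zero_div]
  simpa using val_algebraMap h x (0 : K)

theorem ev_add (h : IsFF K F) {e : ℕ} {u w : F} (hu : u ∈ E.W e) (hw : w ∈ E.W e) (x : Place K F) :
    E.ev e (u + w) x = E.ev e u x + E.ev e w x := by
  unfold ev
  rw [add_div, val_add h (E.reg_div hu x) (E.reg_div hw x)]

theorem ev_smul (h : IsFF K F) {e : ℕ} (c : K) {u : F} (hu : u ∈ E.W e) (x : Place K F) :
    E.ev e (c • u) x = c * E.ev e u x := by
  unfold ev
  rw [Algebra.smul_def, mul_div_assoc, val_mul h (reg_algebraMap x c) (E.reg_div hu x),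
    val_algebraMap h]

theorem ev_sum (h : IsFF K F) {e : ℕ} {ι : Type*} (s : Finset ι) (u : ι → F) (hu : ∀ i ∈ s, u i ∈ E.W e)
    (x : Place K F) : E.ev e (∑ i ∈ s, u i) x = ∑ i ∈ s, E.ev e (u i) x := by
  classical
  induction s using Finset.induction_on with
  | empty => simpa using E.ev_zero h e x
  | insert a s ha ih =>
    rw [Finset.sum_insert ha, Finset.sum_insert ha,
      E.ev_add h (hu a (Finset.mem_insert_self a s))
        (Submodule.sum_mem _ fun i hi => hu i (Finset.mem_insert_of_mem hi)) x,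
      ih fun i hi => hu i (Finset.mem_insert_of_mem hi)]

theorem ev_mul (h : IsFF K F) {e e' : ℕ} {u w : F} (hu : u ∈ E.W e) (hw : w ∈ E.W e') (x : Place K F) :
    E.ev (e + e') (u * w) x = E.ev e u x * E.ev e' w x := by
  unfold ev
  rw [pow_add, mul_div_mul_comm, val_mul h (E.reg_div hu x) (E.reg_div hw x)]

theorem ev_prod (h : IsFF K F) {n : ℕ} (l : Fin n → F) (hl : ∀ i, l i ∈ E.W 1) (x : Place K F) :
    E.ev n (∏ i, l i) x = ∏ i, E.ev 1 (l i) x := by
  induction n with
  | zero =>
    unfold ev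
    simpa using val_algebraMap h x (1 : K)
  | succ n ih =>
    rw [Fin.prod_univ_succ, Fin.prod_univ_succ, ← ih _ fun i => hl i.succ,
      ← E.ev_mul h (hl 0) (E.prod_mem_W _ fun i => hl i.succ) x, add_comm 1 n]

omit [IsAlgClosed K] [CharZero K] in
theorem ev_f (j : Fin (E.r + 1)) (x : Place K F) : E.ev 1 (E.f j) x = E.lift x j := by
  unfold ev lift
  rw [pow_one]

/-- values of polynomials in regular functions -/
theorem reg_val_aeval (h : IsFF K F) {σ : Type*} (x : Place K F) (g : σ → F) (hg : ∀ j, Reg x (g j))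
    (P : MvPolynomial σ K) :
    Reg x (aeval g P) ∧ val x (aeval g P) = eval (fun j => val x (g j)) P := by
  induction P using MvPolynomial.induction_on with
  | C c =>
    rw [aeval_C, eval_C]
    exact ⟨reg_algebraMap x c, val_algebraMap h x c⟩
  | add p q hp hq =>
    rw [map_add, map_add]
    exact ⟨hp.1.add hq.1, by rw [val_add h hp.1 hq.1, hp.2, hq.2]⟩
  | mul_X p j hp =>
    rw [map_mul, map_mul, aeval_X, eval_X]
    exact ⟨hp.1.mul (hg j), by rw [val_mul h hp.1 (hg j), hp.2]⟩

theorem ev_aeval (h : IsFF K F) {e : ℕ} {P : MvPolynomial (Fin (E.r + 1)) K} (hP : P.IsHomogeneous e)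
    (x : Place K F) : E.ev e (aeval E.f P) x = eval (E.lift x) P := by
  have hg : ∀ j, Reg x (E.f j / E.f (E.a x)) := by
    intro j
    have := E.reg_div (E.f_mem j) x
    rwa [pow_one] at this
  have h1 : aeval E.f P / E.f (E.a x) ^ e = aeval (fun j => E.f j / E.f (E.a x)) P := by
    rw [aeval_def, aeval_def, eval₂_eq', eval₂_eq', Finset.sum_div]
    apply Finset.sum_congr rfl
    intro d hd
    have hde : ∑ i, d i = e := by
      rw [← Finsupp.degree_eq_sum]
      by_contra hne
      exact (MvPolynomial.mem_support_iff.mp hd) (hP.coeff_eq_zero hne)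
    rw [mul_div_assoc]
    congr 1
    simp_rw [div_pow]
    rw [Finset.prod_div_distrib, Finset.prod_pow_eq_pow_sum, hde]
  unfold ev
  rw [h1, (reg_val_aeval h x _ hg P).2]
  rfl

theorem ev_eq_zero_iff (h : IsFF K F) {e : ℕ} {u : F} (hu : u ∈ E.W e) (x : Place K F) :
    E.ev e u x = 0 ↔ u ∈ riemannRochSpace (E.D e - Finsupp.single x 1) := by
  classical
  unfold ev
  rw [val_eq_zero_iff h (E.reg_div hu x), mem_riemannRochSpace_iff]
  by_cases hu0 : u = 0
  · constructor
    · intro _ v
      exact Or.inl hu0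
    · intro _
      left
      rw [hu0, zero_div]
  · have hne : u / E.f (E.a x) ^ e ≠ 0 := div_ne_zero hu0 (pow_ne_zero _ (E.f_ne_zero _))
    constructor
    · intro hv v
      right
      have hv' := hv.resolve_left hne
      rw [E.ord_div_pow hu0 x] at hv'
      rw [Finsupp.sub_apply, Finsupp.single_apply]
      by_cases hxv : x = v
      · rw [if_pos hxv, ← hxv]
        omega
      · rw [if_neg hxv]
        have := (mem_riemannRochSpace_iff.1 hu v).resolve_left hu0
        omega
    · intro hv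
      right
      have hv' := (hv x).resolve_left hu0
      rw [Finsupp.sub_apply, Finsupp.single_eq_same] at hv'
      rw [E.ord_div_pow hu0 x]
      omega

end PE

end Fermat.Agent.S17.Loc
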