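/-
S17 / LOC, KEY [S17/L-NORM]  (Mathlib + MK/Defs only, ~250 lines).  Sup norms of vectors and of polynomials.

All proofs are a few lines: `le_ciSup (Set.finite_range _).bddAbove`, `ciSup_le`, `Real.iSup_nonneg`,
`exists_eq_ciSup_of_finite`.  For `nP`: the range of `m ↦ v (coeff m P)` is finite (contained in the image of the support, union `{0}`).
`nP_sum_le`: `MK.sum_le` coefficientwise.
`nP_mul_le`: `coeff_mul` = sum over the antidiagonal of `m`; only the pairs `(m₁,m₂)` with `deg m₁ = e` matter and there are at most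
  `N = card {m | degree m = e}` of them (`σ` finite; the set of `m : σ →₀ ℕ` with `degree m = e` is finite: `Finsupp`/`Finset.finsuppAntidiag`, or
  bound the antidiagonal of `m` (degree `e + e'`) by the finite set of all pairs of degree `≤ e + e'`); `MK.sum_le`, `tau^N = mk ∅ N`.
`eval_hom_le`: `eval z P = ∑ m ∈ support, coeff m P * ∏ z_i^(m i)`; `v (∏ z_i ^ m i) ≤ (nv v z)^e` since `∑ m i = e`; the support is contained in the finite
  set of monomials of degree `e`.
-/
import Fermat.Agent.S17.Loc.Defs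

set_option autoImplicit false

noncomputable section

namespace Fermat.Agent.S17.Loc

open MvPolynomial MK

variable {K : Type*} [Field K]

theorem le_nv {ι : Type*} [Finite ι] (v : AbsoluteValue K ℝ) (z : ι → K) (j : ι) : v (z j) ≤ nv v z :=
  le_ciSup (f := fun j => v (z j)) (Set.finite_range _).bddAbove j

theorem nv_le {ι : Type*} [Nonempty ι] (v : AbsoluteValue K ℝ) (z : ι → K) {B : ℝ}
    (h : ∀ j, v (z j) ≤ B) : nv v z ≤ B := ciSup_le h

theorem nv_nonneg {ι : Type*} (v : AbsoluteValue K ℝ) (z : ι → K) : 0 ≤ nv v z :=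
  Real.iSup_nonneg fun _ => v.nonneg _

theorem exists_nv_eq {ι : Type*} [Finite ι] [Nonempty ι] (v : AbsoluteValue K ℝ) (z : ι → K) :
    ∃ j, nv v z = v (z j) := by
  obtain ⟨j, hj⟩ := exists_eq_ciSup_of_finite (f := fun j => v (z j))
  exact ⟨j, hj.symm⟩

theorem nv_mul_left {ι : Type*} [Finite ι] (v : AbsoluteValue K ℝ) (c : K) (z : ι → K) :
    nv v (fun j => c * z j) = v c * nv v z := by
  unfold nv
  simp only [map_mul]
  rw [Real.mul_iSup_of_nonneg (v.nonneg c)]

theorem nv_pos {ι : Type*} [Finite ι] (v : AbsoluteValue K ℝ) {z : ι → K} {j : ι} (h : z j ≠ 0) :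
    0 < nv v z := lt_of_lt_of_le (v.pos h) (le_nv v z j)

theorem nP_bdd {σ : Type*} (v : AbsoluteValue K ℝ) (P : MvPolynomial σ K) :
    BddAbove (Set.range fun m : σ →₀ ℕ => v (P.coeff m)) := by
  classical
  apply Set.Finite.bddAbove
  apply ((P.support.image fun m => v (P.coeff m)).finite_toSet.union (Set.finite_singleton 0)).subset
  rintro _ ⟨m, rfl⟩
  by_cases hm : m ∈ P.support
  · left
    exact Finset.mem_coe.mpr (Finset.mem_image_of_mem _ hm)
  · right
    rw [MvPolynomial.notMem_support_iff] at hm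
    simp [hm]

theorem le_nP {σ : Type*} (v : AbsoluteValue K ℝ) (P : MvPolynomial σ K) (m : σ →₀ ℕ) :
    v (P.coeff m) ≤ nP v P :=
  le_ciSup (f := fun m : σ →₀ ℕ => v (P.coeff m)) (nP_bdd v P) m

theorem nP_le {σ : Type*} (v : AbsoluteValue K ℝ) (P : MvPolynomial σ K) {B : ℝ}
    (h : ∀ m, v (P.coeff m) ≤ B) : nP v P ≤ B := ciSup_le h

theorem nP_nonneg {σ : Type*} (v : AbsoluteValue K ℝ) (P : MvPolynomial σ K) : 0 ≤ nP v P :=
  Real.iSup_nonneg fun _ => v.nonneg _

theorem exists_nP_eq {σ : Type*} (v : AbsoluteValue K ℝ) (P : MvPolynomial σ K) :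
    ∃ m, nP v P = v (P.coeff m) := by
  classical
  by_cases hP : P = 0
  · refine ⟨0, le_antisymm (nP_le v P fun m => ?_) (le_nP v P 0)⟩
    simp [hP]
  · have hne : P.support.Nonempty := by
      rwa [Finset.nonempty_iff_ne_empty, Ne, MvPolynomial.support_eq_empty]
    obtain ⟨m, hm, hmax⟩ := Finset.exists_max_image P.support (fun m => v (P.coeff m)) hne
    refine ⟨m, le_antisymm (nP_le v P fun m' => ?_) (le_nP v P m)⟩
    by_cases hm' : m' ∈ P.support
    · exact hmax m' hm'
    · rw [MvPolynomial.notMem_support_iff] at hm'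
      rw [hm', map_zero]
      exact v.nonneg _

theorem nP_eq_zero_iff {σ : Type*} (v : AbsoluteValue K ℝ) (P : MvPolynomial σ K) :
    nP v P = 0 ↔ P = 0 := by
  constructor
  · intro h
    ext m
    have h1 := le_nP v P m
    rw [h] at h1
    have h2 : v (P.coeff m) = 0 := le_antisymm h1 (v.nonneg _)
    simpa using h2
  · rintro rfl
    exact le_antisymm (nP_le v 0 fun m => by simp) (nP_nonneg v 0)

theorem nP_C_mul {σ : Type*} (v : AbsoluteValue K ℝ) (c : K) (P : MvPolynomial σ K) :
    nP v (C c * P) = v c * nP v P := by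
  unfold nP
  simp only [coeff_C_mul, map_mul]
  rw [Real.mul_iSup_of_nonneg (v.nonneg c)]

theorem nP_monomial {σ : Type*} (v : AbsoluteValue K ℝ) (m : σ →₀ ℕ) (c : K) :
    nP v (monomial m c) = v c := by
  classical
  apply le_antisymm
  · apply nP_le
    intro m'
    rw [coeff_monomial]
    split_ifs
    · exact le_refl _
    · rw [map_zero]; exact v.nonneg _
  · have := le_nP v (monomial m c) m
    rwa [coeff_monomial, if_pos rfl] at this

theorem nP_sum_le {σ ι : Type*} (v : AbsoluteValue K ℝ) (s : Finset ι) (P : ι → MvPolynomial σ K)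
    {B : ℝ} (hB : 0 ≤ B) (h : ∀ i ∈ s, nP v (P i) ≤ B) :
    nP v (∑ i ∈ s, P i) ≤ tau v ^ s.card * B := by
  apply nP_le
  intro m
  rw [coeff_sum]
  exact sum_le s _ v hB fun i hi => le_trans (le_nP v (P i) m) (h i hi)

/-- a linear form -/
theorem nP_lin {σ : Type*} [Fintype σ] (v : AbsoluteValue K ℝ) (c : σ → K) :
    nP v (∑ j, C (c j) * X j) = nv v c := by
  classical
  have hco : ∀ m : σ →₀ ℕ, (∑ j, C (c j) * X j : MvPolynomial σ K).coeff m
      = ∑ j, if Finsupp.single j 1 = m then c j else 0 := by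
    intro m
    rw [coeff_sum]
    refine Finset.sum_congr rfl fun j _ => ?_
    rw [coeff_C_mul, coeff_X]
    split_ifs <;> simp
  apply le_antisymm
  · apply nP_le
    intro m
    rw [hco]
    by_cases hm : ∃ j, Finsupp.single j 1 = m
    · obtain ⟨j, rfl⟩ := hm
      rw [Finset.sum_eq_single j]
      · rw [if_pos rfl]; exact le_nv v c j
      · intro b _ hb
        rw [if_neg]
        intro hcon
        apply hb
        exact (Finsupp.single_left_injective one_ne_zero) hcon
      · intro hj; exact absurd (Finset.mem_univ j) hj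
    · rw [Finset.sum_eq_zero]
      · rw [map_zero]; exact nv_nonneg v c
      · intro j _
        rw [if_neg]
        intro hcon
        exact hm ⟨j, hcon⟩
  · rcases isEmpty_or_nonempty σ with hσ | hσ
    · have : nv v c = 0 := by unfold nv; exact Real.iSup_of_isEmpty _
      rw [this]; exact nP_nonneg v _
    · apply nv_le
      intro j
      have := le_nP v (∑ j, C (c j) * X j) (Finsupp.single j 1)
      rw [hco, Finset.sum_eq_single j] at this
      · rwa [if_pos rfl] at this
      · intro b _ hb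
        rw [if_neg]
        intro hcon
        apply hb
        exact (Finsupp.single_left_injective one_ne_zero) hcon
      · intro hj; exact absurd (Finset.mem_univ j) hj


theorem mk_empty_eq (M : ℕ) (v : AbsoluteValue K ℝ) : mk ∅ M v = tau v ^ M := by
  simp [mk, base]

theorem nP_mul_le {σ : Type*} [Finite σ] (e e' : ℕ) : ∃ M : ℕ, ∀ (v : AbsoluteValue K ℝ)
    (P Q : MvPolynomial σ K), P.IsHomogeneous e → Q.IsHomogeneous e' →
      nP v (P * Q) ≤ mk ∅ M v * (nP v P * nP v Q) := by
  classical
  cases nonempty_fintype σ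
  let T : Finset (σ →₀ ℕ) := Finset.univ.finsuppAntidiag (e + e')
  refine ⟨∑ m ∈ T, (Finset.HasAntidiagonal.antidiagonal m).card, fun v P Q hP hQ => ?_⟩
  have hnn : 0 ≤ nP v P * nP v Q := mul_nonneg (nP_nonneg v P) (nP_nonneg v Q)
  apply nP_le
  intro m
  by_cases hm : Finsupp.degree m = e + e'
  · have hmT : m ∈ T := by
      rw [Finset.mem_finsuppAntidiag]
      exact ⟨by rw [← Finsupp.degree_eq_sum]; exact hm, Finset.subset_univ _⟩
    rw [coeff_mul, mk_empty_eq]
    have h1 := sum_le (Finset.HasAntidiagonal.antidiagonal m) (fun x => P.coeff x.1 * Q.coeff x.2) v hnn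
      (fun x _ => by
        rw [map_mul]
        exact mul_le_mul (le_nP v P _) (le_nP v Q _) (v.nonneg _) (nP_nonneg v P))
    refine le_trans h1 (mul_le_mul_of_nonneg_right ?_ hnn)
    apply pow_le_pow_right₀ (one_le_tau v)
    exact Finset.single_le_sum (f := fun m => (Finset.HasAntidiagonal.antidiagonal m).card)
      (fun _ _ => Nat.zero_le _) hmT
  · rw [(hP.mul hQ).coeff_eq_zero hm, map_zero]
    exact mul_nonneg (mk_pos _ _ _).le hnn

theorem eval_hom_le {σ : Type*} [Finite σ] (e : ℕ) : ∃ M : ℕ, ∀ (v : AbsoluteValue K ℝ)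
    (P : MvPolynomial σ K) (z : σ → K), P.IsHomogeneous e →
      v (eval z P) ≤ mk ∅ M v * (nP v P * nv v z ^ e) := by
  classical
  cases nonempty_fintype σ
  let T : Finset (σ →₀ ℕ) := Finset.univ.finsuppAntidiag e
  refine ⟨T.card, fun v P z hP => ?_⟩
  have hnn : 0 ≤ nP v P * nv v z ^ e := mul_nonneg (nP_nonneg v P) (pow_nonneg (nv_nonneg v z) _)
  have hsub : P.support ⊆ T := by
    intro m hm
    rw [Finset.mem_finsuppAntidiag]
    refine ⟨?_, Finset.subset_univ _⟩
    rw [← Finsupp.degree_eq_sum]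
    by_contra hne
    exact (MvPolynomial.mem_support_iff.mp hm) (hP.coeff_eq_zero hne)
  rw [eval_eq', mk_empty_eq]
  have h1 := sum_le P.support (fun d => P.coeff d * ∏ i, z i ^ d i) v hnn
    (fun d hd => by
      rw [map_mul]
      refine mul_le_mul (le_nP v P _) ?_ (v.nonneg _) (nP_nonneg v P)
      rw [map_prod]
      have hd' : ∑ i, d i = e := (Finset.mem_finsuppAntidiag.mp (hsub hd)).1
      calc ∏ i, v (z i ^ d i) ≤ ∏ i, nv v z ^ d i := by
            apply Finset.prod_le_prod (fun i _ => v.nonneg _)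
            intro i _
            rw [map_pow]
            exact pow_le_pow_left₀ (v.nonneg _) (le_nv v z i) _
        _ = nv v z ^ e := by rw [Finset.prod_pow_eq_pow_sum, hd'])
  refine le_trans h1 (mul_le_mul_of_nonneg_right ?_ hnn)
  exact pow_le_pow_right₀ (one_le_tau v) (Finset.card_le_card hsub)

end Fermat.Agent.S17.Loc
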