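/-
S17 / LOC, KEY [S17/L-SEC]  (~350 lines, uses Loc/Norm, Loc/Gen, Loc/Ev statements).  Coordinates `E.co e u` and the norm `E.nm v e u`.

Let `(h1,h2,h3) := E.isMB_B h e`.
`co_spec`: `u ∈ W e = span (range ..)` (`h3`): `u = ∑ m : B e, c m • aeval f (monomial m 1)` (`Submodule.mem_span_range_iff_exists_fun`), `Q = ∑ m : B e, monomial m (c m)`; `dif_pos` + `choose_spec`.
`co_unique`: both `co e (aeval f Q)` and `Q` are supported in `B e` with the same image; a polynomial `R` supported in `B e` is `∑ m : B e, monomial m (coeff m R)`, `aeval f R = ∑ coeff m R • (..)`, so `h2`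
   (`Fintype.linearIndependent_iff`) gives `coeff m R = 0` for the difference.
`co_hom`: support in `B e`, all of degree `e` (`h1`); for `u ∉ range` `co = 0`.   (`IsHomogeneous` : `coeff m ≠ 0 → Finsupp.weight 1 m = e`; `Finsupp.degree_eq_weight_one`.)
`co_add, co_smul, co_sum`: `co_unique` applied to `co e u + co e w` etc.
`co_lin`: `B 1` must contain ALL `single j 1` (`card (B 1) = finrank (W 1) = r + 1`, or directly: `f j ∈ W 1` has coordinates supported in `B 1`, of degree 1, i.e. a linear form `∑ c_i X_i` with `∑ c_i f_i = f_j`, so `c = δ_j` by `E.f_li`, so `single j 1 ∈ B 1`); then `co_unique`.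
`nm_lin`: `co_lin` + `nP_lin`.
`co_bound`: `P = ∑_{m, deg m = e} monomial m (coeff m P)` so `co e (aeval f P) = ∑_m C (coeff m P) * co e (f^m)` (finite set `Ω` of monomials of degree `e`);
   `S = ` all coefficients of all `co e (f^m)`, `nP (co e (f^m)) ≤ mk S 1 v` (`le_mk`), `nP_sum_le`, `nP_C_mul`, `le_nP`.
`ev_le`: `u = aeval f (co e u)`, `ev_aeval` (`co_hom`), `eval_hom_le`.
`nm_smul`: `co_smul`, `nP_C_mul` (`c • Q = C c * Q`: `MvPolynomial.smul_eq_C_mul`).   `nm_pos`: `nP_eq_zero_iff`, `co_spec`.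
`nm_monomial`: for `m ∈ B e`: `co e (f^m) = monomial m 1`, `nP_monomial`, `map_one`.
-/
import Fermat.Agent.S17.Loc.Norm
import Fermat.Agent.S17.Loc.Ev

set_option autoImplicit false

noncomputable section

namespace Fermat.Agent.S17.Loc

open AlgebraicCurve Fermat.Agent.S37 Fermat.Agent.S27 MvPolynomial MK

variable {K F : Type*} [Field K] [Field F] [Algebra K F] [IsAlgClosed K] [CharZero K]

namespace PE

variable (E : PE K F)

omit [IsAlgClosed K] [CharZero K] in
theorem aeval_monomial_smul (m : Fin (E.r + 1) →₀ ℕ) (c : K) :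
    aeval E.f (monomial m c) = c • aeval E.f (monomial m (1 : K)) := by
  rw [← map_smul, smul_monomial, smul_eq_mul, mul_one]

omit [IsAlgClosed K] [CharZero K] in
/-- a polynomial supported in `T` in terms of the monomials of `T` -/
theorem aeval_eq_sum {T : Finset (Fin (E.r + 1) →₀ ℕ)} {Q : MvPolynomial (Fin (E.r + 1)) K}
    (hQ : Q.support ⊆ T) :
    aeval E.f Q = ∑ m ∈ T, Q.coeff m • aeval E.f (monomial m (1 : K)) := by
  conv_lhs => rw [Q.as_sum, map_sum]
  rw [← Finset.sum_subset hQ]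
  · exact Finset.sum_congr rfl fun m _ => E.aeval_monomial_smul m _
  · intro m _ hm
    rw [MvPolynomial.notMem_support_iff.1 hm, zero_smul]

theorem eq_of_aeval_eq (h : IsFF K F) {e : ℕ} {Q Q' : MvPolynomial (Fin (E.r + 1)) K}
    (hQ : Q.support ⊆ E.B e) (hQ' : Q'.support ⊆ E.B e) (heq : aeval E.f Q = aeval E.f Q') :
    Q = Q' := by
  classical
  obtain ⟨-, h2, -⟩ := E.isMB_B h e
  have hsub : (Q - Q').support ⊆ E.B e :=
    (MvPolynomial.support_sub _ _ _).trans (Finset.union_subset hQ hQ')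
  have h0 : aeval E.f (Q - Q') = 0 := by rw [map_sub, heq, sub_self]
  rw [E.aeval_eq_sum hsub, ← Finset.sum_coe_sort] at h0
  have h3 := Fintype.linearIndependent_iff.1 h2 (fun m => (Q - Q').coeff (m : Fin (E.r + 1) →₀ ℕ)) h0
  rw [← sub_eq_zero]
  ext m
  rw [coeff_zero]
  by_cases hm : m ∈ E.B e
  · exact h3 ⟨m, hm⟩
  · exact MvPolynomial.notMem_support_iff.1 fun hm' => hm (hsub hm')

omit [IsAlgClosed K] [CharZero K] in
theorem co_spec_of_exists {e : ℕ} {u : F}
    (hex : ∃ Q : MvPolynomial (Fin (E.r + 1)) K, Q.support ⊆ E.B e ∧ aeval E.f Q = u) :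
    (E.co e u).support ⊆ E.B e ∧ aeval E.f (E.co e u) = u := by
  unfold co
  rw [dif_pos hex]
  exact hex.choose_spec

theorem co_spec (h : IsFF K F) {e : ℕ} {u : F} (hu : u ∈ E.W e) :
    (E.co e u).support ⊆ E.B e ∧ aeval E.f (E.co e u) = u := by
  classical
  apply E.co_spec_of_exists
  obtain ⟨-, -, h3⟩ := E.isMB_B h e
  rw [← h3] at hu
  obtain ⟨c, hc⟩ := (Submodule.mem_span_range_iff_exists_fun K).1 hu
  refine ⟨∑ m : E.B e, monomial (m : Fin (E.r + 1) →₀ ℕ) (c m), ?_, ?_⟩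
  · refine (MvPolynomial.support_sum).trans ?_
    intro m hm
    obtain ⟨m', -, hm'⟩ := Finset.mem_biUnion.1 hm
    have := MvPolynomial.support_monomial_subset hm'
    rw [Finset.mem_singleton] at this
    rw [this]
    exact m'.2
  · rw [map_sum, ← hc]
    exact Finset.sum_congr rfl fun m _ => E.aeval_monomial_smul _ _

theorem co_unique (h : IsFF K F) {e : ℕ} {Q : MvPolynomial (Fin (E.r + 1)) K} (hQ : Q.support ⊆ E.B e) :
    E.co e (aeval E.f Q) = Q := by
  obtain ⟨h1, h2⟩ := E.co_spec_of_exists ⟨Q, hQ, rfl⟩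
  exact E.eq_of_aeval_eq h h1 hQ h2

theorem co_hom (h : IsFF K F) (e : ℕ) (u : F) : (E.co e u).IsHomogeneous e := by
  classical
  obtain ⟨h1, -, -⟩ := E.isMB_B h e
  by_cases hex : ∃ Q : MvPolynomial (Fin (E.r + 1)) K, Q.support ⊆ E.B e ∧ aeval E.f Q = u
  · obtain ⟨h2, -⟩ := E.co_spec_of_exists hex
    intro d hd
    have := h1 d (h2 (MvPolynomial.mem_support_iff.2 hd))
    rw [Finsupp.degree_eq_weight_one] at this
    exact this
  · unfold co
    rw [dif_neg hex]
    exact isHomogeneous_zero _ _ _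

theorem co_add (h : IsFF K F) {e : ℕ} {u w : F} (hu : u ∈ E.W e) (hw : w ∈ E.W e) :
    E.co e (u + w) = E.co e u + E.co e w := by
  classical
  obtain ⟨h1, h2⟩ := E.co_spec h hu
  obtain ⟨h3, h4⟩ := E.co_spec h hw
  have := E.co_unique h (Q := E.co e u + E.co e w)
    ((MvPolynomial.support_add).trans (Finset.union_subset h1 h3))
  rwa [map_add, h2, h4] at this

theorem co_smul (h : IsFF K F) {e : ℕ} (c : K) {u : F} (hu : u ∈ E.W e) :
    E.co e (c • u) = C c * E.co e u := by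
  obtain ⟨h1, h2⟩ := E.co_spec h hu
  have := E.co_unique h (Q := C c * E.co e u) (by
    rw [C_mul']
    exact (MvPolynomial.support_smul).trans h1)
  rwa [map_mul, aeval_C, h2, ← Algebra.smul_def] at this

theorem co_zero (h : IsFF K F) (e : ℕ) : E.co e 0 = 0 := by
  have := E.co_unique h (e := e) (Q := 0) (by simp)
  rwa [map_zero] at this

theorem co_sum (h : IsFF K F) {e : ℕ} {ι : Type*} (s : Finset ι) (u : ι → F) (hu : ∀ i ∈ s, u i ∈ E.W e) :
    E.co e (∑ i ∈ s, u i) = ∑ i ∈ s, E.co e (u i) := by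
  classical
  induction s using Finset.induction_on with
  | empty => simpa using E.co_zero h e
  | insert a s ha ih =>
    rw [Finset.sum_insert ha, Finset.sum_insert ha,
      E.co_add h (hu a (Finset.mem_insert_self a s))
        (Submodule.sum_mem _ fun i hi => hu i (Finset.mem_insert_of_mem hi)),
      ih fun i hi => hu i (Finset.mem_insert_of_mem hi)]

theorem co_eq_zero_iff (h : IsFF K F) {e : ℕ} {u : F} (hu : u ∈ E.W e) : E.co e u = 0 ↔ u = 0 := by
  constructor
  · intro h0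
    have := (E.co_spec h hu).2
    rw [h0, map_zero] at this
    exact this.symm
  · rintro rfl
    exact E.co_zero h e

theorem co_f (h : IsFF K F) (j : Fin (E.r + 1)) : E.co 1 (E.f j) = X j := by
  classical
  have h1 : E.co 1 (E.f j) ∈ homogeneousSubmodule (Fin (E.r + 1)) K 1 := E.co_hom h 1 (E.f j)
  rw [homogeneousSubmodule_one_eq_span_X] at h1
  obtain ⟨c, hc⟩ := (Submodule.mem_span_range_iff_exists_fun K).1 h1
  have h2 := (E.co_spec h (E.f_mem j)).2
  rw [← hc, map_sum] at h2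
  simp only [map_smul, aeval_X] at h2
  have h3 : ∑ i, (c i - if i = j then 1 else 0) • E.f i = 0 := by
    simp only [sub_smul, Finset.sum_sub_distrib, h2, ite_smul, one_smul, zero_smul,
      Finset.sum_ite_eq', Finset.mem_univ, if_true, sub_self]
  have h4 := Fintype.linearIndependent_iff.1 E.f_li _ h3
  rw [← hc]
  have h5 : ∀ i, c i = if i = j then 1 else 0 := fun i => sub_eq_zero.1 (h4 i)
  simp only [h5, ite_smul, one_smul, zero_smul, Finset.sum_ite_eq', Finset.mem_univ, if_true]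

theorem co_lin (h : IsFF K F) (c : Fin (E.r + 1) → K) :
    E.co 1 (∑ j, c j • E.f j) = ∑ j, C (c j) * X j := by
  rw [E.co_sum h _ _ fun j _ => Submodule.smul_mem _ _ (E.f_mem j)]
  exact Finset.sum_congr rfl fun j _ => by rw [E.co_smul h _ (E.f_mem j), E.co_f h]

theorem nm_lin (h : IsFF K F) (v : AbsoluteValue K ℝ) (c : Fin (E.r + 1) → K) :
    E.nm v 1 (∑ j, c j • E.f j) = nv v c := by
  unfold nm
  rw [E.co_lin h, nP_lin]

theorem nm_nonneg (v : AbsoluteValue K ℝ) (e : ℕ) (u : F) : 0 ≤ E.nm v e u := nP_nonneg v _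

theorem nm_pos (h : IsFF K F) (v : AbsoluteValue K ℝ) {e : ℕ} {u : F} (hu : u ∈ E.W e) (h0 : u ≠ 0) :
    0 < E.nm v e u := by
  refine lt_of_le_of_ne (E.nm_nonneg v e u) fun h1 => h0 ?_
  exact (E.co_eq_zero_iff h hu).1 ((nP_eq_zero_iff v _).1 h1.symm)

theorem nm_smul (h : IsFF K F) (v : AbsoluteValue K ℝ) {e : ℕ} (c : K) {u : F} (hu : u ∈ E.W e) :
    E.nm v e (c • u) = v c * E.nm v e u := by
  unfold nm
  rw [E.co_smul h c hu, nP_C_mul]

theorem nm_monomial (h : IsFF K F) (v : AbsoluteValue K ℝ) {e : ℕ} {m : Fin (E.r + 1) →₀ ℕ} (hm : m ∈ E.B e) :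
    E.nm v e (aeval E.f (monomial m (1 : K))) = 1 := by
  unfold nm
  rw [E.co_unique h ((MvPolynomial.support_monomial_subset).trans (Finset.singleton_subset_iff.2 hm)),
    nP_monomial, map_one]

theorem nm_sum_le (h : IsFF K F) (v : AbsoluteValue K ℝ) {e : ℕ} {ι : Type*} (s : Finset ι) (u : ι → F)
    (hu : ∀ i ∈ s, u i ∈ E.W e) {B : ℝ} (hB : 0 ≤ B) (hb : ∀ i ∈ s, E.nm v e (u i) ≤ B) :
    E.nm v e (∑ i ∈ s, u i) ≤ tau v ^ s.card * B := by
  unfold nm
  rw [E.co_sum h s u hu]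
  exact nP_sum_le v s _ hB hb

/-- passing to the normal form is bounded -/
theorem co_bound (h : IsFF K F) (e : ℕ) : ∃ (S : Finset K) (M : ℕ), ∀ (v : AbsoluteValue K ℝ)
    (P : MvPolynomial (Fin (E.r + 1)) K), P.IsHomogeneous e →
      E.nm v e (aeval E.f P) ≤ MK.mk S M v * nP v P := by
  classical
  let T : Finset (Fin (E.r + 1) →₀ ℕ) := Finset.univ.finsuppAntidiag e
  have hT : ∀ m, m ∈ T ↔ Finsupp.degree m = e := by
    intro m
    rw [Finset.mem_finsuppAntidiag, Finsupp.degree_eq_sum]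
    exact ⟨fun hh => hh.1, fun hh => ⟨hh, Finset.subset_univ _⟩⟩
  let g : (Fin (E.r + 1) →₀ ℕ) → F := fun m => aeval E.f (monomial m (1 : K))
  have hg : ∀ m ∈ T, g m ∈ E.W e := fun m hm =>
    E.aeval_mem (isHomogeneous_monomial _ ((hT m).1 hm))
  let S : Finset K := T.biUnion fun m => (E.co e (g m)).support.image fun d => (E.co e (g m)).coeff d
  refine ⟨S, T.card + 1, fun v P hP => ?_⟩
  have hsub : P.support ⊆ T := by
    intro m hm
    rw [hT]
    by_contra hne
    exact (MvPolynomial.mem_support_iff.mp hm) (hP.coeff_eq_zero hne)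
  have hgm : ∀ m ∈ T, E.nm v e (g m) ≤ MK.mk S 1 v := by
    intro m hm
    apply nP_le
    intro d
    by_cases hd : d ∈ (E.co e (g m)).support
    · exact le_mk (Finset.mem_biUnion.2 ⟨m, hm, Finset.mem_image_of_mem _ hd⟩) le_rfl v
    · rw [MvPolynomial.notMem_support_iff.1 hd, map_zero]
      exact (mk_pos _ _ _).le
  rw [E.aeval_eq_sum hsub]
  have hB : 0 ≤ MK.mk S 1 v * nP v P := mul_nonneg (mk_pos _ _ _).le (nP_nonneg v P)
  have h1 := E.nm_sum_le h v T (fun m => P.coeff m • g m)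
    (fun m hm => Submodule.smul_mem _ _ (hg m hm)) hB (fun m hm => by
      rw [E.nm_smul h v _ (hg m hm), mul_comm]
      exact mul_le_mul (hgm m hm) (le_nP v P m) (v.nonneg _) (mk_pos _ _ _).le)
  refine le_trans h1 ?_
  rw [← mk_empty_eq, ← mul_assoc]
  refine mul_le_mul_of_nonneg_right ?_ (nP_nonneg v P)
  have h2 := mk_mul_le ∅ S T.card 1 v
  rwa [Finset.empty_union] at h2

theorem ev_le (h : IsFF K F) (e : ℕ) : ∃ M : ℕ, ∀ (v : AbsoluteValue K ℝ) (u : F) (x : Place K F),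
    u ∈ E.W e → v (E.ev e u x) ≤ MK.mk ∅ M v * (E.nm v e u * E.nx v x ^ e) := by
  obtain ⟨M, hM⟩ := eval_hom_le (K := K) (σ := Fin (E.r + 1)) e
  refine ⟨M, fun v u x hu => ?_⟩
  have h1 := E.ev_aeval h (E.co_hom h e u) x
  rw [(E.co_spec h hu).2] at h1
  rw [h1]
  exact hM v _ _ (E.co_hom h e u)

theorem one_le_nx (h : IsFF K F) (v : AbsoluteValue K ℝ) (x : Place K F) : 1 ≤ E.nx v x := by
  have h1 := le_nv v (E.lift x) (E.a x)
  rwa [E.lift_a h, map_one] at h1

end PE

end Fermat.Agent.S17.Loc
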