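/-
S17 / LOC, KEY [S17/L-MULT]  (~250 lines, uses Loc/Bil, Loc/Sec statements).   (MULT):  ‖u‖ ‖w‖ ≪ ‖u w‖ ≪ ‖u‖ ‖w‖.

`mult_upper`: `u w = aeval f (co e u * co e' w)`, the product is homogeneous of degree `e + e'` (`IsHomogeneous.mul`, `co_hom`): `co_bound (e+e')` + `nP_mul_le e e'` + `mk_mul_le`.
`mult_lower`: `bil` with `ι₁ = ↥(E.B e)`, `ι₂ = ↥(E.B e')`, `ι₃ = ↥(E.B (e+e'))`, `γ i j m = coeff m (co (e+e') (f^i * f^j))`.
   For `u' : ι₁ → K` put `U = ∑ i, u' i • f^i ∈ W e`; then `co (e+e') (U * W') = ∑ i j, C (u' i * w' j) * co (e+e') (f^i f^j)` (`co_sum`, `co_smul`, `W_mul`, `aeval_mem`), so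
   `β(u',w')_m = coeff m (co (e+e') (U W'))`.   No zero divisors: `β = 0` ⇒ `co .. (U W') = 0` (support in `B (e+e')`) ⇒ `U W' = 0` (`co_eq_zero_iff`) ⇒ `U = 0` or `W' = 0` (field) ⇒ `u' = 0` or `w' = 0`
   (linear independence in `isMB_B`).   Dictionary: for `u ∈ W e`, `u' i := coeff i (co e u)`: `nv v u' = nP v (co e u) = nm v e u` (support in `B e`; both sups are over the same nonzero values; if `B e` is empty both are `0`).
`prod_upper`: induction on `n` with `mult_upper n 1` (`Fin.prod_univ_castSucc`, `prod_mem_W`); `n = 0`: `nm v 0 1 ≤ mk ..` by `co_bound 0` applied to `P = 1` (`nP v 1 = 1`).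
-/
import Fermat.Agent.S17.Loc.Bil
import Fermat.Agent.S17.Loc.Sec

set_option autoImplicit false

noncomputable section

namespace Fermat.Agent.S17.Loc

open AlgebraicCurve Fermat.Agent.S37 Fermat.Agent.S27 MvPolynomial MK

variable {K F : Type*} [Field K] [Field F] [Algebra K F] [IsAlgClosed K] [CharZero K]

namespace PE

variable (E : PE K F)

theorem mult_upper (h : IsFF K F) (e e' : ℕ) : ∃ (S : Finset K) (M : ℕ), ∀ (v : AbsoluteValue K ℝ) (u w : F),
    u ∈ E.W e → w ∈ E.W e' → E.nm v (e + e') (u * w) ≤ MK.mk S M v * (E.nm v e u * E.nm v e' w) := by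
  classical
  obtain ⟨S, M, hSM⟩ := E.co_bound h (e + e')
  obtain ⟨M', hM'⟩ := nP_mul_le (K := K) (σ := Fin (E.r + 1)) e e'
  refine ⟨S, M + M', fun v u w hu hw => ?_⟩
  have h1 := hSM v (E.co e u * E.co e' w) ((E.co_hom h e u).mul (E.co_hom h e' w))
  rw [map_mul, (E.co_spec h hu).2, (E.co_spec h hw).2] at h1
  have h2 := hM' v (E.co e u) (E.co e' w) (E.co_hom h e u) (E.co_hom h e' w)
  refine le_trans h1 (le_trans (mul_le_mul_of_nonneg_left h2 (mk_pos _ _ _).le) ?_)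
  rw [← mul_assoc]
  refine mul_le_mul_of_nonneg_right ?_ (mul_nonneg (nP_nonneg _ _) (nP_nonneg _ _))
  have h3 := mk_mul_le S ∅ M M' v
  rwa [Finset.union_empty] at h3

omit [IsAlgClosed K] [CharZero K] in
/-- dictionary between the two sup norms -/
theorem nv_coeff_eq {σ : Type*} (v : AbsoluteValue K ℝ) {T : Finset (σ →₀ ℕ)} {Q : MvPolynomial σ K}
    (hQ : Q.support ⊆ T) : nv v (fun i : T => Q.coeff (i : σ →₀ ℕ)) = nP v Q := by
  apply le_antisymm
  · exact Real.iSup_le (fun i => le_nP v Q _) (nP_nonneg v Q)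
  · apply nP_le
    intro m
    by_cases hm : m ∈ T
    · exact le_nv v (fun i : T => Q.coeff (i : σ →₀ ℕ)) ⟨m, hm⟩
    · rw [MvPolynomial.notMem_support_iff.1 fun hm' => hm (hQ hm'), map_zero]
      exact nv_nonneg _ _

theorem mult_lower (h : IsFF K F) (e e' : ℕ) : ∃ (S : Finset K) (M : ℕ), ∀ (v : AbsoluteValue K ℝ) (u w : F),
    u ∈ E.W e → w ∈ E.W e' → E.nm v e u * E.nm v e' w ≤ MK.mk S M v * E.nm v (e + e') (u * w) := by
  classical
  let bas : (Fin (E.r + 1) →₀ ℕ) → F := fun m => aeval E.f (monomial m (1 : K))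
  have hbas : ∀ (d : ℕ) (m : E.B d), bas m ∈ E.W d := fun d m =>
    E.aeval_mem (isHomogeneous_monomial _ ((E.isMB_B h d).1 m.1 m.2))
  let U : ∀ d : ℕ, (E.B d → K) → F := fun d c => ∑ i, c i • bas i
  have hU : ∀ d c, U d c ∈ E.W d := fun d c =>
    Submodule.sum_mem _ fun i _ => Submodule.smul_mem _ _ (hbas d i)
  have hU0 : ∀ d c, U d c = 0 → c = 0 := by
    intro d c hc
    funext i
    exact Fintype.linearIndependent_iff.1 (E.isMB_B h d).2.1 c hc i
  have hUco : ∀ d (u : F), u ∈ E.W d → U d (fun i => (E.co d u).coeff (i : Fin (E.r + 1) →₀ ℕ)) = u := by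
    intro d u hu
    obtain ⟨h1, h2⟩ := E.co_spec h hu
    have h3 := E.aeval_eq_sum h1
    rw [h2, ← Finset.sum_coe_sort] at h3
    exact h3.symm
  let γ : E.B e → E.B e' → E.B (e + e') → K := fun i j m =>
    (E.co (e + e') (bas i * bas j)).coeff (m : Fin (E.r + 1) →₀ ℕ)
  have hco : ∀ (c : E.B e → K) (c' : E.B e' → K) (m : Fin (E.r + 1) →₀ ℕ),
      (E.co (e + e') (U e c * U e' c')).coeff m =
        ∑ i : E.B e, ∑ j : E.B e', (E.co (e + e') (bas i * bas j)).coeff m * c i * c' j := by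
    intro c c' m
    have h1 : U e c * U e' c' = ∑ i : E.B e, ∑ j : E.B e', (c i * c' j) • (bas i * bas j) := by
      show (∑ i, c i • bas i) * (∑ j, c' j • bas j) = _
      rw [Finset.sum_mul_sum]
      exact Finset.sum_congr rfl fun i _ => Finset.sum_congr rfl fun j _ =>
        smul_mul_smul_comm _ _ _ _
    have hm : ∀ (i : E.B e) (j : E.B e'), bas i * bas j ∈ E.W (e + e') :=
      fun i j => E.W_mul (hbas e i) (hbas e' j)
    rw [h1, E.co_sum h _ _ fun i _ => Submodule.sum_mem _ fun j _ =>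
      Submodule.smul_mem _ _ (hm i j), coeff_sum]
    apply Finset.sum_congr rfl
    intro i _
    rw [E.co_sum h _ _ fun j _ => Submodule.smul_mem _ _ (hm i j), coeff_sum]
    apply Finset.sum_congr rfl
    intro j _
    rw [E.co_smul h _ (hm i j), coeff_C_mul]
    ring
  have hγ : ∀ (c : E.B e → K) (c' : E.B e' → K),
      (∀ m, ∑ i, ∑ j, γ i j m * c i * c' j = 0) → c = 0 ∨ c' = 0 := by
    intro c c' hz
    have hmem : U e c * U e' c' ∈ E.W (e + e') := E.W_mul (hU e c) (hU e' c')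
    have h0 : E.co (e + e') (U e c * U e' c') = 0 := by
      ext m
      rw [coeff_zero]
      by_cases hm : m ∈ E.B (e + e')
      · rw [hco]
        exact hz ⟨m, hm⟩
      · exact MvPolynomial.notMem_support_iff.1 fun hm' => hm ((E.co_spec h hmem).1 hm')
    rcases mul_eq_zero.1 ((E.co_eq_zero_iff h hmem).1 h0) with h1 | h1
    · exact Or.inl (hU0 e c h1)
    · exact Or.inr (hU0 e' c' h1)
  obtain ⟨S, M, hSM⟩ := bil γ hγ
  refine ⟨S, M, fun v u w hu hw => ?_⟩
  have h1 := hSM v (fun i => (E.co e u).coeff (i : Fin (E.r + 1) →₀ ℕ))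
    (fun i => (E.co e' w).coeff (i : Fin (E.r + 1) →₀ ℕ))
  rw [nv_coeff_eq v (E.co_spec h hu).1, nv_coeff_eq v (E.co_spec h hw).1] at h1
  have h2 : (fun m : E.B (e + e') => ∑ i, ∑ j, γ i j m *
      (E.co e u).coeff (i : Fin (E.r + 1) →₀ ℕ) * (E.co e' w).coeff (j : Fin (E.r + 1) →₀ ℕ)) =
      fun m : E.B (e + e') => (E.co (e + e') (u * w)).coeff (m : Fin (E.r + 1) →₀ ℕ) := by
    funext m
    have h3 := hco (fun i => (E.co e u).coeff (i : Fin (E.r + 1) →₀ ℕ))
      (fun i => (E.co e' w).coeff (i : Fin (E.r + 1) →₀ ℕ)) m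
    rw [hUco e u hu, hUco e' w hw] at h3
    exact h3.symm
  rw [h2, nv_coeff_eq v (E.co_spec h (E.W_mul hu hw)).1] at h1
  exact h1

theorem prod_upper (h : IsFF K F) (n : ℕ) : ∃ (S : Finset K) (M : ℕ), ∀ (v : AbsoluteValue K ℝ) (l : Fin n → F),
    (∀ i, l i ∈ E.W 1) → E.nm v n (∏ i, l i) ≤ MK.mk S M v * ∏ i, E.nm v 1 (l i) := by
  classical
  induction n with
  | zero =>
    obtain ⟨S, M, hSM⟩ := E.co_bound h 0
    refine ⟨S, M, fun v l _ => ?_⟩
    have h1 := hSM v 1 (isHomogeneous_one _ _)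
    have h2 : nP v (1 : MvPolynomial (Fin (E.r + 1)) K) = 1 := by
      have : (1 : MvPolynomial (Fin (E.r + 1)) K) = monomial 0 1 := rfl
      rw [this, nP_monomial, map_one]
    rw [map_one, h2] at h1
    simpa using h1
  | succ n ih =>
    obtain ⟨S, M, hSM⟩ := ih
    obtain ⟨S', M', hSM'⟩ := E.mult_upper h n 1
    refine ⟨S' ∪ S, M' + M, fun v l hl => ?_⟩
    rw [Fin.prod_univ_castSucc, Fin.prod_univ_castSucc]
    have h1 := hSM' v (∏ i : Fin n, l i.castSucc) (l (Fin.last n))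
      (E.prod_mem_W _ fun i => hl _) (hl _)
    have h2 := hSM v (fun i => l i.castSucc) fun i => hl _
    have h3 : 0 ≤ E.nm v 1 (l (Fin.last n)) := E.nm_nonneg v 1 _
    refine le_trans h1 ?_
    refine le_trans (mul_le_mul_of_nonneg_left (mul_le_mul_of_nonneg_right h2 h3)
      (mk_pos _ _ _).le) ?_
    rw [mul_assoc, ← mul_assoc]
    refine mul_le_mul_of_nonneg_right (mk_mul_le S' S M' M v) ?_
    exact mul_nonneg (Finset.prod_nonneg fun i _ => E.nm_nonneg v 1 _) h3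

end PE

end Fermat.Agent.S17.Loc
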