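/-
S17 / LOC, KEY [S17/L-SEP]  (~300 lines, uses Loc/RR, Loc/Gen, Loc/Ev, Loc/Sec statements).  Linear forms through a point; `W 1` separates points and tangents.

`E.lin b j t = f_j - z_j(t) f_b`   (chart `b`, `z_j(t) = t~_j / t~_b`).
`lin_mem_W`: `f_mem`, `Submodule.sub_mem`, `smul_mem` (`algebraMap c * y = c • y`: `Algebra.smul_def`).
`ev_lin`: `ev_add/ev_smul/ev_f` (write `lin = f_j + (-(z..)) • f_b`).
`lin_mem`: `ev_eq_zero_iff` + `ev_lin` at `x = t`: `t~_j - (t~_j / t~_b) t~_b = 0`.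
`mem_span_lin`: `l ∈ L(D 1 - t) ≤ W 1 = span (range f)`: `l = ∑ c_j f_j`; `0 = ev 1 l t = ∑ c_j t~_j`; so `l = ∑ c_j lin b j t + (∑ c_j z_j(t)) f_b` and the last coefficient is `(∑ c_j t~_j)/t~_b = 0`.
`exists_lin_ord` (base divisor of `L(n0 oo - t)` is exactly `t`): `deg (D 1 - t) = n0 - 1 ≥ c0 + 1`; `exists_not_mem h (D 1 - t) y` gives `l` with `ord_y l = - (D 1 - t) y` (`ord_eq_of_not_mem`);
   `l = ∑ c_j lin_j` (`mem_span_lin`, `Submodule.mem_span_range_iff_exists_fun`).  If every nonzero `lin_j` had `ord_y > - (D 1 - t) y` then all `lin_j ∈ L(D 1 - t - y)`, so `l` too: contradiction with `exists_not_mem`.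
   For the remaining `j`: `lin_j ∈ L(D 1 - t)` and `∉ L(D 1 - t - y)`: `ord_eq_of_not_mem`.
`lin_self`: `z b t b = 1` if `t~_b ≠ 0`, so `lin b b t = 0`.
`one_le_nm_lin`: `lin b j t = ∑ i, c_i • f_i`, `c = Pi.single j 1 - z_j(t) Pi.single b 1`; `nm_lin`; `c_j = 1` for `j ≠ b`; `le_nv`.
`nm_lin_le`: same, all `v (c_i) ≤ max 1 (v (z b t j)) ≤ tau v`.
`sep`: if `x ≠ t`, `exists_lin_ord` at `y = x` gives `j` with `ord_x lin_j = - D 1 x` (`single t 1 x = 0`), so `lin_j ∉ L(D 1 - x)` and `ev 1 lin_j x ≠ 0` (`ev_eq_zero_iff`); but `ev_lin`: `= x~_b (z_j x - z_j t) = 0`.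
`eq_zero_of_ev`: `w ∈ W e` with `ev e w x = 0` for all `x` with `x~_b ≠ 0`.  The set of `x` with `x~_b = 0` is finite (`x~_b = ev 1 (f b) x = 0` iff `f_b ∈ L(D 1 - x)`, then `ord_x f_b > - D 1 x`: for `x ≠ oo` a zero of `f_b ≠ 0`: `finite_zeros`), `Place K F` is infinite
   (`S27.infinite_place`), `ev e w x = 0` gives (for `x ≠ oo`) `Van x w`: `eq_zero_of_infinite`.
-/
import Fermat.Agent.S17.Loc.Sec

set_option autoImplicit false

noncomputable section

namespace Fermat.Agent.S17.Loc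

open AlgebraicCurve Fermat.Agent.S37 Fermat.Agent.S27 MvPolynomial MK

variable {K F : Type*} [Field K] [Field F] [Algebra K F] [IsAlgClosed K] [CharZero K]

namespace PE

variable (E : PE K F)

/-- the linear form `f_j - z_j(t) f_b` through `t` -/
def lin (b j : Fin (E.r + 1)) (t : Place K F) : F := E.f j - algebraMap K F (E.z b t j) * E.f b

omit [IsAlgClosed K] [CharZero K] in
theorem lin_mem_W (b j : Fin (E.r + 1)) (t : Place K F) : E.lin b j t ∈ E.W 1 := by
  unfold lin
  refine Submodule.sub_mem _ (E.f_mem j) ?_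
  rw [← Algebra.smul_def]
  exact Submodule.smul_mem _ _ (E.f_mem b)

omit [IsAlgClosed K] [CharZero K] in
theorem lin_eq_add (b j : Fin (E.r + 1)) (t : Place K F) :
    E.lin b j t = E.f j + (-(E.z b t j)) • E.f b := by
  unfold lin
  rw [Algebra.smul_def, map_neg]
  ring

theorem ev_lin (h : IsFF K F) (b j : Fin (E.r + 1)) (t x : Place K F) :
    E.ev 1 (E.lin b j t) x = E.lift x j - E.z b t j * E.lift x b := by
  rw [E.lin_eq_add, E.ev_add h (E.f_mem j) (Submodule.smul_mem _ _ (E.f_mem b)) x,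
    E.ev_smul h _ (E.f_mem b) x, E.ev_f, E.ev_f]
  ring

theorem lin_mem (h : IsFF K F) {b : Fin (E.r + 1)} {t : Place K F} (ht : E.lift t b ≠ 0) (j : Fin (E.r + 1)) :
    E.lin b j t ∈ riemannRochSpace (E.D 1 - Finsupp.single t 1) := by
  rw [← E.ev_eq_zero_iff h (E.lin_mem_W b j t) t, E.ev_lin h]
  unfold z
  rw [div_mul_cancel₀ _ ht, sub_self]

omit [IsAlgClosed K] [CharZero K] in
theorem L_sub_single_le (D : Divisor K F) (t : Place K F) :
    riemannRochSpace (D - Finsupp.single t 1) ≤ riemannRochSpace D := by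
  classical
  apply L_mono
  rw [Finsupp.le_def]
  intro v
  rw [Finsupp.sub_apply, Finsupp.single_apply]
  split_ifs <;> omega

theorem mem_span_lin (h : IsFF K F) {b : Fin (E.r + 1)} {t : Place K F} (ht : E.lift t b ≠ 0) {l : F}
    (hl : l ∈ riemannRochSpace (E.D 1 - Finsupp.single t 1)) :
    l ∈ Submodule.span K (Set.range fun j => E.lin b j t) := by
  have hlW : l ∈ E.W 1 := L_sub_single_le _ _ hl
  have hl0 := (E.ev_eq_zero_iff h hlW t).2 hl
  have hlW' := hlW
  rw [E.W_one_eq] at hlW'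
  obtain ⟨c, hc⟩ := (Submodule.mem_span_range_iff_exists_fun K).1 hlW'
  rw [← hc, E.ev_sum h _ _ fun j _ => Submodule.smul_mem _ _ (E.f_mem j)] at hl0
  have hl1 : ∑ j, c j * E.lift t j = 0 := by
    rw [← hl0]
    exact Finset.sum_congr rfl fun j _ => by rw [E.ev_smul h _ (E.f_mem j), E.ev_f]
  refine (Submodule.mem_span_range_iff_exists_fun K).2 ⟨c, ?_⟩
  have h2 : ∑ j, c j * E.z b t j = 0 := by
    unfold z
    simp_rw [← mul_div_assoc]
    rw [← Finset.sum_div, hl1, zero_div]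
  have h3 : ∑ j, c j • E.lin b j t = ∑ j, c j • E.f j - (∑ j, c j * E.z b t j) • E.f b := by
    rw [Finset.sum_smul, ← Finset.sum_sub_distrib]
    apply Finset.sum_congr rfl
    intro j _
    unfold lin
    rw [smul_sub, ← Algebra.smul_def, smul_smul]
  rw [h3, h2, zero_smul, sub_zero, hc]

/-- the base divisor of `L(n0 oo - t)` is exactly `t` -/
theorem exists_lin_ord (h : IsFF K F) {b : Fin (E.r + 1)} {t : Place K F} (ht : E.lift t b ≠ 0) (y : Place K F) :
    ∃ j, E.lin b j t ≠ 0 ∧ y.ord (E.lin b j t) = - (E.D 1 - Finsupp.single t 1 : Divisor K F) y := by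
  by_contra hcon
  push Not at hcon
  have hdeg : (E.c0 : ℤ) + 1 ≤ Divisor.degree (E.D 1 - Finsupp.single t 1 : Divisor K F) := by
    rw [map_sub, E.degree_D h, Divisor.degree_single, h.deg_eq_one]
    unfold n0
    push_cast
    omega
  obtain ⟨l, hl, hl'⟩ := E.exists_not_mem h _ y hdeg
  apply hl'
  have hspan := E.mem_span_lin h ht hl
  refine (Submodule.span_le.2 ?_) hspan
  rintro _ ⟨j, rfl⟩
  by_contra hj
  obtain ⟨h1, h2⟩ := ord_eq_of_not_mem (E.lin_mem h ht j) hj
  exact hcon j h1 h2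

omit [IsAlgClosed K] [CharZero K] in
theorem lin_self {b : Fin (E.r + 1)} {t : Place K F} (ht : E.lift t b ≠ 0) : E.lin b b t = 0 := by
  unfold lin z
  rw [div_self ht, map_one, one_mul, sub_self]

/-- the coefficients of `lin b j t` -/
def linc (b j : Fin (E.r + 1)) (t : Place K F) : Fin (E.r + 1) → K :=
  fun i => (if i = j then 1 else 0) - (if i = b then E.z b t j else 0)

omit [IsAlgClosed K] [CharZero K] in
theorem lin_eq_sum (b j : Fin (E.r + 1)) (t : Place K F) :
    E.lin b j t = ∑ i, E.linc b j t i • E.f i := by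
  unfold lin linc
  simp only [sub_smul, Finset.sum_sub_distrib, ite_smul, one_smul, zero_smul, Finset.sum_ite_eq',
    Finset.mem_univ, if_true]
  rw [Algebra.smul_def]

theorem lin_ne_zero {b j : Fin (E.r + 1)} (hj : j ≠ b) (t : Place K F) : E.lin b j t ≠ 0 := by
  intro h0
  rw [E.lin_eq_sum] at h0
  have h1 := Fintype.linearIndependent_iff.1 E.f_li _ h0 j
  unfold linc at h1
  rw [if_pos rfl, if_neg hj, sub_zero] at h1
  exact one_ne_zero h1

theorem one_le_nm_lin (h : IsFF K F) (v : AbsoluteValue K ℝ) {b j : Fin (E.r + 1)} (hj : j ≠ b) (t : Place K F) :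
    1 ≤ E.nm v 1 (E.lin b j t) := by
  rw [E.lin_eq_sum, E.nm_lin h]
  have h1 := le_nv v (E.linc b j t) j
  have h2 : E.linc b j t j = 1 := by
    unfold linc
    rw [if_pos rfl, if_neg hj, sub_zero]
  rwa [h2, map_one] at h1

theorem nm_lin_le (h : IsFF K F) (v : AbsoluteValue K ℝ) (b j : Fin (E.r + 1)) {t : Place K F}
    (ht : v (E.z b t j) ≤ tau v) : E.nm v 1 (E.lin b j t) ≤ tau v := by
  rw [E.lin_eq_sum, E.nm_lin h]
  apply nv_le
  intro i
  have h0 : (0 : ℝ) ≤ tau v := le_trans zero_le_one (one_le_tau v)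
  unfold linc
  by_cases hij : i = j
  · by_cases hib : i = b
    · rw [if_pos hij, if_pos hib]
      have hjb : j = b := hij.symm.trans hib
      subst hjb
      by_cases hl : E.lift t j = 0
      · have : E.z j t j = 0 := by unfold z; rw [hl, div_zero]
        rw [this, sub_zero, map_one]
        exact one_le_tau v
      · have : E.z j t j = 1 := by unfold z; rw [div_self hl]
        rw [this, sub_self, map_zero]
        exact h0
    · rw [if_pos hij, if_neg hib, sub_zero, map_one]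
      exact one_le_tau v
  · by_cases hib : i = b
    · rw [if_neg hij, if_pos hib, zero_sub, map_neg_eq_map]
      exact ht
    · rw [if_neg hij, if_neg hib, sub_zero, map_zero]
      exact h0

omit [IsAlgClosed K] [CharZero K] in
theorem D_apply_of_ne (e : ℕ) {x : Place K F} (hx : x ≠ E.oo) : E.D e x = 0 := by
  classical
  unfold D
  rw [Finsupp.single_apply, if_neg (Ne.symm hx)]

/-- `W 1` separates places -/
theorem sep (h : IsFF K F) {b : Fin (E.r + 1)} {x t : Place K F} (hx : E.lift x b ≠ 0) (ht : E.lift t b ≠ 0)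
    (hz : E.z b x = E.z b t) : x = t := by
  classical
  by_contra hne
  obtain ⟨j, hj0, hj⟩ := E.exists_lin_ord h ht x
  rw [Finsupp.sub_apply, Finsupp.single_apply, if_neg (Ne.symm hne), sub_zero] at hj
  have h1 : E.ev 1 (E.lin b j t) x = 0 := by
    rw [E.ev_lin h, ← hz]
    unfold z
    rw [div_mul_cancel₀ _ hx, sub_self]
  rw [E.ev_eq_zero_iff h (E.lin_mem_W b j t) x, mem_riemannRochSpace_iff] at h1
  have h2 := (h1 x).resolve_left hj0
  rw [Finsupp.sub_apply, Finsupp.single_eq_same] at h2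
  omega

theorem finite_lift_eq_zero (h : IsFF K F) (b : Fin (E.r + 1)) : {x : Place K F | E.lift x b = 0}.Finite := by
  refine ((finite_zeros h (E.f_ne_zero b)).union (Set.finite_singleton E.oo)).subset ?_
  intro x hx
  by_cases hxo : x = E.oo
  · right
    exact hxo
  · left
    have hx' : E.lift x b = 0 := hx
    rw [← E.ev_f, E.ev_eq_zero_iff h (E.f_mem b) x, mem_riemannRochSpace_iff] at hx'
    have h2 := (hx' x).resolve_left (E.f_ne_zero b)
    rw [Finsupp.sub_apply, Finsupp.single_eq_same, E.D_apply_of_ne 1 hxo] at h2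
    show 0 < x.ord (E.f b)
    omega

/-- a section vanishing on a chart is zero -/
theorem eq_zero_of_ev (h : IsFF K F) (b : Fin (E.r + 1)) {e : ℕ} {w : F} (hw : w ∈ E.W e)
    (h0 : ∀ x, E.lift x b ≠ 0 → E.ev e w x = 0) : w = 0 := by
  have := infinite_place h
  apply eq_zero_of_infinite h
  have hfin := (E.finite_lift_eq_zero h b).union (Set.finite_singleton E.oo)
  refine hfin.infinite_compl.mono ?_
  intro x hx
  rw [Set.mem_compl_iff, Set.mem_union, not_or] at hx
  obtain ⟨hx1, hx2⟩ := hx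
  have h1 := h0 x hx1
  rw [E.ev_eq_zero_iff h hw x, mem_riemannRochSpace_iff] at h1
  rcases h1 x with h2 | h2
  · exact Or.inl h2
  · right
    rw [Finsupp.sub_apply, Finsupp.single_eq_same, E.D_apply_of_ne e hx2] at h2
    omega

theorem eq_of_ev (h : IsFF K F) (b : Fin (E.r + 1)) {e : ℕ} {w w' : F} (hw : w ∈ E.W e) (hw' : w' ∈ E.W e)
    (h0 : ∀ x, E.lift x b ≠ 0 → E.ev e w x = E.ev e w' x) : w = w' := by
  rw [← sub_eq_zero]
  have h1 : w - w' = w + (-1 : K) • w' := by rw [neg_smul, one_smul, sub_eq_add_neg]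
  apply E.eq_zero_of_ev h b (Submodule.sub_mem _ hw hw')
  intro x hx
  rw [h1, E.ev_add h hw (Submodule.smul_mem _ _ hw') x, E.ev_smul h _ hw' x, h0 x hx]
  ring

end PE

end Fermat.Agent.S17.Loc
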