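/-
S17 / LOC, KEY [S17/L-DIST]  (~300 lines, uses Loc/Norm, Loc/Sec (`one_le_nx`), Loc/Sep (`sep`) statements).  The chordal distance.

Write `x_j = E.lift x j`.   `wedge v x y = max_{j,k} v (x_j y_k - x_k y_j)`,  `dist = wedge / (nx x * nx y)`.
`le_wedge`: `le_ciSup` (finite range).  `exists_wedge_eq`: `exists_eq_ciSup_of_finite`.  `wedge_comm`: swap `(j,k)` and `v (-a) = v a` (`Equiv.iSup_congr` with `Equiv.prodComm`, or two `ciSup_le`).
`wedge_eq`: `dist * (nx x * nx y) = wedge` (`nx > 0` from `one_le_nx`).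
`dist_le_tau`: `v (a - b) ≤ tau v * max (v a) (v b)` (nonarchimedean: ultrametric, `tau = 1`; otherwise triangle inequality, `tau = 2`), `v (x_j y_k) ≤ nx x * nx y`.
`dist_pos`: `x ≠ y`.  Take `b = E.a x` (`x_b = 1`).  If `y_b = 0`: with `k = E.a y`: `x_b y_k - x_k y_b = 1 ≠ 0`.  If `y_b ≠ 0`: by `sep` there is `j` with `z b x j ≠ z b y j`, i.e. `x_j y_b - x_b y_j ≠ 0`.
`far_chart`: `nx v x = v (x_b)`, `tau v * v (t_b) < v (t_k)` for some `k`; WLOG `k` is the argmax of `t` (`exists_nv_eq`), `nx v t = v (t_k)`.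
    archimedean (`tau = 2`): `v (x_b t_k - x_k t_b) ≥ v (x_b) v (t_k) - v (x_k) v (t_b) ≥ nx x nx t - nx x nx t / 2`.
    nonarchimedean (`tau = 1`): `v (x_k t_b) < v (x_b t_k)`, so `v (x_b t_k - x_k t_b) = v (x_b t_k)` (`IsNonarchimedean.add_eq_max_of_ne` or: `v a ≤ max (v (a - c)) (v c)` and `v c < v a`).
`chart_le`: `z b x j - z b t j = (x_j t_b - x_b t_j) / (x_b t_b)`, `v (x_b) = nx x`, `v (t_b) ≥ nx t / tau` (hypothesis `ht` + `nv_le`).
-/
import Fermat.Agent.S17.Loc.Sep

set_option autoImplicit false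

noncomputable section

namespace Fermat.Agent.S17.Loc

open AlgebraicCurve Fermat.Agent.S37 Fermat.Agent.S27 MvPolynomial MK

variable {K F : Type*} [Field K] [Field F] [Algebra K F] [IsAlgClosed K] [CharZero K]

namespace PE

variable (E : PE K F)

omit [IsAlgClosed K] [CharZero K] in
theorem le_wedge (v : AbsoluteValue K ℝ) (x y : Place K F) (j k : Fin (E.r + 1)) :
    v (E.lift x j * E.lift y k - E.lift x k * E.lift y j) ≤ E.wedge v x y :=
  le_ciSup (f := fun p : Fin (E.r + 1) × Fin (E.r + 1) =>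
    v (E.lift x p.1 * E.lift y p.2 - E.lift x p.2 * E.lift y p.1)) (Set.finite_range _).bddAbove (j, k)

omit [IsAlgClosed K] [CharZero K] in
theorem exists_wedge_eq (v : AbsoluteValue K ℝ) (x y : Place K F) : ∃ j k : Fin (E.r + 1),
    E.wedge v x y = v (E.lift x j * E.lift y k - E.lift x k * E.lift y j) := by
  obtain ⟨p, hp⟩ := exists_eq_ciSup_of_finite (f := fun p : Fin (E.r + 1) × Fin (E.r + 1) =>
    v (E.lift x p.1 * E.lift y p.2 - E.lift x p.2 * E.lift y p.1))
  exact ⟨p.1, p.2, hp.symm⟩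

omit [IsAlgClosed K] [CharZero K] in
theorem wedge_le_swap (v : AbsoluteValue K ℝ) (x y : Place K F) : E.wedge v x y ≤ E.wedge v y x := by
  apply ciSup_le
  intro p
  have h1 := E.le_wedge v y x p.2 p.1
  have h2 : E.lift y p.2 * E.lift x p.1 - E.lift y p.1 * E.lift x p.2 =
      E.lift x p.1 * E.lift y p.2 - E.lift x p.2 * E.lift y p.1 := by ring
  rwa [h2] at h1

omit [IsAlgClosed K] [CharZero K] in
theorem wedge_comm (v : AbsoluteValue K ℝ) (x y : Place K F) : E.wedge v x y = E.wedge v y x :=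
  le_antisymm (E.wedge_le_swap v x y) (E.wedge_le_swap v y x)

omit [IsAlgClosed K] [CharZero K] in
theorem dist_comm (v : AbsoluteValue K ℝ) (x y : Place K F) : E.dist v x y = E.dist v y x := by
  unfold dist
  rw [E.wedge_comm, mul_comm]

omit [IsAlgClosed K] [CharZero K] in
theorem wedge_nonneg (v : AbsoluteValue K ℝ) (x y : Place K F) : 0 ≤ E.wedge v x y :=
  Real.iSup_nonneg fun _ => v.nonneg _

omit [IsAlgClosed K] [CharZero K] in
theorem dist_nonneg (v : AbsoluteValue K ℝ) (x y : Place K F) : 0 ≤ E.dist v x y :=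
  div_nonneg (E.wedge_nonneg v x y) (mul_nonneg (nv_nonneg _ _) (nv_nonneg _ _))

theorem nx_pos (h : IsFF K F) (v : AbsoluteValue K ℝ) (x : Place K F) : 0 < E.nx v x :=
  lt_of_lt_of_le one_pos (E.one_le_nx h v x)

theorem wedge_eq (h : IsFF K F) (v : AbsoluteValue K ℝ) (x y : Place K F) :
    E.wedge v x y = E.dist v x y * (E.nx v x * E.nx v y) := by
  unfold dist
  rw [div_mul_cancel₀ _ (mul_pos (E.nx_pos h v x) (E.nx_pos h v y)).ne']

omit [IsAlgClosed K] [CharZero K] [Field F] [Algebra K F] in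
theorem v_sub_le (v : AbsoluteValue K ℝ) (a b : K) {B : ℝ} (ha : v a ≤ B) (hb : v b ≤ B) :
    v (a - b) ≤ tau v * B := by
  by_cases hna : IsNonarchimedean v
  · rw [tau_of_na hna, one_mul, sub_eq_add_neg]
    refine le_trans (hna _ _) (max_le ha ?_)
    rwa [v.map_neg]
  · rw [tau_of_not_na hna, sub_eq_add_neg]
    have := v.add_le a (-b)
    rw [v.map_neg] at this
    linarith

omit [IsAlgClosed K] [CharZero K] in
theorem le_nx (v : AbsoluteValue K ℝ) (x : Place K F) (j : Fin (E.r + 1)) :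
    v (E.lift x j) ≤ E.nx v x := le_nv v (E.lift x) j

theorem dist_le_tau (h : IsFF K F) (v : AbsoluteValue K ℝ) (x y : Place K F) : E.dist v x y ≤ tau v := by
  unfold dist
  rw [div_le_iff₀ (mul_pos (E.nx_pos h v x) (E.nx_pos h v y))]
  apply ciSup_le
  intro p
  apply v_sub_le
  · rw [map_mul]
    exact mul_le_mul (E.le_nx v x _) (E.le_nx v y _) (v.nonneg _) (E.nx_pos h v x).le
  · rw [map_mul]
    exact mul_le_mul (E.le_nx v x _) (E.le_nx v y _) (v.nonneg _) (E.nx_pos h v x).le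

theorem dist_pos (h : IsFF K F) (v : AbsoluteValue K ℝ) {x y : Place K F} (hxy : x ≠ y) : 0 < E.dist v x y := by
  have key : ∃ j k, E.lift x j * E.lift y k - E.lift x k * E.lift y j ≠ 0 := by
    have hxb : E.lift x (E.a x) = 1 := E.lift_a h x
    by_cases hyb : E.lift y (E.a x) = 0
    · refine ⟨E.a x, E.a y, ?_⟩
      rw [hxb, E.lift_a h y, hyb, mul_zero, sub_zero, one_mul]
      exact one_ne_zero
    · have hx0 : E.lift x (E.a x) ≠ 0 := by rw [hxb]; exact one_ne_zero
      have hz : E.z (E.a x) x ≠ E.z (E.a x) y := fun hz => hxy (E.sep h hx0 hyb hz)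
      obtain ⟨j, hj⟩ := Function.ne_iff.1 hz
      refine ⟨j, E.a x, fun h0 => hj ?_⟩
      unfold z
      rw [div_eq_div_iff hx0 hyb]
      rw [sub_eq_zero] at h0
      rw [h0]
      ring
  obtain ⟨j, k, hjk⟩ := key
  unfold dist
  exact div_pos (lt_of_lt_of_le (v.pos hjk) (E.le_wedge v x y j k))
    (mul_pos (E.nx_pos h v x) (E.nx_pos h v y))

omit [IsAlgClosed K] [CharZero K] in
theorem dist_self (v : AbsoluteValue K ℝ) (x : Place K F) : E.dist v x x = 0 := by
  have h0 : E.wedge v x x = 0 := by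
    apply le_antisymm _ (E.wedge_nonneg v x x)
    apply ciSup_le
    intro p
    rw [mul_comm, sub_self, map_zero]
  unfold dist
  rw [h0, zero_div]

/-- `t` is far from the chart of `x` -/
theorem far_chart (h : IsFF K F) (v : AbsoluteValue K ℝ) {x t : Place K F} {b : Fin (E.r + 1)}
    (hb : E.nx v x = v (E.lift x b)) (ht : ∃ k, tau v * v (E.lift t b) < v (E.lift t k)) :
    1 ≤ tau v * E.dist v x t := by
  obtain ⟨k0, hk0⟩ := ht
  obtain ⟨k, hk⟩ := exists_nv_eq v (E.lift t)
  have hk' : E.nx v t = v (E.lift t k) := hk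
  have hlt : tau v * v (E.lift t b) < E.nx v t := lt_of_lt_of_le hk0 (E.le_nx v t k0)
  have hpx := E.nx_pos h v x
  have hpt := E.nx_pos h v t
  have hτ : 0 ≤ tau v := le_trans zero_le_one (one_le_tau v)
  obtain ⟨A, hA⟩ : ∃ A, A = E.lift x b * E.lift t k := ⟨_, rfl⟩
  obtain ⟨C, hC⟩ : ∃ C, C = E.lift x k * E.lift t b := ⟨_, rfl⟩
  have hvA : v A = E.nx v x * E.nx v t := by rw [hA, map_mul, ← hb, ← hk']
  have hvC : tau v * v C < v A := by
    rw [hvA, hC, map_mul]
    calc tau v * (v (E.lift x k) * v (E.lift t b))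
        = v (E.lift x k) * (tau v * v (E.lift t b)) := by ring
      _ ≤ E.nx v x * (tau v * v (E.lift t b)) :=
          mul_le_mul_of_nonneg_right (E.le_nx v x k) (mul_nonneg hτ (v.nonneg _))
      _ < E.nx v x * E.nx v t := mul_lt_mul_of_pos_left hlt hpx
  have hW : v (A - C) ≤ E.wedge v x t := by
    rw [hA, hC]
    exact E.le_wedge v x t b k
  have hkey : v A ≤ tau v * v (A - C) := by
    have hAC : A = (A - C) + C := by ring
    by_cases hna : IsNonarchimedean v
    · rw [tau_of_na hna, one_mul] at hvC ⊢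
      have h1 := hna (A - C) C
      rw [← hAC] at h1
      rcases le_max_iff.1 h1 with h2 | h2
      · exact h2
      · exact absurd h2 (not_le.2 hvC)
    · rw [tau_of_not_na hna] at hvC ⊢
      have h1 := v.add_le (A - C) C
      rw [← hAC] at h1
      linarith
  rw [E.wedge_eq h] at hW
  rw [hvA] at hkey
  have h2 : E.nx v x * E.nx v t ≤ (tau v * E.dist v x t) * (E.nx v x * E.nx v t) := by
    calc E.nx v x * E.nx v t ≤ tau v * v (A - C) := hkey
      _ ≤ tau v * (E.dist v x t * (E.nx v x * E.nx v t)) := mul_le_mul_of_nonneg_left hW hτ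
      _ = _ := by ring
  exact le_of_mul_le_mul_right (by rwa [one_mul]) (mul_pos hpx hpt)

/-- difference of affine coordinates versus distance -/
theorem chart_le (h : IsFF K F) (v : AbsoluteValue K ℝ) {x t : Place K F} {b : Fin (E.r + 1)}
    (hb : E.nx v x = v (E.lift x b)) (ht : ∀ k, v (E.lift t k) ≤ tau v * v (E.lift t b)) (j : Fin (E.r + 1)) :
    v (E.z b x j - E.z b t j) ≤ tau v * E.dist v x t := by
  have hpx := E.nx_pos h v x
  have hpt := E.nx_pos h v t
  have hτ : 0 < tau v := lt_of_lt_of_le one_pos (one_le_tau v)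
  have hnt : E.nx v t ≤ tau v * v (E.lift t b) := nv_le v _ ht
  have hvt : 0 < v (E.lift t b) := by
    by_contra hcon
    have h0 : v (E.lift t b) = 0 := le_antisymm (not_lt.1 hcon) (v.nonneg _)
    rw [h0, mul_zero] at hnt
    exact absurd hnt (not_le.2 hpt)
  have ht0 : E.lift t b ≠ 0 := v.pos_iff.1 hvt
  have hx0 : E.lift x b ≠ 0 := v.pos_iff.1 (hb ▸ hpx)
  have h1 : E.z b x j - E.z b t j =
      (E.lift x j * E.lift t b - E.lift x b * E.lift t j) / (E.lift x b * E.lift t b) := by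
    unfold z
    rw [div_sub_div _ _ hx0 ht0]
  rw [h1, map_div₀, map_mul, ← hb, div_le_iff₀ (mul_pos hpx hvt)]
  have h2 := E.le_wedge v x t j b
  rw [E.wedge_eq h] at h2
  refine le_trans h2 ?_
  calc E.dist v x t * (E.nx v x * E.nx v t)
      ≤ E.dist v x t * (E.nx v x * (tau v * v (E.lift t b))) :=
        mul_le_mul_of_nonneg_left (mul_le_mul_of_nonneg_left hnt hpx.le) (E.dist_nonneg v x t)
    _ = _ := by ring

end PE

end Fermat.Agent.S17.Loc
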