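/-
S17 / LOC, KEY [S17/L-CH]  (~400 lines, uses Loc/RR, Gen, Ev, Sec, Sep statements).  The affine chart `b`: `zf b j = f_j / f_b`.

`val_zf`: `zf b j = (f_j / f_a) / (f_b / f_a)` (`a = E.a x`), both regular (`reg_div` with `e = 1`, `f_mem`), `val x (f_b / f_a) = lift x b ≠ 0` so `ord_x (f_b / f_a) = 0` (`val_eq_zero_iff`, `reg_iff`), `val_inv`, `val_mul`.
`eval_z`: `MvPolynomial.induction_on p` proving the conjunction (`reg_algebraMap`, `val_algebraMap`, `Reg.add`, `val_add`, `Reg.mul`, `val_mul`, `val_zf`).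
`aeval_zf_hom`: for `P` homogeneous of degree `e`: `aeval (zf b) P * f_b ^ e = aeval f P`  (sum over monomials: `∏ (f_i / f_b)^(m i) * f_b^e = ∏ f_i^(m i)` as `∑ m i = e`).
`eval_z_hom`: for `P` homogeneous of degree `e`: `eval (z b x) P * (lift x b)^e = eval (lift x) P`  (same computation in `K`).
`exists_place` (every point of the zero locus is a place; COPY the pattern of `S27/CH/Model.lean : Model.exists_place`):
   `ε := eval a : MvPolynomial σ K →+* K`, `ker ε` prime; every `N ∉ ker ε` has `aeval (zf b) N ≠ 0` (by `ha`), so `aeval (zf b)` extends to `φ : Localization.AtPrime (ker ε) →+* F`;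
   `IsLocalRing.exists_factor_valuationRing φ` gives `O ⊇ range φ` with a local hom.  `O ≠ ⊤`: choose `j ≠ b` (`0 ≠ last r`, because `ord_oo (f 0) = 0 ≠ - n0 = ord_oo (f (last r))`; so one of them is `≠ b`); `zf b j - a_j ≠ 0` (else `f_j = a_j f_b`, contradicting `E.f_li`)
   and it is a nonunit of `O`.  `S27.L.exists_place_of_valuationSubring h O` gives the place `x`; `Van x (aeval (zf b) N)` for `N ∈ ker ε`; so `Reg x (zf b j)` and `val x (zf b j) = a j` (`val_eq_of_van` with `N = X j - C (a j)`).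
   `lift x b ≠ 0`: `f_a / f_b = zf b (E.a x)` is regular at `x` and `f_b / f_a` is regular (`reg_div`), so `ord_x (f_b / f_a) = 0`, `val_ne_zero_of_ord`.   `z b x j = a j`: `val_zf`.
`aeval_eq_zero_of_forall`: `w = aeval (zf b) p`; `Van x w` for all `x` in the chart (`eval_z`, `val_eq_zero_iff`): infinitely many (`finite_lift_eq_zero`, `S27.infinite_place`): `eq_zero_of_infinite`.
`exists_frac`: `l0 = lin b j0 P`, `l = lin b j P`.  `D' := E.D 2 - (AR.dv h l0 + E.D 1 - single P 1)`, `deg D' = n0 + 1 ≥ c0 + 1`.  `s ∈ L(D')`, `s ∉ L(D' - P)` (`exists_not_mem`).  `D' ≤ E.D 2` (as `l0 ∈ L(D 1 - P)`), so `s ∈ W 2`;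
   `D' P = E.D 2 P` by `hj0`, so `ord_P s = - E.D 2 P`, `s ∉ L(D 2 - P)`, `ev 2 s P ≠ 0`.   `s' := s * l / l0 ∈ W 2` (orders: `ord_y s' ≥ - D' y + ord_y l - ord_y l0 = - D 2 y + (D 1 y - δ_P y + ord_y l) ≥ - D 2 y`; `l = 0` trivial).
   `exists_hom`: `s = aeval f β`, `s' = aeval f α`, homogeneous of degree 2.  `aeval_zf_hom`: `aeval (zf b) β = s / f_b^2`, ...; `zf b j - z b P j = l / f_b`.  `eval (z b P) β = ev 2 s P / (lift P b)^2 ≠ 0` (`eval_z_hom`, `ev_aeval`).
-/
import Fermat.Agent.S17.Loc.Sep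
import Fermat.Agent.S27.L.FF

set_option autoImplicit false

noncomputable section

namespace Fermat.Agent.S17.Loc

open AlgebraicCurve Fermat.Agent.S37 Fermat.Agent.S27 MvPolynomial MK

variable {K F : Type*} [Field K] [Field F] [Algebra K F] [IsAlgClosed K] [CharZero K]

namespace PE

variable (E : PE K F)

/-- the affine coordinate functions of the chart `b` -/
def zf (b : Fin (E.r + 1)) : Fin (E.r + 1) → F := fun j => E.f j / E.f b

omit [IsAlgClosed K] [CharZero K] in
theorem chAux_ord_eq_zero (h : IsFF K F) [IsAlgClosed K] [CharZero K] {x : Place K F} {y : F} (hy : Reg x y)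
    (hv : val x y ≠ 0) : y ≠ 0 ∧ x.ord y = 0 := by
  have h1 : ¬ Van x y := fun hV => hv ((val_eq_zero_iff h hy).2 hV)
  have h2 : y ≠ 0 := fun h0 => h1 (Or.inl h0)
  refine ⟨h2, ?_⟩
  have h3 := reg_iff.1 hy
  have h4 : ¬ 0 < x.ord y := fun h0 => h1 (Or.inr h0)
  omega

theorem val_zf (h : IsFF K F) {b : Fin (E.r + 1)} {x : Place K F} (hx : E.lift x b ≠ 0) (j : Fin (E.r + 1)) :
    Reg x (E.zf b j) ∧ val x (E.zf b j) = E.z b x j := by
  have hg : ∀ j, Reg x (E.f j / E.f (E.a x)) := by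
    intro j
    have := E.reg_div (E.f_mem j) x
    rwa [pow_one] at this
  obtain ⟨h0, hord⟩ := chAux_ord_eq_zero h (hg b) hx
  have hinv : Reg x (E.f b / E.f (E.a x))⁻¹ := reg_iff.2 (by rw [Place.ord_inv, hord, neg_zero])
  have e : E.zf b j = (E.f j / E.f (E.a x)) * (E.f b / E.f (E.a x))⁻¹ := by
    unfold zf
    have := E.f_ne_zero (E.a x)
    have := E.f_ne_zero b
    field_simp
  rw [e]
  refine ⟨(hg j).mul hinv, ?_⟩
  rw [val_mul h (hg j) hinv, val_inv h hord h0, ← div_eq_mul_inv]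
  rfl

theorem eval_z (h : IsFF K F) {b : Fin (E.r + 1)} {x : Place K F} (hx : E.lift x b ≠ 0)
    (p : MvPolynomial (Fin (E.r + 1)) K) :
    Reg x (aeval (E.zf b) p) ∧ val x (aeval (E.zf b) p) = eval (E.z b x) p := by
  have h1 := reg_val_aeval h x (E.zf b) (fun j => (E.val_zf h hx j).1) p
  refine ⟨h1.1, ?_⟩
  rw [h1.2]
  congr 2
  funext j
  exact (E.val_zf h hx j).2

omit [IsAlgClosed K] [CharZero K] in
theorem aeval_zf_hom (b : Fin (E.r + 1)) {e : ℕ} {P : MvPolynomial (Fin (E.r + 1)) K} (hP : P.IsHomogeneous e) :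
    aeval (E.zf b) P * E.f b ^ e = aeval E.f P := by
  have hb := E.f_ne_zero b
  rw [aeval_def, aeval_def, eval₂_eq', eval₂_eq', Finset.sum_mul]
  apply Finset.sum_congr rfl
  intro d hd
  have hde : ∑ i, d i = e := by
    rw [← Finsupp.degree_eq_sum]
    by_contra hne
    exact (MvPolynomial.mem_support_iff.mp hd) (hP.coeff_eq_zero hne)
  rw [mul_assoc]
  congr 1
  unfold zf
  simp_rw [div_pow]
  rw [Finset.prod_div_distrib, Finset.prod_pow_eq_pow_sum, hde, div_mul_cancel₀ _ (pow_ne_zero _ hb)]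

omit [IsAlgClosed K] [CharZero K] in
theorem eval_z_hom {b : Fin (E.r + 1)} {x : Place K F} (hx : E.lift x b ≠ 0) {e : ℕ}
    {P : MvPolynomial (Fin (E.r + 1)) K} (hP : P.IsHomogeneous e) :
    eval (E.z b x) P * E.lift x b ^ e = eval (E.lift x) P := by
  rw [eval_eq', eval_eq', Finset.sum_mul]
  apply Finset.sum_congr rfl
  intro d hd
  have hde : ∑ i, d i = e := by
    rw [← Finsupp.degree_eq_sum]
    by_contra hne
    exact (MvPolynomial.mem_support_iff.mp hd) (hP.coeff_eq_zero hne)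
  rw [mul_assoc]
  congr 1
  unfold z
  simp_rw [div_pow]
  rw [Finset.prod_div_distrib, Finset.prod_pow_eq_pow_sum, hde, div_mul_cancel₀ _ (pow_ne_zero _ hx)]

omit [IsAlgClosed K] [CharZero K] in
theorem chAux_exists_ne (b : Fin (E.r + 1)) : ∃ j, j ≠ b := by
  by_contra hcon
  push Not at hcon
  have h1 : (0 : Fin (E.r + 1)) = Fin.last E.r := (hcon 0).trans (hcon (Fin.last E.r)).symm
  have h2 := E.f_last
  rw [← h1, E.f_zero, Place.ord_one] at h2
  have : (0 : ℤ) < ((2 * E.c0 + 4 : ℕ) : ℤ) := by positivity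
  omega

omit [IsAlgClosed K] [CharZero K] in
theorem chAux_zf_sub_ne {b j : Fin (E.r + 1)} (hj : j ≠ b) (c : K) :
    E.zf b j - algebraMap K F c ≠ 0 := by
  intro h0
  have hb := E.f_ne_zero b
  have h1 : E.f j = c • E.f b := by
    rw [Algebra.smul_def]
    unfold zf at h0
    rw [sub_eq_zero, div_eq_iff hb] at h0
    exact h0
  have h2 : LinearIndependent K ![E.f j, E.f b] := by
    have := E.f_li.comp ![j, b] (by
      intro u w huw
      fin_cases u <;> fin_cases w <;> simp_all)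
    convert this using 1
    funext i
    fin_cases i <;> rfl
  have := (LinearIndependent.pair_iff.1 h2) 1 (-c) (by rw [one_smul, h1, neg_smul, add_neg_cancel])
  exact one_ne_zero this.1

/-- every point of the zero locus of the ideal of the chart is a place -/
theorem exists_place (h : IsFF K F) (b : Fin (E.r + 1)) (a : Fin (E.r + 1) → K)
    (ha : ∀ p : MvPolynomial (Fin (E.r + 1)) K, aeval (E.zf b) p = 0 → eval a p = 0) :
    ∃ x : Place K F, E.lift x b ≠ 0 ∧ E.z b x = a := by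
  let ε : MvPolynomial (Fin (E.r + 1)) K →+* K := eval a
  let ψ : MvPolynomial (Fin (E.r + 1)) K →+* F := (aeval (E.zf b) : _ →ₐ[K] F).toRingHom
  have hψ : ∀ N, ψ N = aeval (E.zf b) N := fun _ => rfl
  have hprime : (RingHom.ker ε).IsPrime := RingHom.ker_isPrime ε
  have hunit : ∀ N : (RingHom.ker ε).primeCompl, IsUnit (ψ N) := by
    intro N
    apply IsUnit.mk0
    intro h0
    exact N.2 (ha _ h0)
  let φ : Localization.AtPrime (RingHom.ker ε) →+* F :=
    IsLocalization.lift (M := (RingHom.ker ε).primeCompl) (g := ψ) hunit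
  obtain ⟨O, hO, hloc⟩ :=
    IsLocalRing.exists_factor_valuationRing (R := Localization.AtPrime (RingHom.ker ε)) φ
  have hφ : ∀ N, φ (algebraMap _ _ N) = ψ N := fun N => IsLocalization.lift_eq _ N
  have hmem : ∀ N, ψ N ∈ O := fun N => hφ N ▸ hO _
  have hnon : ∀ N, ε N = 0 → ¬ IsUnit (⟨ψ N, hmem N⟩ : O) := by
    intro N hN hu
    have hcod : φ.codRestrict O.toSubring hO (algebraMap _ _ N) = (⟨ψ N, hmem N⟩ : O) :=
      Subtype.ext (hφ N)
    rw [← hcod] at hu
    have h1 := hloc.map_nonunit _ hu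
    rw [IsLocalization.AtPrime.isUnit_to_map_iff (Localization.AtPrime (RingHom.ker ε))
      (RingHom.ker ε) N] at h1
    exact h1 hN
  have hK : ∀ c : K, algebraMap K F c ∈ O := fun c => by
    have := hmem (C c)
    rwa [hψ, aeval_C] at this
  have hXC : ∀ j, ψ (X j - C (a j)) = E.zf b j - algebraMap K F (a j) := by
    intro j
    rw [hψ, map_sub, aeval_X, aeval_C]
  have hε : ∀ j, ε (X j - C (a j)) = 0 := by
    intro j
    simp [ε]
  obtain ⟨j1, hj1⟩ := E.chAux_exists_ne b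
  have hOtop : O ≠ ⊤ := by
    intro htop
    apply hnon (X j1 - C (a j1)) (hε j1)
    have hinv : (E.zf b j1 - algebraMap K F (a j1))⁻¹ ∈ O := by
      rw [htop]; exact ValuationSubring.mem_top _
    refine IsUnit.of_mul_eq_one (⟨_, hinv⟩ : O) (Subtype.ext ?_)
    show ψ (X j1 - C (a j1)) * (E.zf b j1 - algebraMap K F (a j1))⁻¹ = 1
    rw [hXC, mul_inv_cancel₀ (E.chAux_zf_sub_ne hj1 _)]
  obtain ⟨P, hP⟩ := S27.L.exists_place_of_valuationSubring h O hK hOtop
  have hvan : ∀ N, ε N = 0 → Van P (ψ N) := by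
    intro N hN
    by_cases h0 : ψ N = 0
    · exact Or.inl h0
    right
    by_contra hle
    have h1 : 0 ≤ P.ord (ψ N)⁻¹ := by rw [Place.ord_inv]; omega
    have h2 : (ψ N)⁻¹ ∈ O := by rw [← hP]; exact (S24.mem_iff_ord_nonneg P).mpr h1
    apply hnon N hN
    refine IsUnit.of_mul_eq_one (⟨_, h2⟩ : O) (Subtype.ext ?_)
    show ψ N * (ψ N)⁻¹ = 1
    exact mul_inv_cancel₀ h0
  have hreg : ∀ j, Reg P (E.zf b j) := by
    intro j
    show E.zf b j ∈ P.toValuationSubring
    rw [hP]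
    have := hmem (X j)
    rwa [hψ, aeval_X] at this
  have hval : ∀ j, val P (E.zf b j) = a j := by
    intro j
    apply val_eq_of_van h
    rw [← hXC]
    exact hvan _ (hε j)
  have hg : ∀ j, Reg P (E.f j / E.f (E.a P)) := by
    intro j
    have := E.reg_div (E.f_mem j) P
    rwa [pow_one] at this
  have hlift : E.lift P b ≠ 0 := by
    intro h0
    have h1 : Van P (E.f b / E.f (E.a P)) := (val_eq_zero_iff h (hg b)).1 h0
    have h2 : E.f b / E.f (E.a P) ≠ 0 := div_ne_zero (E.f_ne_zero _) (E.f_ne_zero _)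
    have h3 := h1.resolve_left h2
    have h4 := reg_iff.1 (hreg (E.a P))
    have e : E.zf b (E.a P) = (E.f b / E.f (E.a P))⁻¹ := by
      unfold zf; rw [inv_div]
    rw [e, Place.ord_inv] at h4
    omega
  refine ⟨P, hlift, ?_⟩
  funext j
  rw [← (E.val_zf h hlift j).2, hval]

theorem aeval_eq_zero_of_forall (h : IsFF K F) (b : Fin (E.r + 1)) (p : MvPolynomial (Fin (E.r + 1)) K)
    (hp : ∀ x, E.lift x b ≠ 0 → eval (E.z b x) p = 0) : aeval (E.zf b) p = 0 := by
  apply eq_zero_of_infinite h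
  have hinf : (Set.univ : Set (Place K F)).Infinite := by
    have := infinite_place h
    exact Set.infinite_univ
  refine (hinf.sdiff (E.finite_lift_eq_zero h b)).mono ?_
  intro x hx
  have hx' : E.lift x b ≠ 0 := fun h0 => hx.2 h0
  have h1 := E.eval_z h hx' p
  exact (val_eq_zero_iff h h1.1).1 (by rw [h1.2, hp x hx'])

/-- `(z_j - z_j(P)) / (z_j0 - z_j0(P))` is a quotient `α / β` with `β(P) ≠ 0` -/
theorem exists_frac (h : IsFF K F) {b : Fin (E.r + 1)} {P : Place K F} (hP : E.lift P b ≠ 0) {j0 : Fin (E.r + 1)}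
    (hj0 : E.lin b j0 P ≠ 0 ∧ P.ord (E.lin b j0 P) = - (E.D 1 - Finsupp.single P 1 : Divisor K F) P)
    (j : Fin (E.r + 1)) :
    ∃ α β : MvPolynomial (Fin (E.r + 1)) K, eval (E.z b P) β ≠ 0 ∧
      aeval (E.zf b) (β * (X j - C (E.z b P j)) - (X j0 - C (E.z b P j0)) * α) = 0 := by
  classical
  obtain ⟨hl0, hord0⟩ := hj0
  set l0 := E.lin b j0 P with hl0def
  set l := E.lin b j P with hldef
  have hl0mem : l0 ∈ riemannRochSpace (E.D 1 - Finsupp.single P 1) := E.lin_mem h hP j0
  have hlmem : l ∈ riemannRochSpace (E.D 1 - Finsupp.single P 1) := E.lin_mem h hP j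
  set D' : Divisor K F := E.D 2 - (AR.dv h l0 + (E.D 1 - Finsupp.single P 1)) with hD'
  have hD'app : ∀ y : Place K F, D' y = E.D 2 y - (y.ord l0 + (E.D 1 - Finsupp.single P 1 : Divisor K F) y) := by
    intro y
    rw [hD', Finsupp.sub_apply, Finsupp.add_apply, AR.dv_apply h hl0]
  have hdeg : Divisor.degree D' = (E.n0 : ℤ) + 1 := by
    rw [hD', map_sub, map_add, map_sub, AR.degree_dv, E.degree_D h, E.degree_D h,
      Divisor.degree_single, h.deg_eq_one]
    push_cast
    ring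
  obtain ⟨s, hs, hs'⟩ := E.exists_not_mem h D' P (by
    rw [hdeg]
    have : E.n0 = 2 * E.c0 + 4 := rfl
    rw [this]; push_cast; linarith)
  obtain ⟨hs0, hsord⟩ := ord_eq_of_not_mem hs hs'
  have hle : D' ≤ E.D 2 := by
    intro y
    rw [hD'app]
    have := (mem_riemannRochSpace_iff.1 hl0mem y).resolve_left hl0
    linarith
  have hsW : s ∈ E.W 2 := L_mono hle hs
  have hD'P : D' P = E.D 2 P := by
    rw [hD'app, hord0]; ring
  have hev : E.ev 2 s P ≠ 0 := by
    rw [Ne, E.ev_eq_zero_iff h hsW P]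
    intro hmem
    have := (mem_riemannRochSpace_iff.1 hmem P).resolve_left hs0
    rw [Finsupp.sub_apply, Finsupp.single_eq_same, hsord, hD'P] at this
    omega
  have hs'W : s * l / l0 ∈ E.W 2 := by
    unfold W
    rw [mem_riemannRochSpace_iff]
    intro y
    by_cases hl : l = 0
    · left; rw [hl, mul_zero, zero_div]
    · right
      rw [div_eq_mul_inv, Place.ord_mul _ (mul_ne_zero hs0 hl) (inv_ne_zero hl0), Place.ord_mul _ hs0 hl,
        Place.ord_inv]
      have h1 := (mem_riemannRochSpace_iff.1 hs y).resolve_left hs0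
      have h2 := (mem_riemannRochSpace_iff.1 hlmem y).resolve_left hl
      rw [hD'app] at h1
      linarith
  obtain ⟨β, hβ, hβs⟩ := E.exists_hom h 2 hsW
  obtain ⟨α, hα, hαs⟩ := E.exists_hom h 2 hs'W
  have hb := E.f_ne_zero b
  refine ⟨α, β, ?_, ?_⟩
  · intro h0
    apply hev
    rw [← hβs, E.ev_aeval h hβ, ← E.eval_z_hom hP hβ, h0, zero_mul]
  · have h1 := E.aeval_zf_hom b hβ
    have h2 := E.aeval_zf_hom b hα
    rw [hβs] at h1
    rw [hαs] at h2
    have e1 : aeval (E.zf b) β = s / E.f b ^ 2 := by rw [← h1]; field_simp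
    have e2 : aeval (E.zf b) α = s * l / l0 / E.f b ^ 2 := by rw [← h2]; field_simp
    have e3 : ∀ i, E.zf b i - algebraMap K F (E.z b P i) = E.lin b i P / E.f b := by
      intro i
      unfold zf lin
      field_simp
    rw [map_sub, map_mul, map_mul, map_sub, map_sub, aeval_X, aeval_X, aeval_C, aeval_C, e1, e2, e3, e3,
      ← hl0def, ← hldef]
    field_simp
    ring

end PE

end Fermat.Agent.S17.Loc
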