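/-
S17 / LOC, KEY [S17/L-INVA]  (Mathlib only, ~250 lines).  The ideal of the diagonal is locally principal: derivation + Nakayama.

NOTATION.  `R = MvPolynomial (σ ⊕ σ) K`, `i₁ = rename Sum.inl`, `i₂ = rename Sum.inr : MvPolynomial σ K →ₐ R`, `d p = i₁ p - i₂ p`, `Dl j = X (inl j) - X (inr j) = d (X j)`,
`I₀ = Ideal.span (range Dl)`, `w = Sum.elim a a`, `𝔪 = RingHom.ker (eval w)`.
 (1) `d p ∈ I₀` for all `p` (`MvPolynomial.induction_on`: `d (C c) = 0`, `d (p + q) = d p + d q`, `d (p * X j) = i₁ p * Dl j + X (inr j) * d p`).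
 (2) `d (p * q) - (C (eval a p) * d q + C (eval a q) * d p) ∈ 𝔪 * I₀`:  `d (p q) = i₁ p * d q + i₂ q * d p`, and `i₁ p - C (eval a p) ∈ 𝔪`, `i₂ q - C (eval a q) ∈ 𝔪` (`eval_rename`, `Sum.elim_comp_inl`).
 (3) for every `j`: with `α, β` from `hfrac j`:  `d (β * (X j - C (a j))) ≡ C (β(a)) * Dl j` and `d ((X j0 - C (a j0)) * α) ≡ C (α(a)) * Dl j0` mod `𝔪 * I₀` (the other terms have the factor `eval a (X j - C (a j)) = 0`).
     So `C (β(a)) * Dl j ∈ 𝔞 + span {Dl j0} + 𝔪 * I₀`, and `C (β(a))` is a unit: `Dl j ∈ 𝔞 ⊔ span {Dl j0} ⊔ 𝔪 * I₀`.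
 (4) NAKAYAMA.  `Q := 𝔞 ⊔ span {Dl j0}`, `M := R ⧸ Q` as an `R`-module, `N := Submodule.map Q.mkQ I₀` (f.g. since `σ` is finite).  (3) says `N ≤ 𝔪 • N`.
     `Submodule.exists_sub_one_mem_and_smul_eq_zero_of_fg_of_le_smul 𝔪 N` gives `c` with `c - 1 ∈ 𝔪` and `c • n = 0` for `n ∈ N`: `c * Dl j ∈ Q`, i.e. `c * Dl j = a' + Dl j0 * Ψ` (`Submodule.mem_sup`, `Ideal.mem_span_singleton'`).
     `eval w c = 1 ≠ 0`.
-/
import Mathlib

set_option autoImplicit false

noncomputable section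

namespace Fermat.Agent.S17.Loc

open MvPolynomial

section InvAux

variable {K σ : Type*} [Field K]

/-- `d p = p(x) - p(t)` -/
def invD (p : MvPolynomial σ K) : MvPolynomial (σ ⊕ σ) K := rename Sum.inl p - rename Sum.inr p

theorem invD_mul (p q : MvPolynomial σ K) :
    invD (p * q) = rename Sum.inl p * invD q + rename Sum.inr q * invD p := by
  unfold invD
  rw [map_mul, map_mul]
  ring

theorem invD_sub (p q : MvPolynomial σ K) : invD (p - q) = invD p - invD q := by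
  unfold invD
  rw [map_sub, map_sub]
  ring

theorem invD_add (p q : MvPolynomial σ K) : invD (p + q) = invD p + invD q := by
  unfold invD
  rw [map_add, map_add]
  ring

theorem invD_C (c : K) : invD (C c : MvPolynomial σ K) = 0 := by
  unfold invD
  rw [rename_C, rename_C, sub_self]

theorem invD_X (j : σ) : invD (X j : MvPolynomial σ K) = X (Sum.inl j) - X (Sum.inr j) := by
  unfold invD
  rw [rename_X, rename_X]

theorem invD_mem (p : MvPolynomial σ K) :
    invD p ∈ Ideal.span (Set.range fun j : σ => (X (Sum.inl j) - X (Sum.inr j) : MvPolynomial (σ ⊕ σ) K)) := by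
  induction p using MvPolynomial.induction_on with
  | C c => rw [invD_C]; exact zero_mem _
  | add p q hp hq => rw [invD_add]; exact add_mem hp hq
  | mul_X p j hp =>
      rw [invD_mul, invD_X]
      exact add_mem (Ideal.mul_mem_left _ _ (Ideal.subset_span ⟨j, rfl⟩)) (Ideal.mul_mem_left _ _ hp)

theorem invD_mul_mem (a : σ → K) (p q : MvPolynomial σ K) :
    invD (p * q) - (C (eval a p) * invD q + C (eval a q) * invD p) ∈
      RingHom.ker (eval (Sum.elim a a) : MvPolynomial (σ ⊕ σ) K →+* K) *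
        Ideal.span (Set.range fun j : σ => (X (Sum.inl j) - X (Sum.inr j) : MvPolynomial (σ ⊕ σ) K)) := by
  have e : invD (p * q) - (C (eval a p) * invD q + C (eval a q) * invD p) =
      (rename Sum.inl p - C (eval a p)) * invD q + (rename Sum.inr q - C (eval a q)) * invD p := by
    rw [invD_mul]; ring
  rw [e]
  refine add_mem (Ideal.mul_mem_mul ?_ (invD_mem q)) (Ideal.mul_mem_mul ?_ (invD_mem p))
  · rw [RingHom.mem_ker, map_sub, eval_rename, Sum.elim_comp_inl, eval_C, sub_self]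
  · rw [RingHom.mem_ker, map_sub, eval_rename, Sum.elim_comp_inr, eval_C, sub_self]

end InvAux

theorem inv_local {K σ : Type*} [Field K] [Finite σ] (𝔞 : Ideal (MvPolynomial (σ ⊕ σ) K)) (a : σ → K) (j0 : σ)
    (hfrac : ∀ j, ∃ α β : MvPolynomial σ K, eval a β ≠ 0 ∧
      rename Sum.inl (β * (X j - C (a j)) - (X j0 - C (a j0)) * α) -
        rename Sum.inr (β * (X j - C (a j)) - (X j0 - C (a j0)) * α) ∈ 𝔞) :
    ∃ c : MvPolynomial (σ ⊕ σ) K, eval (Sum.elim a a) c ≠ 0 ∧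
      ∀ j, ∃ Ψ : MvPolynomial (σ ⊕ σ) K,
        c * (X (Sum.inl j) - X (Sum.inr j)) - (X (Sum.inl j0) - X (Sum.inr j0)) * Ψ ∈ 𝔞 := by
  classical
  set Dl : σ → MvPolynomial (σ ⊕ σ) K := fun j => X (Sum.inl j) - X (Sum.inr j) with hDl
  set I₀ : Ideal (MvPolynomial (σ ⊕ σ) K) := Ideal.span (Set.range Dl) with hI₀
  set 𝔪 : Ideal (MvPolynomial (σ ⊕ σ) K) :=
    RingHom.ker (eval (Sum.elim a a) : MvPolynomial (σ ⊕ σ) K →+* K) with h𝔪
  set Q : Ideal (MvPolynomial (σ ⊕ σ) K) := 𝔞 ⊔ Ideal.span {Dl j0} with hQ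
  -- (3)
  have h3 : ∀ j, Dl j ∈ Q ⊔ 𝔪 * I₀ := by
    intro j
    obtain ⟨α, β, hβ, hE⟩ := hfrac j
    have hE' : invD (β * (X j - C (a j))) - invD ((X j0 - C (a j0)) * α) ∈ 𝔞 := by
      rw [← invD_sub]; exact hE
    have h1 := invD_mul_mem a β (X j - C (a j))
    have h2 := invD_mul_mem a (X j0 - C (a j0)) α
    have e1 : eval a (X j - C (a j) : MvPolynomial σ K) = 0 := by simp
    have e2 : eval a (X j0 - C (a j0) : MvPolynomial σ K) = 0 := by simp
    rw [e1, map_zero, zero_mul, add_zero, invD_sub, invD_X, invD_C, sub_zero] at h1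
    rw [e2, map_zero, zero_mul, zero_add, invD_sub, invD_X, invD_C, sub_zero] at h2
    have h4 : C (eval a β) * Dl j ∈ Q ⊔ 𝔪 * I₀ := by
      have e : C (eval a β) * Dl j =
          ((invD (β * (X j - C (a j))) - invD ((X j0 - C (a j0)) * α)) + C (eval a α) * Dl j0) +
          ((invD ((X j0 - C (a j0)) * α) - C (eval a α) * Dl j0) -
            (invD (β * (X j - C (a j))) - C (eval a β) * Dl j)) := by ring
      rw [e]
      refine add_mem (Ideal.mem_sup_left ?_) (Ideal.mem_sup_right (sub_mem h2 h1))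
      exact add_mem (Ideal.mem_sup_left hE')
        (Ideal.mem_sup_right (Ideal.mul_mem_left _ _ (Ideal.mem_span_singleton_self _)))
    have e : Dl j = C (eval a β)⁻¹ * (C (eval a β) * Dl j) := by
      rw [← mul_assoc, ← C_mul, inv_mul_cancel₀ hβ, C_1, one_mul]
    rw [e]
    exact Ideal.mul_mem_left _ _ h4
  -- (4) Nakayama
  set N : Submodule (MvPolynomial (σ ⊕ σ) K) (MvPolynomial (σ ⊕ σ) K ⧸ Q) :=
    Submodule.map (Submodule.mkQ Q) I₀ with hN
  have hfg : N.FG := by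
    refine Submodule.FG.map _ ?_
    exact ⟨(Set.finite_range Dl).toFinset, by rw [Set.Finite.coe_toFinset]⟩
  have hle : N ≤ 𝔪 • N := by
    rw [hN, ← Submodule.map_smul'', hI₀, Ideal.span, Submodule.map_span, Submodule.span_le]
    rintro _ ⟨_, ⟨j, rfl⟩, rfl⟩
    obtain ⟨q, hq, m, hm, hqm⟩ := Submodule.mem_sup.1 (h3 j)
    refine ⟨m, ?_, ?_⟩
    · exact hm
    · have hq0 : Submodule.mkQ Q q = 0 := (Submodule.Quotient.mk_eq_zero Q).2 hq
      rw [← hqm, map_add, hq0, zero_add]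
  obtain ⟨c, hc1, hc2⟩ := Submodule.exists_sub_one_mem_and_smul_eq_zero_of_fg_of_le_smul 𝔪 N hfg hle
  refine ⟨c, ?_, fun j => ?_⟩
  · rw [h𝔪, RingHom.mem_ker, map_sub, map_one, sub_eq_zero] at hc1
    rw [hc1]; exact one_ne_zero
  · have h5 := hc2 (Submodule.mkQ Q (Dl j)) ⟨Dl j, Ideal.subset_span ⟨j, rfl⟩, rfl⟩
    rw [← map_smul, Submodule.mkQ_apply, Submodule.Quotient.mk_eq_zero, smul_eq_mul] at h5
    obtain ⟨a', ha', y, hy, hay⟩ := Submodule.mem_sup.1 h5
    obtain ⟨Ψ, hΨ⟩ := Ideal.mem_span_singleton'.1 hy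
    refine ⟨Ψ, ?_⟩
    have : c * Dl j - Dl j0 * Ψ = a' := by
      rw [← hay, ← hΨ]; ring
    rw [this]
    exact ha'

end Fermat.Agent.S17.Loc
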