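/-
S17 / LOC, KEY [S17/L-INV]  (~350 lines, uses Loc/Sep, Loc/Chart, Loc/InvA statements).   (INV): the Cauchy kernels on the chart `b`.

`Ker E b` : polynomials `c j0`, `g j`, `Ψ j0 j` in the `2 (r+1)` variables `(z(x), z(t))` with, for all places `x, t` of the chart `b` (write `p(x,t) = eval (Sum.elim (z b x) (z b t)) p`):
   `one`  : `∑_j0 c_j0(x,t) + ∑_j g_j(x,t) (z_j x - z_j t) = 1`,
   `quot` : `c_j0(x,t) (z_j x - z_j t) = (z_j0 x - z_j0 t) Ψ_{j0,j}(x,t)`,      `c_b = 0`.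

PROOF of `exists_ker`.  `R = MvPolynomial (σ ⊕ σ) K`, `σ = Fin (r+1)`, `Dl j = X (inl j) - X (inr j)`.
 `𝔞 : Ideal R := {p | ∀ x t, lift x b ≠ 0 → lift t b ≠ 0 → p(x,t) = 0}` (an ideal).   `Cj j0 : Ideal R := {c | ∀ j, ∃ Ψ, c * Dl j - Dl j0 * Ψ ∈ 𝔞}` (an ideal).
 `J := 𝔞 ⊔ Ideal.span (range Dl) ⊔ ⨆ j0 ∈ {j0 | j0 ≠ b}, Cj j0`.     CLAIM `J = ⊤`.
   Otherwise `J ≤ 𝔐` maximal (`Ideal.exists_le_maximal`), `𝔐 = vanishingIdeal {w}` (`MvPolynomial.isMaximal_iff_eq_vanishingIdeal_singleton`), so every element of `J` vanishes at `w`.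
   `exists_place h b (w ∘ inl)`: if `aeval (zf b) p = 0` then `rename inl p ∈ 𝔞` (`eval_rename`, `Sum.elim_comp_inl`, `eval_z`: `eval (z b x) p = val x 0 = 0`), so `eval (w ∘ inl) p = eval w (rename inl p) = 0`.  This gives `x`; same for `t` with `inr`.
   `Dl j` vanishes at `w`: `z b x = z b t`, so `x = t =: P` (`sep`).   `exists_lin_ord h hP P` gives `j0` (`j0 ≠ b` by `lin_self`).   `exists_frac` gives `α, β` for every `j`; both `rename inl E`, `rename inr E ∈ 𝔞` for `E` with `aeval (zf b) E = 0`.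
   `inv_local 𝔞 (z b P) j0` gives `c ∈ Cj j0` with `eval w c ≠ 0` (`w = Sum.elim (z b P) (z b P)`: `Sum.elim_comp_inl_inr`): contradiction.
 From `1 ∈ J`: `1 = a' + ∑_j g_j Dl j + ∑_{j0 ≠ b} c_j0` with `c_j0 ∈ Cj j0` (`Submodule.mem_sup`, `Ideal.mem_span_range_iff_exists_fun`, `Submodule.mem_iSup_iff_exists_finsupp`/`Submodule.mem_iSup_finset_iff_exists_sum`; or avoid `⨆`: use the ideal
   `Σ := {∑_{j0} c j0 | c j0 ∈ Cj j0, c b = 0}` i.e. the range of a linear map).  Put `c b = 0`; choose `Ψ j0 j`.  Evaluate at `(x,t)`.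
-/
import Fermat.Agent.S17.Loc.Chart
import Fermat.Agent.S17.Loc.InvA

set_option autoImplicit false

noncomputable section

namespace Fermat.Agent.S17.Loc

open AlgebraicCurve Fermat.Agent.S37 Fermat.Agent.S27 MvPolynomial MK

variable {K F : Type*} [Field K] [Field F] [Algebra K F] [IsAlgClosed K] [CharZero K]

/-- Cauchy kernels on the chart `b` -/
structure Ker (E : PE K F) (b : Fin (E.r + 1)) where
  c : Fin (E.r + 1) → MvPolynomial (Fin (E.r + 1) ⊕ Fin (E.r + 1)) K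
  g : Fin (E.r + 1) → MvPolynomial (Fin (E.r + 1) ⊕ Fin (E.r + 1)) K
  Ψ : Fin (E.r + 1) → Fin (E.r + 1) → MvPolynomial (Fin (E.r + 1) ⊕ Fin (E.r + 1)) K
  c_b : c b = 0
  one : ∀ x t : Place K F, E.lift x b ≠ 0 → E.lift t b ≠ 0 →
    ∑ j0, eval (Sum.elim (E.z b x) (E.z b t)) (c j0) +
      ∑ j, eval (Sum.elim (E.z b x) (E.z b t)) (g j) * (E.z b x j - E.z b t j) = 1
  quot : ∀ (j0 j : Fin (E.r + 1)) (x t : Place K F), E.lift x b ≠ 0 → E.lift t b ≠ 0 →
    eval (Sum.elim (E.z b x) (E.z b t)) (c j0) * (E.z b x j - E.z b t j) =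
      (E.z b x j0 - E.z b t j0) * eval (Sum.elim (E.z b x) (E.z b t)) (Ψ j0 j)

namespace InvAux

variable (E : PE K F) (b : Fin (E.r + 1))

/-- the ideal of the product of the chart with itself -/
def ida : Ideal (MvPolynomial (Fin (E.r + 1) ⊕ Fin (E.r + 1)) K) where
  carrier := {p | ∀ x t : Place K F, E.lift x b ≠ 0 → E.lift t b ≠ 0 →
    eval (Sum.elim (E.z b x) (E.z b t)) p = 0}
  zero_mem' := fun _ _ _ _ => map_zero _
  add_mem' := fun {p q} hp hq x t hx ht => by rw [map_add, hp x t hx ht, hq x t hx ht, add_zero]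
  smul_mem' := fun c p hp x t hx ht => by rw [smul_eq_mul, map_mul, hp x t hx ht, mul_zero]

/-- `X (inl j) - X (inr j)` -/
def Dl (j : Fin (E.r + 1)) : MvPolynomial (Fin (E.r + 1) ⊕ Fin (E.r + 1)) K :=
  X (Sum.inl j) - X (Sum.inr j)

/-- the conductor of the diagonal into `(Dl j0)` -/
def Cj (j0 : Fin (E.r + 1)) : Ideal (MvPolynomial (Fin (E.r + 1) ⊕ Fin (E.r + 1)) K) where
  carrier := {c | ∀ j, ∃ Ψ, c * Dl E j - Dl E j0 * Ψ ∈ ida E b}
  zero_mem' := fun j => ⟨0, by rw [zero_mul, mul_zero, sub_zero]; exact zero_mem _⟩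
  add_mem' := fun {p q} hp hq j => by
    obtain ⟨Ψ1, h1⟩ := hp j
    obtain ⟨Ψ2, h2⟩ := hq j
    refine ⟨Ψ1 + Ψ2, ?_⟩
    have e : (p + q) * Dl E j - Dl E j0 * (Ψ1 + Ψ2) =
        (p * Dl E j - Dl E j0 * Ψ1) + (q * Dl E j - Dl E j0 * Ψ2) := by ring
    rw [e]
    exact add_mem h1 h2
  smul_mem' := fun c p hp j => by
    obtain ⟨Ψ1, h1⟩ := hp j
    refine ⟨c * Ψ1, ?_⟩
    have e : c • p * Dl E j - Dl E j0 * (c * Ψ1) = c * (p * Dl E j - Dl E j0 * Ψ1) := by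
      rw [smul_eq_mul]; ring
    rw [e]
    exact Ideal.mul_mem_left _ _ h1

/-- sums of elements of the `Cj j0`, `j0 ≠ b` -/
def SC : Ideal (MvPolynomial (Fin (E.r + 1) ⊕ Fin (E.r + 1)) K) where
  carrier := {s | ∃ c : Fin (E.r + 1) → MvPolynomial (Fin (E.r + 1) ⊕ Fin (E.r + 1)) K,
    (∀ j0, c j0 ∈ Cj E b j0) ∧ c b = 0 ∧ s = ∑ j0, c j0}
  zero_mem' := ⟨0, fun _ => zero_mem _, rfl, by simp⟩
  add_mem' := by
    rintro _ _ ⟨c, h1, h2, rfl⟩ ⟨c', h1', h2', rfl⟩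
    exact ⟨c + c', fun j0 => add_mem (h1 j0) (h1' j0), by rw [Pi.add_apply, h2, h2', add_zero],
      by simp [Finset.sum_add_distrib]⟩
  smul_mem' := by
    rintro r _ ⟨c, h1, h2, rfl⟩
    exact ⟨fun j0 => r * c j0, fun j0 => Ideal.mul_mem_left _ _ (h1 j0), by simp only [h2, mul_zero],
      by rw [smul_eq_mul, Finset.mul_sum]⟩

variable {E b}

theorem rename_inl_mem (h : IsFF K F) {p : MvPolynomial (Fin (E.r + 1)) K}
    (hp : aeval (E.zf b) p = 0) : rename Sum.inl p ∈ ida E b := by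
  intro x t hx _
  rw [eval_rename, Sum.elim_comp_inl, ← (E.eval_z h hx p).2, hp]
  simpa using val_algebraMap h x (0 : K)

theorem rename_inr_mem (h : IsFF K F) {p : MvPolynomial (Fin (E.r + 1)) K}
    (hp : aeval (E.zf b) p = 0) : rename Sum.inr p ∈ ida E b := by
  intro x t _ ht
  rw [eval_rename, Sum.elim_comp_inr, ← (E.eval_z h ht p).2, hp]
  simpa using val_algebraMap h t (0 : K)

theorem sup_eq_top (h : IsFF K F) :
    ida E b ⊔ Ideal.span (Set.range (Dl E)) ⊔ SC E b = ⊤ := by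
  classical
  by_contra hne
  obtain ⟨𝔐, hmax, hle⟩ := Ideal.exists_le_maximal _ hne
  obtain ⟨w, rfl⟩ := isMaximal_iff_eq_vanishingIdeal_singleton.1 hmax
  have hw : ∀ p ∈ ida E b ⊔ Ideal.span (Set.range (Dl E)) ⊔ SC E b, eval w p = 0 := by
    intro p hp
    have := (mem_vanishingIdeal_singleton_iff w p).1 (hle hp)
    rwa [aeval_eq_eval] at this
  obtain ⟨x, hx, hxz⟩ := E.exists_place h b (w ∘ Sum.inl) (fun p hp => by
    rw [← eval_rename]
    exact hw _ (Ideal.mem_sup_left (Ideal.mem_sup_left (rename_inl_mem h hp))))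
  obtain ⟨t, ht, htz⟩ := E.exists_place h b (w ∘ Sum.inr) (fun p hp => by
    rw [← eval_rename]
    exact hw _ (Ideal.mem_sup_left (Ideal.mem_sup_left (rename_inr_mem h hp))))
  have hzz : E.z b x = E.z b t := by
    funext j
    have := hw (Dl E j) (Ideal.mem_sup_left (Ideal.mem_sup_right (Ideal.subset_span ⟨j, rfl⟩)))
    rw [Dl, map_sub, eval_X, eval_X, sub_eq_zero] at this
    rw [hxz, htz]
    exact this
  obtain rfl := E.sep h hx ht hzz
  obtain ⟨j0, hj0⟩ := E.exists_lin_ord h hx x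
  have hj0b : j0 ≠ b := by
    rintro rfl
    exact hj0.1 (E.lin_self hx)
  obtain ⟨c, hc0, hc⟩ := inv_local (ida E b) (E.z b x) j0 (fun j => by
    obtain ⟨α, β, hβ, hαβ⟩ := E.exists_frac h hx hj0 j
    exact ⟨α, β, hβ, sub_mem (rename_inl_mem h hαβ) (rename_inr_mem h hαβ)⟩)
  apply hc0
  have hwe : Sum.elim (E.z b x) (E.z b x) = w := by
    conv_lhs => rw [hxz]
    conv_lhs => arg 2; rw [← hxz, htz]
    exact Sum.elim_comp_inl_inr w
  rw [hwe]
  refine hw c (Ideal.mem_sup_right ⟨Pi.single j0 c, fun j => ?_, ?_, ?_⟩)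
  · by_cases hj : j = j0
    · subst hj
      rw [Pi.single_eq_same]
      exact hc
    · rw [Pi.single_eq_of_ne hj]
      exact zero_mem _
  · rw [Pi.single_eq_of_ne (Ne.symm hj0b)]
  · rw [Finset.sum_pi_single' j0 c Finset.univ, if_pos (Finset.mem_univ _)]

end InvAux

open InvAux in
theorem exists_ker (E : PE K F) (h : IsFF K F) (b : Fin (E.r + 1)) : Nonempty (Ker E b) := by
  classical
  have h1 : (1 : MvPolynomial (Fin (E.r + 1) ⊕ Fin (E.r + 1)) K) ∈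
      ida E b ⊔ Ideal.span (Set.range (Dl E)) ⊔ SC E b := by
    rw [sup_eq_top h]; exact Submodule.mem_top
  obtain ⟨y, hy, s, ⟨c, hc, hcb, rfl⟩, hys⟩ := Submodule.mem_sup.1 h1
  obtain ⟨a', ha', d, hd, rfl⟩ := Submodule.mem_sup.1 hy
  obtain ⟨g, rfl⟩ := Ideal.mem_span_range_iff_exists_fun.1 hd
  choose Ψ hΨ using hc
  refine ⟨⟨c, g, Ψ, hcb, ?_, ?_⟩⟩
  · intro x t hx ht
    have := congrArg (eval (Sum.elim (E.z b x) (E.z b t))) hys
    rw [map_add, map_add, ha' x t hx ht, zero_add, map_one, map_sum, map_sum] at this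
    rw [add_comm, ← this]
    congr 1
    refine Finset.sum_congr rfl fun j _ => ?_
    rw [map_mul, Dl, map_sub, eval_X, eval_X]
    rfl
  · intro j0 j x t hx ht
    have := hΨ j0 j x t hx ht
    rw [map_sub, map_mul, map_mul, Dl, Dl, map_sub, map_sub, eval_X, eval_X, eval_X, eval_X,
      sub_eq_zero] at this
    exact this

end Fermat.Agent.S17.Loc
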