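/-
S17 / LOC, KEYS [S17/L-DICH] (`dich`, ~120 lines) and [S17/L-STEP] (`step`, ~350 lines).   Uses Loc/Mult, Sep, Inv (structure `Ker`), Hom statements.

`dich` (FAR / NEAR).  Evaluate `κ.one x t`.  `eval_le_tau (κ.g j)` bounds `v (g_j(x,t)) ≤ mk S_j M_j v` (the point `Sum.elim (z b x) (z b t)` has all coordinates `≤ tau v`); `exists_mk_ge`.
   `1 = v 1 ≤ tau^(2(r+1)) * max` over the `2 (r+1)` terms (`MK.sum_le` over `σ ⊕ σ`, or twice), so one term `T` has `1 ≤ tau^N * v T`.  If `T = c_j0(x,t)`: NEAR (`j0 ≠ b` since `κ.c_b`: the term is `0`).  If `T = g_j (z_j x - z_j t)`: FAR.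

`step` (dividing out one zero).  Fix `j0 ≠ b`.  `k + 1 := max (totalDegree (κ.c j0)) (max_j totalDegree (κ.Ψ j0 j)) + 1`  (any `k` with `totalDegree .. ≤ k + 1`).   Fix `e`.
   Constants: `exists_sect h b (κ.c j0) (k+1)`; `mult_upper h e (k+1)`; `mult_lower h (e+k) 1`.
   Given `v, u, t, T`: `τ := z b t`.  `C ∈ W (k+1)` from `exists_sect (κ.c j0)`, `P_j ∈ W (k+1)` from `exists_sect (κ.Ψ j0 j)` (only their existence and values are used).  `l_j := lin b j t`, `l0 := l_j0 ≠ 0` (`lin_ne_zero`).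
   (a) `C * l_j = l0 * P_j` in `F`: both in `W (k+2)`; `eq_of_ev h b`: on the chart, `ev_mul`, `ev_lin` (`= lift x b * (z b x j - z b t j)`), `κ.quot`.
   (b) for every place `y`: `ord_y C ≥ ord_y l0 - E.D (k+1) y + (E.D 1 - single t 1) y` (if `C ≠ 0`): take `j` from `exists_lin_ord h ht y`; by (a) `ord_y C + ord_y l_j = ord_y l0 + ord_y P_j` (`P_j ≠ 0` because `C, l_j ≠ 0`), `ord_y P_j ≥ - E.D (k+1) y`.
   (c) `u' := u * C / l0`.  If `u = 0` or `C = 0`: `u' = 0`.  Otherwise `ord_y u' = ord_y u + ord_y C - ord_y l0 ≥ - (E.D e - (T + t)) y - E.D (k+1) y + E.D 1 y - δ_t y = - (E.D (e+k) - T) y`  (`D_add`).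
   (d) norm: `u' * l0 = u * C`; `nm (e+k) u' * 1 ≤ nm (e+k) u' * nm 1 l0 ≤ mk * nm (e+k+1) (u' l0) = mk * nm (e+(k+1)) (u C) ≤ mk mk' nm e u * nm (k+1) C ≤ ...` (`one_le_nm_lin`, `u ∈ W e`, `u' ∈ W (e+k)` by `L_mono` since `0 ≤ T`).
   (e) values: `ev e u x * ev (k+1) C x = ev (e+(k+1)) (u C) x = ev ((e+k)+1) (u' l0) x = ev (e+k) u' x * ev 1 l0 x` (`ev_mul`, `add_assoc`), `ev_lin`.
-/
import Fermat.Agent.S17.Loc.Mult
import Fermat.Agent.S17.Loc.Inv
import Fermat.Agent.S17.Loc.Hom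

set_option autoImplicit false

noncomputable section

namespace Fermat.Agent.S17.Loc

open AlgebraicCurve Fermat.Agent.S37 Fermat.Agent.S27 MvPolynomial MK

variable {K F : Type*} [Field K] [Field F] [Algebra K F] [IsAlgClosed K] [CharZero K]

/-- [S17/L-DICH] FAR or NEAR -/
theorem dich (E : PE K F) (h : IsFF K F) (b : Fin (E.r + 1)) (κ : Ker E b) :
    ∃ (S : Finset K) (M : ℕ), ∀ (v : AbsoluteValue K ℝ) (x t : Place K F), E.lift x b ≠ 0 → E.lift t b ≠ 0 →
      (∀ j, v (E.z b x j) ≤ tau v) → (∀ j, v (E.z b t j) ≤ tau v) →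
      (∃ j, 1 ≤ mk S M v * v (E.z b x j - E.z b t j)) ∨
      (∃ j0, j0 ≠ b ∧ 1 ≤ mk S M v * v (eval (Sum.elim (E.z b x) (E.z b t)) (κ.c j0))) := by
  classical
  choose Sg Mg hg using fun j => eval_le_tau (κ.g j)
  obtain ⟨T, N, H⟩ := exists_mk_ge Sg Mg
  refine ⟨∅ ∪ T, (Finset.univ : Finset (Fin (E.r + 1) ⊕ Fin (E.r + 1))).card + N,
    fun v x t hx ht hzx hzt => ?_⟩
  set pt : Fin (E.r + 1) ⊕ Fin (E.r + 1) → K := Sum.elim (E.z b x) (E.z b t) with hpt
  have hptb : ∀ i, v (pt i) ≤ tau v := by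
    rintro (i | i)
    · exact hzx i
    · exact hzt i
  let w : Fin (E.r + 1) ⊕ Fin (E.r + 1) → K :=
    Sum.elim (fun j0 => eval pt (κ.c j0)) (fun j => eval pt (κ.g j) * (E.z b x j - E.z b t j))
  have hsum : ∑ i, w i = 1 := by
    rw [Fintype.sum_sum_type]
    exact κ.one x t hx ht
  obtain ⟨i0, hi0⟩ := exists_nv_eq v w
  have h1 : (1 : ℝ) ≤ mk ∅ (Finset.univ : Finset (Fin (E.r + 1) ⊕ Fin (E.r + 1))).card v * v (w i0) := by
    have := sum_le_mk Finset.univ w v (nv_nonneg v w) (fun i _ => le_nv v w i)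
    rw [hsum, map_one, hi0] at this
    exact this
  have hmono : mk ∅ (Finset.univ : Finset (Fin (E.r + 1) ⊕ Fin (E.r + 1))).card v ≤
      mk (∅ ∪ T) ((Finset.univ : Finset (Fin (E.r + 1) ⊕ Fin (E.r + 1))).card + N) v :=
    mk_mono Finset.subset_union_left (Nat.le_add_right _ _) v
  rcases i0 with j0 | j
  · right
    refine ⟨j0, ?_, h1.trans (mul_le_mul_of_nonneg_right hmono (v.nonneg _))⟩
    rintro rfl
    have : w (Sum.inl j0) = 0 := by
      show eval pt (κ.c j0) = 0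
      rw [κ.c_b, map_zero]
    rw [this, map_zero, mul_zero] at h1
    linarith
  · left
    refine ⟨j, h1.trans ?_⟩
    have hw : v (w (Sum.inr j)) = v (eval pt (κ.g j)) * v (E.z b x j - E.z b t j) := by
      show v (eval pt (κ.g j) * (E.z b x j - E.z b t j)) = _
      rw [map_mul]
    rw [hw, ← mul_assoc]
    apply mul_le_mul_of_nonneg_right _ (v.nonneg _)
    refine le_trans ?_ (mk_mul_le ∅ T _ N v)
    apply mul_le_mul_of_nonneg_left _ (mk_pos _ _ _).le
    exact (hg j v pt hptb).trans (H j v)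

/-- [S17/L-STEP] dividing out one zero -/
theorem step (E : PE K F) (h : IsFF K F) (b : Fin (E.r + 1)) (κ : Ker E b) (j0 : Fin (E.r + 1)) (hj0 : j0 ≠ b) :
    ∃ k : ℕ, ∀ e : ℕ, ∃ (S : Finset K) (M : ℕ), ∀ (v : AbsoluteValue K ℝ) (u : F) (t : Place K F) (T : Divisor K F),
      0 ≤ T → E.lift t b ≠ 0 → (∀ j, v (E.z b t j) ≤ tau v) →
      u ∈ riemannRochSpace (E.D e - (T + Finsupp.single t 1)) →
      ∃ u' ∈ riemannRochSpace (E.D (e + k) - T), E.nm v (e + k) u' ≤ mk S M v * E.nm v e u ∧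
        ∀ x : Place K F, E.lift x b ≠ 0 →
          E.ev e u x * (E.lift x b ^ (k + 1) * eval (Sum.elim (E.z b x) (E.z b t)) (κ.c j0)) =
            E.ev (e + k) u' x * (E.lift x b * (E.z b x j0 - E.z b t j0)) := by
  classical
  set k : ℕ := (κ.c j0).totalDegree + ∑ j, (κ.Ψ j0 j).totalDegree with hk
  have hkc : (κ.c j0).totalDegree ≤ k + 1 := by omega
  have hkΨ : ∀ j, (κ.Ψ j0 j).totalDegree ≤ k + 1 := by
    intro j
    have := Finset.single_le_sum (f := fun j => (κ.Ψ j0 j).totalDegree) (fun i _ => Nat.zero_le _)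
      (Finset.mem_univ j)
    omega
  refine ⟨k, fun e => ?_⟩
  obtain ⟨Sc, Mc, hc⟩ := E.exists_sect h b (κ.c j0) (k + 1) hkc
  choose SΨ MΨ hΨ using fun j => E.exists_sect h b (κ.Ψ j0 j) (k + 1) (hkΨ j)
  obtain ⟨Su, Mu, hmu⟩ := E.mult_upper h e (k + 1)
  obtain ⟨Sl, Ml, hml⟩ := E.mult_lower h (e + k) 1
  refine ⟨Sl ∪ Su ∪ Sc, Ml + Mu + Mc, fun v u t T hT ht hzt hu => ?_⟩
  obtain ⟨C, hCW, hCn, hCev⟩ := hc v (E.z b t) hzt
  choose P hPW hPn hPev using fun j => hΨ j v (E.z b t) hzt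
  have hl0 : E.lin b j0 t ≠ 0 := E.lin_ne_zero hj0 t
  have hlift : ∀ (x : Place K F), E.lift x b ≠ 0 → ∀ j, E.lift x j = E.z b x j * E.lift x b := by
    intro x hx j
    unfold PE.z
    field_simp
  -- (a)
  have ha : ∀ j, C * E.lin b j t = P j * E.lin b j0 t := by
    intro j
    apply E.eq_of_ev h b (e := (k + 1) + 1) (E.W_mul hCW (E.lin_mem_W b j t))
      (E.W_mul (hPW j) (E.lin_mem_W b j0 t))
    intro x hx
    rw [E.ev_mul h hCW (E.lin_mem_W b j t), E.ev_mul h (hPW j) (E.lin_mem_W b j0 t), hCev x hx,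
      hPev j x hx, E.ev_lin h, E.ev_lin h, hlift x hx j, hlift x hx j0]
    have := κ.quot j0 j x t hx ht
    linear_combination (E.lift x b ^ (k + 1) * E.lift x b) * this
  have hsingle : (0 : Divisor K F) ≤ Finsupp.single t 1 := by
    intro y
    rw [Finsupp.single_apply]
    split_ifs <;> simp
  have huW : u ∈ E.W e := by
    refine PE.L_mono ?_ hu
    intro y
    have h1 := hT y
    have h2 := hsingle y
    simp only [Finsupp.sub_apply, Finsupp.add_apply, Finsupp.zero_apply] at h1 h2 ⊢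
    omega
  have hu'mem : u * C / E.lin b j0 t ∈ riemannRochSpace (E.D (e + k) - T) := by
    rw [mem_riemannRochSpace_iff]
    intro y
    by_cases hu0 : u = 0
    · left; rw [hu0]; simp
    by_cases hC0 : C = 0
    · left; rw [hC0]; simp
    right
    obtain ⟨j, hlj0, hordj⟩ := E.exists_lin_ord h ht y
    have hPj0 : P j ≠ 0 := by
      intro h0
      have := ha j
      rw [h0, zero_mul] at this
      exact (mul_ne_zero hC0 hlj0) this
    have hord := congrArg y.ord (ha j)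
    rw [y.ord_mul hC0 hlj0, y.ord_mul hPj0 hl0] at hord
    have hP1 := ((mem_riemannRochSpace_iff.1 (hPW j)) y).resolve_left hPj0
    have hu1 := ((mem_riemannRochSpace_iff.1 hu) y).resolve_left hu0
    rw [div_eq_mul_inv, y.ord_mul (mul_ne_zero hu0 hC0) (inv_ne_zero hl0), y.ord_mul hu0 hC0,
      y.ord_inv]
    have hD1 : E.D (e + k) y = E.D e y + E.D k y := by rw [E.D_add]; rfl
    have hD2 : E.D (k + 1) y = E.D k y + E.D 1 y := by rw [E.D_add]; rfl
    simp only [Finsupp.sub_apply, Finsupp.add_apply] at hordj hu1 ⊢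
    omega
  have hu'W : u * C / E.lin b j0 t ∈ E.W (e + k) := by
    refine PE.L_mono ?_ hu'mem
    intro y
    have h1 := hT y
    simp only [Finsupp.sub_apply, Finsupp.zero_apply] at h1 ⊢
    omega
  have hmul : u * C / E.lin b j0 t * E.lin b j0 t = u * C := by
    field_simp
  refine ⟨u * C / E.lin b j0 t, hu'mem, ?_, ?_⟩
  · have e1 := hml v _ _ hu'W (E.lin_mem_W b j0 t)
    rw [hmul] at e1
    have e2 := hmu v u C huW hCW
    have e3 := E.one_le_nm_lin h v hj0 t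
    have n0 : 0 ≤ E.nm v (e + k) (u * C / E.lin b j0 t) := E.nm_nonneg _ _ _
    have n1 : 0 ≤ E.nm v e u := E.nm_nonneg _ _ _
    have p1 := (mk_pos Sl Ml v).le
    have p2 := (mk_pos Su Mu v).le
    calc E.nm v (e + k) (u * C / E.lin b j0 t)
        = E.nm v (e + k) (u * C / E.lin b j0 t) * 1 := by ring
      _ ≤ E.nm v (e + k) (u * C / E.lin b j0 t) * E.nm v 1 (E.lin b j0 t) :=
          mul_le_mul_of_nonneg_left e3 n0
      _ ≤ mk Sl Ml v * E.nm v (e + k + 1) (u * C) := e1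
      _ ≤ mk Sl Ml v * (mk Su Mu v * (E.nm v e u * E.nm v (k + 1) C)) :=
          mul_le_mul_of_nonneg_left e2 p1
      _ ≤ mk Sl Ml v * (mk Su Mu v * (E.nm v e u * mk Sc Mc v)) := by
          apply mul_le_mul_of_nonneg_left _ p1
          apply mul_le_mul_of_nonneg_left _ p2
          exact mul_le_mul_of_nonneg_left hCn n1
      _ = (mk Sl Ml v * mk Su Mu v * mk Sc Mc v) * E.nm v e u := by ring
      _ ≤ mk (Sl ∪ Su ∪ Sc) (Ml + Mu + Mc) v * E.nm v e u := by
          apply mul_le_mul_of_nonneg_right _ n1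
          refine le_trans ?_ (mk_mul_le (Sl ∪ Su) Sc (Ml + Mu) Mc v)
          exact mul_le_mul_of_nonneg_right (mk_mul_le Sl Su Ml Mu v) (mk_pos _ _ _).le
  · intro x hx
    have e1 := E.ev_mul h huW hCW x
    have e2 := E.ev_mul h hu'W (E.lin_mem_W b j0 t) x
    rw [hmul] at e2
    have e3 : E.ev (e + (k + 1)) (u * C) x = E.ev (e + k + 1) (u * C) x := rfl
    rw [← hCev x hx, ← e1, e3, e2, E.ev_lin h, hlift x hx j0]
    ring

end Fermat.Agent.S17.Loc
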