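/-
S17 / LOC, KEY [S17/L-SCHW]  (~350 lines, uses Loc/Sec (`ev_le`), Dist, Step statements).    (SCHW) THE SCHWARZ LEMMA.

   `u ∈ L(e n0 oo - (t_1 + .. + t_n))`   ⟹   `v (u(x~)) ≪ ‖u‖ ‖x~‖^e ∏ d_v(x,t_i)`.

PROOF.  Induction on `n`, the statement being `∀ e, ∃ S M, ...`.
 `n = 0`: `ev_le h e` (`sumD` of the empty family is `0`, empty product `1`).
 `n + 1`: fix `e`.  For every `b` let `κ_b := (exists_ker E h b).some`, `(S4,M4)_b` from `dich`; for every `(b, j0)` with `j0 ≠ b`: `k_(b,j0)` and `(S1,M1)` from `step .. e`, `(S2,M2)` from the induction hypothesis at `e + k_(b,j0)`; `(S3,M3)` from the induction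
   hypothesis at `e`.  One constant `mk S M` dominating `tau * mk3`, `mk4 * tau * mk3`, `mk4 * mk2 * mk1 * tau` for all `(b,j0)` (`exists_mk_ge` over the finite index type, `mk_mul_le`, `tau_le_mk`).
   Given `v, u, t, x`: `t0 := t (Fin.last n)`, `t' := t ∘ Fin.castSucc`, `sumD t = sumD t' + single t0 1` (`Fin.sum_univ_castSucc`), `∏ = (∏ over t') * dist v x t0` (`Fin.prod_univ_castSucc`), `0 ≤ sumD t'`.
   `b` := argmax: `nx v x = v (lift x b)` (`exists_nv_eq`), `> 0` so `lift x b ≠ 0`, and `v (z b x j) ≤ 1 ≤ tau v`.    DROP := `u ∈ L(D e - sumD t')` (`L_mono`) + induction hypothesis at `e`: `v (ev e u x) ≤ mk3 * (nm * nx^e * ∏')`.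
   CASE B: `∃ k, tau v * v (lift t0 b) < v (lift t0 k)`: `far_chart`: `1 ≤ tau * dist v x t0`; DROP, multiply.
   CASE A: `∀ k, v (lift t0 k) ≤ tau v * v (lift t0 b)`.  Then `lift t0 b ≠ 0` (`k = E.a t0`, `lift_a`: `1 ≤ tau * v (..)`) and `v (z b t0 j) ≤ tau v`.   `dich`:
     FAR: `1 ≤ mk4 * v (z b x j - z b t0 j) ≤ mk4 * tau * dist v x t0` (`chart_le`); DROP, multiply.
     NEAR: `j0 ≠ b`, `1 ≤ mk4 * v c`, `c := c_j0(x,t0)`.  `step` gives `u'`.  Take `v` of the identity:  `v (ev e u x) * (nx^(k+1) * v c) = v (ev (e+k) u' x) * (nx * v (z b x j0 - z b t0 j0))`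
        `≤ mk2 * (nm (e+k) u' * nx^(e+k) * ∏') * (nx * (tau * dist v x t0)) ≤ mk2 mk1 tau * nm e u * nx^(e+k+1) * ∏' * dist`.   Divide by `nx^(k+1) > 0` and use `1 ≤ mk4 * v c`.
-/
import Fermat.Agent.S17.Loc.Dist
import Fermat.Agent.S17.Loc.Step

set_option autoImplicit false

noncomputable section

namespace Fermat.Agent.S17.Loc

open AlgebraicCurve Fermat.Agent.S37 Fermat.Agent.S27 MvPolynomial MK

variable {K F : Type*} [Field K] [Field F] [Algebra K F] [IsAlgClosed K] [CharZero K]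

omit [IsAlgClosed K] [CharZero K] in
theorem sumD_nonneg {n : ℕ} (t : Fin n → Place K F) : 0 ≤ PE.sumD t := by
  classical
  unfold PE.sumD
  refine Finset.sum_nonneg fun i _ => ?_
  intro y
  rw [Finsupp.single_apply]
  split_ifs <;> simp

omit [IsAlgClosed K] [CharZero K] in
theorem sumD_succ {n : ℕ} (t : Fin (n + 1) → Place K F) :
    PE.sumD t = PE.sumD (fun i : Fin n => t i.castSucc) + Finsupp.single (t (Fin.last n)) 1 := by
  unfold PE.sumD
  rw [Fin.sum_univ_castSucc]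

theorem schw_real_drop {A c3 G Pr a d0 Cst : ℝ} (hdrop : A ≤ c3 * (G * Pr)) (hG : 0 ≤ G)
    (hPr : 0 ≤ Pr) (hd0 : 0 ≤ d0) (hc3 : 0 ≤ c3) (ha : 1 ≤ a * d0) (hle : c3 * a ≤ Cst) :
    A ≤ Cst * (G * (Pr * d0)) := by
  calc A ≤ c3 * (G * Pr) := hdrop
    _ = c3 * (G * Pr) * 1 := by ring
    _ ≤ c3 * (G * Pr) * (a * d0) := by
        apply mul_le_mul_of_nonneg_left ha
        positivity
    _ = (c3 * a) * (G * (Pr * d0)) := by ring
    _ ≤ Cst * (G * (Pr * d0)) := by
        apply mul_le_mul_of_nonneg_right hle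
        positivity

theorem schw_real_near {A X vc c4 c2 c1 τ nu Pr d0 B Z Cst : ℝ} {e kk : ℕ} (hX : 0 < X) (hA : 0 ≤ A)
    (hc4 : 0 ≤ c4) (hc2 : 0 ≤ c2) (hc1 : 0 ≤ c1) (hτ : 0 ≤ τ) (hnu : 0 ≤ nu) (hPr : 0 ≤ Pr)
    (hd0 : 0 ≤ d0) (hv : A * (X ^ (kk + 1) * vc) = B * (X * Z))
    (hB : B ≤ c2 * (c1 * nu * X ^ (e + kk) * Pr)) (hB0 : 0 ≤ B) (hZ : Z ≤ τ * d0) (hZ0 : 0 ≤ Z)
    (hc : 1 ≤ c4 * vc) (hle : c4 * c2 * c1 * τ ≤ Cst) :
    A ≤ Cst * (nu * X ^ e * (Pr * d0)) := by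
  have key : A * X ^ (kk + 1) ≤ (c4 * c2 * c1 * τ * (nu * X ^ e * (Pr * d0))) * X ^ (kk + 1) := by
    calc A * X ^ (kk + 1) = A * X ^ (kk + 1) * 1 := by ring
      _ ≤ A * X ^ (kk + 1) * (c4 * vc) := by
          apply mul_le_mul_of_nonneg_left hc
          positivity
      _ = c4 * (A * (X ^ (kk + 1) * vc)) := by ring
      _ = c4 * (B * (X * Z)) := by rw [hv]
      _ ≤ c4 * ((c2 * (c1 * nu * X ^ (e + kk) * Pr)) * (X * (τ * d0))) := by
          gcongr
      _ = (c4 * c2 * c1 * τ * (nu * X ^ e * (Pr * d0))) * X ^ (kk + 1) := by ring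
  have key2 := le_of_mul_le_mul_right key (by positivity)
  refine key2.trans ?_
  apply mul_le_mul_of_nonneg_right hle (by positivity)

theorem schw_mk_big [DecidableEq K] (T4 T2 T1 S3 : Finset K) (N4 N2 N1 M3 : ℕ) (v : AbsoluteValue K ℝ) :
    mk T4 N4 v * mk T2 N2 v * mk T1 N1 v * mk S3 M3 v * tau v ≤
      mk (T4 ∪ T2 ∪ T1 ∪ S3 ∪ ∅) (N4 + N2 + N1 + M3 + 1) v := by
  have e1 := mk_mul_le T4 T2 N4 N2 v
  have e2 := mk_mul_le (T4 ∪ T2) T1 (N4 + N2) N1 v
  have e3 := mk_mul_le (T4 ∪ T2 ∪ T1) S3 (N4 + N2 + N1) M3 v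
  have e4 := mk_mul_le (T4 ∪ T2 ∪ T1 ∪ S3) ∅ (N4 + N2 + N1 + M3) 1 v
  have e5 : tau v ≤ mk (∅ : Finset K) 1 v := tau_le_mk ∅ le_rfl v
  have p1 := (mk_pos T1 N1 v).le
  have p3 := (mk_pos S3 M3 v).le
  have pt : 0 ≤ tau v := le_trans zero_le_one (one_le_tau v)
  calc mk T4 N4 v * mk T2 N2 v * mk T1 N1 v * mk S3 M3 v * tau v
      ≤ mk (T4 ∪ T2) (N4 + N2) v * mk T1 N1 v * mk S3 M3 v * tau v := by gcongr
    _ ≤ mk (T4 ∪ T2 ∪ T1) (N4 + N2 + N1) v * mk S3 M3 v * tau v := by gcongr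
    _ ≤ mk (T4 ∪ T2 ∪ T1 ∪ S3) (N4 + N2 + N1 + M3) v * tau v := by gcongr
    _ ≤ mk (T4 ∪ T2 ∪ T1 ∪ S3) (N4 + N2 + N1 + M3) v * mk (∅ : Finset K) 1 v := by
        apply mul_le_mul_of_nonneg_left e5 (mk_pos _ _ _).le
    _ ≤ _ := e4

/-- **the Schwarz lemma** -/
theorem schw (E : PE K F) (h : IsFF K F) (n : ℕ) : ∀ e : ℕ, ∃ (S : Finset K) (M : ℕ),
    ∀ (v : AbsoluteValue K ℝ) (u : F) (t : Fin n → Place K F) (x : Place K F),
      u ∈ riemannRochSpace (E.D e - PE.sumD t) →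
      v (E.ev e u x) ≤ mk S M v * (E.nm v e u * E.nx v x ^ e * ∏ i, E.dist v x (t i)) := by
  induction n with
  | zero =>
    intro e
    obtain ⟨M, hM⟩ := E.ev_le h e
    refine ⟨∅, M, fun v u t x hu => ?_⟩
    have hu' : u ∈ E.W e := by simpa [PE.sumD, PE.W] using hu
    simpa using hM v u x hu'
  | succ n ih =>
    intro e
    classical
    let κ : ∀ b, Ker E b := fun b => (exists_ker E h b).some
    choose S4 M4 h4 using fun b => dich E h b (κ b)
    choose k hk using fun (p : {p : Fin (E.r + 1) × Fin (E.r + 1) // p.2 ≠ p.1}) =>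
      step E h p.1.1 (κ p.1.1) p.1.2 p.2
    choose S1 M1 h1 using fun p => hk p e
    choose S2 M2 h2 using fun p => ih (e + k p)
    obtain ⟨S3, M3, h3⟩ := ih e
    obtain ⟨T4, N4, H4⟩ := exists_mk_ge S4 M4
    obtain ⟨T1, N1, H1⟩ := exists_mk_ge S1 M1
    obtain ⟨T2, N2, H2⟩ := exists_mk_ge S2 M2
    refine ⟨T4 ∪ T2 ∪ T1 ∪ S3 ∪ ∅, N4 + N2 + N1 + M3 + 1, fun v u t x hu => ?_⟩
    have big := schw_mk_big T4 T2 T1 S3 N4 N2 N1 M3 v
    have o4 : 1 ≤ mk T4 N4 v := one_le_mk _ _ _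
    have o2 : 1 ≤ mk T2 N2 v := one_le_mk _ _ _
    have o1 : 1 ≤ mk T1 N1 v := one_le_mk _ _ _
    have o3 : 1 ≤ mk S3 M3 v := one_le_mk _ _ _
    have ot : 1 ≤ tau v := one_le_tau v
    have hsum : PE.sumD t = PE.sumD (fun i : Fin n => t i.castSucc) + Finsupp.single (t (Fin.last n)) 1 :=
      sumD_succ t
    have hT0 : 0 ≤ PE.sumD (fun i : Fin n => t i.castSucc) := sumD_nonneg _
    rw [Fin.prod_univ_castSucc]
    have hXpos : 0 < E.nx v x := E.nx_pos h v x
    have hnu0 : 0 ≤ E.nm v e u := E.nm_nonneg v e u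
    have hd00 : 0 ≤ E.dist v x (t (Fin.last n)) := E.dist_nonneg v x _
    have hPr0 : 0 ≤ ∏ i : Fin n, E.dist v x (t i.castSucc) :=
      Finset.prod_nonneg fun i _ => E.dist_nonneg v x _
    have hG0 : 0 ≤ E.nm v e u * E.nx v x ^ e := mul_nonneg hnu0 (pow_nonneg hXpos.le _)
    -- DROP
    have hdrop : v (E.ev e u x) ≤ mk S3 M3 v *
        (E.nm v e u * E.nx v x ^ e * ∏ i : Fin n, E.dist v x (t i.castSucc)) := by
      apply h3 v u (fun i : Fin n => t i.castSucc) x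
      refine PE.L_mono ?_ hu
      rw [hsum]
      have : (0 : Divisor K F) ≤ Finsupp.single (t (Fin.last n)) 1 := by
        intro y
        rw [Finsupp.single_apply]
        split_ifs <;> simp
      intro y
      have := this y
      simp only [Finsupp.sub_apply, Finsupp.add_apply, Finsupp.zero_apply] at this ⊢
      omega
    obtain ⟨b, hb⟩ := exists_nv_eq v (E.lift x)
    have hb' : E.nx v x = v (E.lift x b) := hb
    have hxb : E.lift x b ≠ 0 := by
      intro h0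
      rw [h0, map_zero] at hb'
      exact hXpos.ne' hb'
    have hzx : ∀ j, v (E.z b x j) ≤ tau v := by
      intro j
      refine le_trans ?_ ot
      unfold PE.z
      rw [map_div₀, ← hb', div_le_one hXpos]
      exact le_nv v (E.lift x) j
    by_cases hB : ∃ k', tau v * v (E.lift (t (Fin.last n)) b) < v (E.lift (t (Fin.last n)) k')
    · -- CASE B
      have hfar := E.far_chart h v hb' hB
      refine schw_real_drop hdrop hG0 hPr0 hd00 (by linarith) hfar ?_
      refine le_trans ?_ big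
      calc mk S3 M3 v * tau v = 1 * 1 * 1 * mk S3 M3 v * tau v := by ring
        _ ≤ mk T4 N4 v * mk T2 N2 v * mk T1 N1 v * mk S3 M3 v * tau v := by gcongr
    · push_neg at hB
      have htb : E.lift (t (Fin.last n)) b ≠ 0 := by
        intro h0
        have := hB (E.a (t (Fin.last n)))
        rw [E.lift_a h, h0, map_one, map_zero, mul_zero] at this
        linarith
      have htbpos : 0 < v (E.lift (t (Fin.last n)) b) := v.pos htb
      have hzt : ∀ j, v (E.z b (t (Fin.last n)) j) ≤ tau v := by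
        intro j
        unfold PE.z
        rw [map_div₀, div_le_iff₀ htbpos]
        exact hB j
      rcases h4 b v x (t (Fin.last n)) hxb htb hzx hzt with ⟨j, hj⟩ | ⟨j0, hj0, hj⟩
      · -- FAR
        have hch := E.chart_le h v hb' hB j
        have hm4 : mk (S4 b) (M4 b) v ≤ mk T4 N4 v := H4 b v
        refine schw_real_drop (a := mk T4 N4 v * tau v) hdrop hG0 hPr0 hd00 (by linarith) ?_ ?_
        · calc (1 : ℝ) ≤ mk (S4 b) (M4 b) v * v (E.z b x j - E.z b (t (Fin.last n)) j) := hj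
            _ ≤ mk T4 N4 v * (tau v * E.dist v x (t (Fin.last n))) := by
                apply mul_le_mul hm4 hch (v.nonneg _) (by linarith)
            _ = mk T4 N4 v * tau v * E.dist v x (t (Fin.last n)) := by ring
        · refine le_trans ?_ big
          calc mk S3 M3 v * (mk T4 N4 v * tau v) = mk T4 N4 v * 1 * 1 * mk S3 M3 v * tau v := by ring
            _ ≤ mk T4 N4 v * mk T2 N2 v * mk T1 N1 v * mk S3 M3 v * tau v := by gcongr
      · -- NEAR
        let p : {p : Fin (E.r + 1) × Fin (E.r + 1) // p.2 ≠ p.1} := ⟨(b, j0), hj0⟩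
        have hu2 : u ∈ riemannRochSpace (E.D e - (PE.sumD (fun i : Fin n => t i.castSucc) +
            Finsupp.single (t (Fin.last n)) 1)) := by
          rw [← hsum]; exact hu
        obtain ⟨u', hu'mem, hnm, hid⟩ := h1 p v u (t (Fin.last n)) _ hT0 htb hzt hu2
        have hi := hid x hxb
        have hIH := h2 p v u' (fun i : Fin n => t i.castSucc) x hu'mem
        have hch := E.chart_le h v hb' hB j0
        have hm4 : mk (S4 b) (M4 b) v ≤ mk T4 N4 v := H4 b v
        have hm1 : mk (S1 p) (M1 p) v ≤ mk T1 N1 v := H1 p v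
        have hm2 : mk (S2 p) (M2 p) v ≤ mk T2 N2 v := H2 p v
        have hv : v (E.ev e u x) * (E.nx v x ^ (k p + 1) *
              v (eval (Sum.elim (E.z b x) (E.z b (t (Fin.last n)))) ((κ b).c j0))) =
            v (E.ev (e + k p) u' x) * (E.nx v x * v (E.z b x j0 - E.z b (t (Fin.last n)) j0)) := by
          have := congrArg v hi
          rw [map_mul, map_mul, map_pow, map_mul, map_mul, ← hb'] at this
          exact this
        have hnu' : E.nm v (e + k p) u' ≤ mk T1 N1 v * E.nm v e u :=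
          hnm.trans (mul_le_mul_of_nonneg_right hm1 hnu0)
        have hev' : v (E.ev (e + k p) u' x) ≤ mk T2 N2 v * (mk T1 N1 v * E.nm v e u *
            E.nx v x ^ (e + k p) * ∏ i : Fin n, E.dist v x (t i.castSucc)) := by
          refine hIH.trans ?_
          have h0 : 0 ≤ E.nm v (e + k p) u' := E.nm_nonneg _ _ _
          apply mul_le_mul hm2 _ _ (by linarith)
          · apply mul_le_mul_of_nonneg_right _ hPr0
            apply mul_le_mul_of_nonneg_right hnu' (pow_nonneg hXpos.le _)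
          · exact mul_nonneg (mul_nonneg h0 (pow_nonneg hXpos.le _)) hPr0
        have hc1 : 1 ≤ mk T4 N4 v *
            v (eval (Sum.elim (E.z b x) (E.z b (t (Fin.last n)))) ((κ b).c j0)) :=
          hj.trans (mul_le_mul_of_nonneg_right hm4 (v.nonneg _))
        refine schw_real_near (kk := k p) hXpos (v.nonneg _) (by linarith) (by linarith) (by linarith)
          (by linarith) hnu0 hPr0 hd00 hv hev' (v.nonneg _) hch (v.nonneg _) hc1 ?_
        refine le_trans ?_ big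
        calc mk T4 N4 v * mk T2 N2 v * mk T1 N1 v * tau v
            = mk T4 N4 v * mk T2 N2 v * mk T1 N1 v * 1 * tau v := by ring
          _ ≤ mk T4 N4 v * mk T2 N2 v * mk T1 N1 v * mk S3 M3 v * tau v := by gcongr

end Fermat.Agent.S17.Loc
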