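/-
S17 / LOC, KEY [S17/L-ALT]  (~350 lines, uses Loc/Sec, Ev, Schw statements).    (ALT): upper bound for interpolation determinants.

   `φ_1..φ_k ∈ W m`, `y_1..y_k` distinct   ⟹   `v (det φ_j(y~_i)) ≪ ∏ ‖φ_j‖ ∏ ‖y~_i‖^m ∏_{i<j} d_v(y_i,y_j)`.

PROOF.  Induction on `k`.  `k = 0`: `det = 1`, all products are `1`, `one_le_mk`.
 `k + 1`: `A i j := ev m (φ j) (y i)`.  `Matrix.det_succ_row_zero`: `det A = ∑ j, (-1)^j * A 0 j * μ_j`, `μ_j := det (A.submatrix Fin.succ j.succAbove)` = the determinant of the same shape for `φ ∘ j.succAbove`, `y ∘ Fin.succ`.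
   `u := ∑ j, ((-1)^j * μ_j) • φ j ∈ W m`.   `ev m u x = ∑ j, (-1)^j * μ_j * ev m (φ j) x` (`ev_sum`, `ev_smul`) `= det (A with row 0 replaced by (ev m (φ j) x)_j)` (`Matrix.det_succ_row_zero` again, `Matrix.updateRow`; the minors do not see row 0).
   For `x = y i.succ` two rows are equal: `Matrix.det_zero_of_row_eq`; so `ev m u (y i.succ) = 0`, `u ∈ L(D m - single (y i.succ) 1)` (`ev_eq_zero_iff`), and since the `y i.succ` are distinct, `u ∈ L(D m - sumD (y ∘ succ))`
   (`mem_riemannRochSpace_iff` place by place: `sumD t z = 1` if `z = t i` for the unique such `i`, `0` otherwise).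
   Norm: `nm v m u ≤ tau^(k+1) * max_j (v μ_j * nm v m (φ j))` (`nm_sum_le`, `nm_smul`), and by the induction hypothesis `v μ_j ≤ mk_IH * (∏_{j' ≠ j} nm (φ j') * ∏_{i ≥ 1} nx^m * ∏_{1 ≤ i < i'} dist)`, `Fin.prod_univ_succAbove`.
   `schw E h k m` at `x = y 0`: `v (det A) = v (ev m u (y 0)) ≤ mk * (nm u * nx (y 0)^m * ∏_i dist v (y 0) (y i.succ))`.
   Reindex the double product: `∏ i : Fin (k+1), ∏ j ∈ Ioi i, d i j = (∏ j : Fin k, d 0 j.succ) * ∏ i : Fin k, ∏ j ∈ Ioi i, d i.succ j.succ` (`Fin.prod_univ_succ`, `Fin.Ioi_zero_eq_map`, `Fin.Ioi_succ`, `Finset.prod_map`).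
-/
import Fermat.Agent.S17.Loc.Schw

set_option autoImplicit false

noncomputable section

namespace Fermat.Agent.S17.Loc

open AlgebraicCurve Fermat.Agent.S37 Fermat.Agent.S27 MvPolynomial MK

variable {K F : Type*} [Field K] [Field F] [Algebra K F] [IsAlgClosed K] [CharZero K]

theorem sumD_apply_of_inj {k : ℕ} {t : Fin k → Place K F} (ht : Function.Injective t) (i : Fin k) :
    PE.sumD t (t i) = 1 := by
  classical
  unfold PE.sumD
  rw [Finsupp.finsetSum_apply, Finset.sum_eq_single i]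
  · simp
  · intro b _ hb
    rw [Finsupp.single_apply, if_neg]
    exact fun hh => hb (ht hh)
  · simp

theorem sumD_apply_of_not_mem {k : ℕ} {t : Fin k → Place K F} {z : Place K F} (hz : ∀ i, t i ≠ z) :
    PE.sumD t z = 0 := by
  classical
  unfold PE.sumD
  rw [Finsupp.finsetSum_apply]
  apply Finset.sum_eq_zero
  intro i _
  rw [Finsupp.single_apply, if_neg (hz i)]

theorem mem_L_sumD_of_inj (E : PE K F) {m k : ℕ} {u : F} (hu : u ∈ E.W m) {t : Fin k → Place K F}
    (ht : Function.Injective t) (hv : ∀ i, u ∈ riemannRochSpace (E.D m - Finsupp.single (t i) 1)) :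
    u ∈ riemannRochSpace (E.D m - PE.sumD t) := by
  rw [mem_riemannRochSpace_iff]
  intro z
  by_cases hu0 : u = 0
  · exact Or.inl hu0
  right
  by_cases hz : ∃ i, t i = z
  · obtain ⟨i, rfl⟩ := hz
    have := ((mem_riemannRochSpace_iff.1 (hv i)) (t i)).resolve_left hu0
    rw [Finsupp.sub_apply, Finsupp.single_eq_same] at this
    rw [Finsupp.sub_apply, sumD_apply_of_inj ht]
    exact this
  · push Not at hz
    have := ((mem_riemannRochSpace_iff.1 hu) z).resolve_left hu0
    rw [Finsupp.sub_apply, sumD_apply_of_not_mem hz, sub_zero]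
    exact this

theorem prod_Ioi_succ {k : ℕ} (d : Fin (k + 1) → Fin (k + 1) → ℝ) :
    ∏ i, ∏ j ∈ Finset.Ioi i, d i j =
      (∏ j : Fin k, d 0 j.succ) * ∏ i : Fin k, ∏ j ∈ Finset.Ioi i, d i.succ j.succ := by
  rw [Fin.prod_univ_succ]
  congr 1
  · rw [Fin.Ioi_zero_eq_map, Finset.prod_map]
    rfl
  · refine Finset.prod_congr rfl fun i _ => ?_
    rw [Fin.Ioi_succ, Finset.prod_map]
    rfl

theorem alt (E : PE K F) (h : IsFF K F) (m k : ℕ) : ∃ (S : Finset K) (M : ℕ),
    ∀ (v : AbsoluteValue K ℝ) (φ : Fin k → F) (y : Fin k → Place K F), (∀ j, φ j ∈ E.W m) → Function.Injective y →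
      v (Matrix.det (Matrix.of fun i j => E.ev m (φ j) (y i))) ≤
        mk S M v * ((∏ j, E.nm v m (φ j)) * (∏ i, E.nx v (y i) ^ m) *
          ∏ i, ∏ j ∈ Finset.Ioi i, E.dist v (y i) (y j)) := by
  classical
  induction k with
  | zero =>
    refine ⟨∅, 0, fun v φ y _ _ => ?_⟩
    simp [Matrix.det_isEmpty, mk]
  | succ k ih =>
    obtain ⟨S0, M0, h0⟩ := ih
    obtain ⟨S1, M1, h1⟩ := schw E h k m
    refine ⟨S1 ∪ (∅ ∪ S0), M1 + (1 * (k + 1) + M0), fun v φ y hφ hy => ?_⟩
    let μ : Fin (k + 1) → K := fun j =>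
      Matrix.det (Matrix.of fun (i : Fin k) (j' : Fin k) => E.ev m (φ (j.succAbove j')) (y i.succ))
    let a : Fin (k + 1) → K := fun j => (-1) ^ (j : ℕ) * μ j
    have huW : ∑ j, a j • φ j ∈ E.W m := Submodule.sum_mem _ fun j _ => (E.W m).smul_mem _ (hφ j)
    have hev : ∀ x, E.ev m (∑ j, a j • φ j) x = ∑ j, a j * E.ev m (φ j) x := by
      intro x
      rw [E.ev_sum h Finset.univ _ (fun j _ => (E.W m).smul_mem _ (hφ j))]
      exact Finset.sum_congr rfl fun j _ => E.ev_smul h _ (hφ j) x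
    have hdet : ∀ x, E.ev m (∑ j, a j • φ j) x =
        Matrix.det ((Matrix.of fun i j => E.ev m (φ j) (y i)).updateRow 0 (fun j => E.ev m (φ j) x)) := by
      intro x
      rw [hev, Matrix.det_succ_row_zero]
      refine Finset.sum_congr rfl fun j _ => ?_
      have e1 : ((Matrix.of fun i j => E.ev m (φ j) (y i)).updateRow 0 (fun j => E.ev m (φ j) x)).submatrix
          Fin.succ j.succAbove = Matrix.of fun (i : Fin k) (j' : Fin k) => E.ev m (φ (j.succAbove j')) (y i.succ) := by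
        ext i j'
        simp [Matrix.updateRow_apply, Fin.succ_ne_zero]
      rw [e1, Matrix.updateRow_self]
      simp only [a, μ]
      ring
    have hdet0 : E.ev m (∑ j, a j • φ j) (y 0) = Matrix.det (Matrix.of fun i j => E.ev m (φ j) (y i)) := by
      rw [hdet]
      congr 1
      exact Matrix.updateRow_eq_self _ 0
    have hvan : ∀ i : Fin k, ∑ j, a j • φ j ∈ riemannRochSpace (E.D m - Finsupp.single (y i.succ) 1) := by
      intro i
      rw [← E.ev_eq_zero_iff h huW, hdet]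
      apply Matrix.det_zero_of_row_eq (Fin.succ_ne_zero i).symm
      ext j
      simp [Matrix.updateRow_apply, Fin.succ_ne_zero]
    have hinj : Function.Injective (fun i : Fin k => y i.succ) := fun i j hij =>
      Fin.succ_injective _ (hy hij)
    have huL := mem_L_sumD_of_inj E huW hinj hvan
    have hs := h1 v _ (fun i : Fin k => y i.succ) (y 0) huL
    rw [hdet0] at hs
    -- the norm of u
    set PN := ∏ j, E.nm v m (φ j) with hPN
    set NX := ∏ i : Fin k, E.nx v (y i.succ) ^ m with hNX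
    set DD := ∏ i : Fin k, ∏ j ∈ Finset.Ioi i, E.dist v (y i.succ) (y j.succ) with hDD
    have hPN0 : 0 ≤ PN := Finset.prod_nonneg fun j _ => E.nm_nonneg _ _ _
    have hNX0 : 0 ≤ NX := Finset.prod_nonneg fun j _ => pow_nonneg (E.nx_pos h v _).le _
    have hDD0 : 0 ≤ DD := Finset.prod_nonneg fun i _ => Finset.prod_nonneg fun j _ => E.dist_nonneg _ _ _
    have hterm : ∀ j ∈ (Finset.univ : Finset (Fin (k + 1))), E.nm v m (a j • φ j) ≤
        mk S0 M0 v * (PN * NX * DD) := by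
      intro j _
      rw [E.nm_smul h v _ (hφ j)]
      have hva : v (a j) = v (μ j) := by
        simp only [a, map_mul, map_pow, AbsoluteValue.map_neg, map_one, one_pow, one_mul]
      rw [hva]
      have := h0 v (fun j' => φ (j.succAbove j')) (fun i => y i.succ) (fun j' => hφ _) hinj
      have hsplit : PN = E.nm v m (φ j) * ∏ j' : Fin k, E.nm v m (φ (j.succAbove j')) :=
        Fin.prod_univ_succAbove _ j
      calc v (μ j) * E.nm v m (φ j)
          ≤ (mk S0 M0 v * ((∏ j' : Fin k, E.nm v m (φ (j.succAbove j'))) * NX * DD)) * E.nm v m (φ j) :=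
            mul_le_mul_of_nonneg_right this (E.nm_nonneg _ _ _)
        _ = mk S0 M0 v * (PN * NX * DD) := by rw [hsplit]; ring
    have hB0 : 0 ≤ mk S0 M0 v * (PN * NX * DD) :=
      mul_nonneg (mk_pos _ _ _).le (mul_nonneg (mul_nonneg hPN0 hNX0) hDD0)
    have hnu := E.nm_sum_le h v Finset.univ (fun j => a j • φ j)
      (fun j _ => (E.W m).smul_mem _ (hφ j)) hB0 hterm
    rw [Finset.card_univ, Fintype.card_fin] at hnu
    have htau : tau v ^ (k + 1) ≤ mk (∅ : Finset K) (1 * (k + 1)) v := by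
      rw [← mk_pow]
      exact pow_le_pow_left₀ (le_trans zero_le_one (one_le_tau v)) (tau_le_mk ∅ le_rfl v) _
    rw [Fin.prod_univ_succ (fun i => E.nx v (y i) ^ m), prod_Ioi_succ (fun i j => E.dist v (y i) (y j))]
    set D0 := ∏ i : Fin k, E.dist v (y 0) (y i.succ) with hD0
    have hD00 : 0 ≤ D0 := Finset.prod_nonneg fun j _ => E.dist_nonneg _ _ _
    have hX0 : 0 ≤ E.nx v (y 0) ^ m := pow_nonneg (E.nx_pos h v _).le _
    have hcst : mk S1 M1 v * (mk (∅ : Finset K) (1 * (k + 1)) v * mk S0 M0 v) ≤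
        mk (S1 ∪ (∅ ∪ S0)) (M1 + (1 * (k + 1) + M0)) v := by
      refine le_trans ?_ (mk_mul_le S1 (∅ ∪ S0) M1 (1 * (k + 1) + M0) v)
      exact mul_le_mul_of_nonneg_left (mk_mul_le ∅ S0 _ M0 v) (mk_pos _ _ _).le
    calc v (Matrix.det (Matrix.of fun i j => E.ev m (φ j) (y i)))
        ≤ mk S1 M1 v * (E.nm v m (∑ j, a j • φ j) * E.nx v (y 0) ^ m * D0) := hs
      _ ≤ mk S1 M1 v * ((mk (∅ : Finset K) (1 * (k + 1)) v * (mk S0 M0 v * (PN * NX * DD))) *
            E.nx v (y 0) ^ m * D0) := by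
          apply mul_le_mul_of_nonneg_left _ (mk_pos _ _ _).le
          apply mul_le_mul_of_nonneg_right _ hD00
          apply mul_le_mul_of_nonneg_right _ hX0
          exact hnu.trans (mul_le_mul_of_nonneg_right htau hB0)
      _ = (mk S1 M1 v * (mk (∅ : Finset K) (1 * (k + 1)) v * mk S0 M0 v)) *
            (PN * (E.nx v (y 0) ^ m * NX) * (D0 * DD)) := by ring
      _ ≤ mk (S1 ∪ (∅ ∪ S0)) (M1 + (1 * (k + 1) + M0)) v *
            (PN * (E.nx v (y 0) ^ m * NX) * (D0 * DD)) := by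
          apply mul_le_mul_of_nonneg_right hcst
          exact mul_nonneg (mul_nonneg hPN0 (mul_nonneg hX0 hNX0)) (mul_nonneg hD00 hDD0)

end Fermat.Agent.S17.Loc
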