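/-
S17 / LOC, KEY [S17/L-E1]  (~300 lines, uses Loc/Mult, Sec, Dist, Ev statements).    (E1), lower bound:   `‖s‖ ‖x~‖^e ∏ d_v(x,t_i) ≪ v (s(x~))`  if `t_1 + .. + t_n` is the FULL zero divisor of `s ∈ W e` (`n = e n0`).
(The upper bound is `schw`.)

`secant`: for places `x, t` there is a linear form `l ∈ W 1` with `l ∈ L(D 1 - t)`, `v (ev 1 l x) = wedge v x t`, `nm v 1 l ≤ nx v t`:
     `(j,k)` from `exists_wedge_eq v x t`, `l := lift t k • f j - lift t j • f k`; `ev 1 l y = lift t k * lift y j - lift t j * lift y k` (`ev_add/ev_smul/ev_f`); zero at `y = t` (`ev_eq_zero_iff`);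
     `nm_lin` with `c = lift t k • Pi.single j 1 - lift t j • Pi.single k 1`: every entry is `0`, `± lift t _` or (if `j = k`) `0`; `le_nv`.
`e1_lower`.  `n := e * n0`, `n' := e * (n0 - 1)`, `e + n' = n`.   Constants: `prod_upper h n`, `mult_lower h e n'`, `ev_le h n'`.
   `l_i := secant x (t i)`, `Π := ∏ l_i ∈ W n` (`prod_mem_W`), `w := Π / s`.   `w ∈ W n'`: `Π = 0` trivial; else `ord_y Π = ∑ ord_y l_i ≥ - D n y + sumD t y` (each `ord_y l_i ≥ - D 1 y + δ_(t i) y`; or: `Π ∈ L(D n - sumD t)` by induction on the number of factors), and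
   `ord_y s = sumD t y - D e y` (`hs`), so `ord_y w ≥ - D n y + D e y = - D n' y` (`D_add`).
   `∏ wedge v x (t i) = v (ev n Π x) = v (ev e s x) * v (ev n' w x) ≤ v (ev e s x) * mk'' * nm n' w * nx^n'`    (`ev_prod`, `ev_mul`, `s * w = Π`),
   `nm e s * nm n' w ≤ mk * nm n Π ≤ mk mk' ∏ nm 1 l_i ≤ mk mk' ∏ nx v (t i)`,     `wedge = dist * (nx x * nx (t i))` (`wedge_eq`).
   Multiply the first line by `nm e s` and cancel `nx^n' * ∏ nx (t i) > 0`.
`nx_dist_oo` (special case `s = 1 = f 0`, `e = 1`, all `t i = oo`): for `x ≠ oo`: `ev 1 1 x = lift x 0 = 1` (`E.a x = 0`, `lift_a`), `nm v 1 1 = 1` (`nm_lin` with `Pi.single 0 1`, `E.f_zero`).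
-/
import Fermat.Agent.S17.Loc.Mult
import Fermat.Agent.S17.Loc.Schw

set_option autoImplicit false

noncomputable section

namespace Fermat.Agent.S17.Loc

open AlgebraicCurve Fermat.Agent.S37 Fermat.Agent.S27 MvPolynomial MK

variable {K F : Type*} [Field K] [Field F] [Algebra K F] [IsAlgClosed K] [CharZero K]

theorem ev_lincomb (E : PE K F) (h : IsFF K F) (c : Fin (E.r + 1) → K) (y : Place K F) :
    E.ev 1 (∑ i, c i • E.f i) y = ∑ i, c i * E.lift y i := by
  rw [E.ev_sum h Finset.univ _ (fun i _ => (E.W 1).smul_mem _ (E.f_mem i))]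
  refine Finset.sum_congr rfl fun i _ => ?_
  rw [E.ev_smul h _ (E.f_mem i), E.ev_f]

/-- a linear form through `t` which is as large as possible at `x` -/
theorem secant (E : PE K F) (h : IsFF K F) (v : AbsoluteValue K ℝ) (x t : Place K F) :
    ∃ l ∈ riemannRochSpace (E.D 1 - Finsupp.single t 1), l ∈ E.W 1 ∧ v (E.ev 1 l x) = E.wedge v x t ∧
      E.nm v 1 l ≤ E.nx v t := by
  classical
  obtain ⟨j, k, hjk⟩ := E.exists_wedge_eq v x t
  let c : Fin (E.r + 1) → K := fun i => (if i = j then E.lift t k else 0) - (if i = k then E.lift t j else 0)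
  have hW : ∑ i, c i • E.f i ∈ E.W 1 := Submodule.sum_mem _ fun i _ => (E.W 1).smul_mem _ (E.f_mem i)
  have hev : ∀ y, E.ev 1 (∑ i, c i • E.f i) y = E.lift t k * E.lift y j - E.lift t j * E.lift y k := by
    intro y
    rw [ev_lincomb E h]
    simp only [c, sub_mul, Finset.sum_sub_distrib, ite_mul, zero_mul, Finset.sum_ite_eq',
      Finset.mem_univ, if_true]
  refine ⟨∑ i, c i • E.f i, ?_, hW, ?_, ?_⟩
  · rw [← E.ev_eq_zero_iff h hW, hev]
    ring
  · rw [hev, hjk]
    congr 1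
    ring
  · rw [E.nm_lin h]
    apply nv_le
    intro i
    have h1 : ∀ a, v (E.lift t a) ≤ E.nx v t := fun a => le_nv v (E.lift t) a
    have h0 : 0 ≤ E.nx v t := nv_nonneg v _
    simp only [c]
    by_cases hij : i = j
    · by_cases hik : i = k
      · have : j = k := hij ▸ hik
        subst this
        simp [hij, h0]
      · simp [hij, hik, h1]
        have : ¬ j = k := fun hh => hik (hij.trans hh)
        simp [this, h1]
    · by_cases hik : i = k
      · simp [hij, hik, h1]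
        have : ¬ k = j := fun hh => hij (hik.trans hh)
        simp [this, h1]
      · simp [hij, hik, h0]

theorem prod_mem_L (E : PE K F) {n : ℕ} (l : Fin n → F) (t : Fin n → Place K F)
    (hl : ∀ i, l i ∈ riemannRochSpace (E.D 1 - Finsupp.single (t i) 1)) :
    ∏ i, l i ∈ riemannRochSpace (E.D n - PE.sumD t) := by
  induction n with
  | zero =>
    have := E.one_mem_W_zero
    simpa [PE.sumD, PE.W] using this
  | succ n ih =>
    rw [Fin.prod_univ_castSucc, sumD_succ, E.D_add]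
    have h1 := ih (fun i => l i.castSucc) (fun i => t i.castSucc) (fun i => hl _)
    have h2 := PE.L_mul h1 (hl (Fin.last n))
    have e : E.D n + E.D 1 - (PE.sumD (fun i : Fin n => t i.castSucc) + Finsupp.single (t (Fin.last n)) 1) =
        E.D n - PE.sumD (fun i : Fin n => t i.castSucc) + (E.D 1 - Finsupp.single (t (Fin.last n)) 1) := by
      abel
    rw [e]
    exact h2

theorem e1_real {ns X Pd Tn A B nw ce cl cp : ℝ} {e n' : ℕ} (hX : 0 < X) (hT : 0 < Tn) (hns : 0 ≤ ns)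
    (hA : 0 ≤ A) (h1 : Pd * X ^ (e + n') * Tn = A * B) (h2 : B ≤ ce * (nw * X ^ n'))
    (h3 : ns * nw ≤ cl * (cp * Tn)) (hce : 0 ≤ ce) : ns * X ^ e * Pd ≤ (cl * cp * ce) * A := by
  have key : (ns * X ^ e * Pd) * (X ^ n' * Tn) ≤ ((cl * cp * ce) * A) * (X ^ n' * Tn) := by
    calc (ns * X ^ e * Pd) * (X ^ n' * Tn) = ns * (Pd * X ^ (e + n') * Tn) := by ring
      _ = ns * (A * B) := by rw [h1]
      _ ≤ ns * (A * (ce * (nw * X ^ n'))) := by gcongr
      _ = (A * ce * X ^ n') * (ns * nw) := by ring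
      _ ≤ (A * ce * X ^ n') * (cl * (cp * Tn)) := by
          apply mul_le_mul_of_nonneg_left h3
          positivity
      _ = ((cl * cp * ce) * A) * (X ^ n' * Tn) := by ring
  exact le_of_mul_le_mul_right key (by positivity)

theorem e1_lower (E : PE K F) (h : IsFF K F) (e : ℕ) : ∃ (S : Finset K) (M : ℕ),
    ∀ (v : AbsoluteValue K ℝ) (s : F) (t : Fin (e * E.n0) → Place K F) (x : Place K F),
      s ∈ E.W e → s ≠ 0 → (∀ y : Place K F, y.ord s + E.D e y = PE.sumD t y) →
      E.nm v e s * E.nx v x ^ e * ∏ i, E.dist v x (t i) ≤ mk S M v * v (E.ev e s x) := by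
  classical
  have hn : e + e * (E.n0 - 1) = e * E.n0 := by
    have := E.n0_pos
    obtain ⟨m, hm⟩ : ∃ m, E.n0 = m + 1 := ⟨E.n0 - 1, by omega⟩
    rw [hm]
    simp only [Nat.add_sub_cancel]
    ring
  obtain ⟨Sp, Mp, hp⟩ := E.prod_upper h (e * E.n0)
  obtain ⟨Sl, Ml, hl⟩ := E.mult_lower h e (e * (E.n0 - 1))
  obtain ⟨Me, he⟩ := E.ev_le h (e * (E.n0 - 1))
  refine ⟨Sl ∪ Sp ∪ ∅, Ml + Mp + Me, fun v s t x hs hs0 hdiv => ?_⟩
  choose l hlmem hlW hlev hlnm using fun i => secant E h v x (t i)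
  have hPL := prod_mem_L E l t hlmem
  have hPW : ∏ i, l i ∈ E.W (e * E.n0) := E.prod_mem_W l hlW
  have hwW : (∏ i, l i) / s ∈ E.W (e * (E.n0 - 1)) := by
    unfold PE.W
    rw [mem_riemannRochSpace_iff]
    intro y
    by_cases h0 : ∏ i, l i = 0
    · left; rw [h0, zero_div]
    right
    have h1 := ((mem_riemannRochSpace_iff.1 hPL) y).resolve_left h0
    rw [div_eq_mul_inv, y.ord_mul h0 (inv_ne_zero hs0), y.ord_inv]
    have h2 := hdiv y
    have h3 : E.D (e * E.n0) y = E.D e y + E.D (e * (E.n0 - 1)) y := by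
      rw [← hn, E.D_add]; rfl
    simp only [Finsupp.sub_apply] at h1
    omega
  have hmul : s * ((∏ i, l i) / s) = ∏ i, l i := by field_simp
  have e1 := hl v s _ hs hwW
  rw [hmul, hn] at e1
  have e2 := hp v l hlW
  have e3 := he v _ x hwW
  have e5 := E.ev_mul h hs hwW x
  rw [hmul, hn, E.ev_prod h l hlW] at e5
  have hXpos := E.nx_pos h v x
  have hTpos : 0 < ∏ i, E.nx v (t i) := Finset.prod_pos fun i _ => E.nx_pos h v _
  have e4 : (∏ i, E.dist v x (t i)) * E.nx v x ^ (e + e * (E.n0 - 1)) * ∏ i, E.nx v (t i) =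
      v (E.ev e s x) * v (E.ev (e * (E.n0 - 1)) ((∏ i, l i) / s) x) := by
    rw [← map_mul, ← e5, map_prod, hn]
    have : ∀ i, v (E.ev 1 (l i) x) = E.dist v x (t i) * (E.nx v x * E.nx v (t i)) := by
      intro i
      rw [hlev i, E.wedge_eq h]
    simp only [this]
    rw [Finset.prod_mul_distrib, Finset.prod_mul_distrib, Finset.prod_const, Finset.card_univ,
      Fintype.card_fin]
    ring
  have e6 : E.nm v e s * E.nm v (e * (E.n0 - 1)) ((∏ i, l i) / s) ≤
      mk Sl Ml v * (mk Sp Mp v * ∏ i, E.nx v (t i)) := by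
    refine e1.trans (mul_le_mul_of_nonneg_left ?_ (mk_pos _ _ _).le)
    refine e2.trans (mul_le_mul_of_nonneg_left ?_ (mk_pos _ _ _).le)
    exact Finset.prod_le_prod (fun i _ => E.nm_nonneg _ _ _) (fun i _ => hlnm i)
  have := e1_real (e := e) hXpos hTpos (E.nm_nonneg v e s) (v.nonneg _) e4 e3 e6 (mk_pos _ _ _).le
  refine this.trans (mul_le_mul_of_nonneg_right ?_ (v.nonneg _))
  refine le_trans ?_ (mk_mul_le (Sl ∪ Sp) ∅ (Ml + Mp) Me v)
  exact mul_le_mul_of_nonneg_right (mk_mul_le Sl Sp Ml Mp v) (mk_pos _ _ _).le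

theorem e1_upper (E : PE K F) (h : IsFF K F) (e : ℕ) : ∃ (S : Finset K) (M : ℕ),
    ∀ (v : AbsoluteValue K ℝ) (s : F) (t : Fin (e * E.n0) → Place K F) (x : Place K F),
      s ∈ E.W e → s ≠ 0 → (∀ y : Place K F, y.ord s + E.D e y = PE.sumD t y) →
      v (E.ev e s x) ≤ mk S M v * (E.nm v e s * E.nx v x ^ e * ∏ i, E.dist v x (t i)) := by
  obtain ⟨S, M, hS⟩ := schw E h (e * E.n0) e
  refine ⟨S, M, fun v s t x _ _ hdiv => hS v s t x ?_⟩
  rw [mem_riemannRochSpace_iff]
  intro y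
  right
  have := hdiv y
  simp only [Finsupp.sub_apply]
  omega

/-- `‖x~‖ ~ d_v(x,oo)^(-n0)` -/
theorem nx_dist_oo (E : PE K F) (h : IsFF K F) : ∃ (S : Finset K) (M : ℕ),
    ∀ (v : AbsoluteValue K ℝ) (x : Place K F), x ≠ E.oo →
      E.nx v x * E.dist v x E.oo ^ E.n0 ≤ mk S M v ∧ 1 ≤ mk S M v * (E.nx v x * E.dist v x E.oo ^ E.n0) := by
  classical
  obtain ⟨S1, M1, h1⟩ := e1_lower E h 1
  obtain ⟨S2, M2, h2⟩ := e1_upper E h 1
  refine ⟨S1 ∪ S2, M1 + M2, fun v x hx => ?_⟩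
  have hW : (1 : F) ∈ E.W 1 := by rw [← E.f_zero]; exact E.f_mem 0
  have hdiv : ∀ y : Place K F, y.ord (1 : F) + E.D 1 y = PE.sumD (fun _ : Fin (1 * E.n0) => E.oo) y := by
    intro y
    unfold PE.sumD PE.D
    rw [Place.ord_one, zero_add, Finset.sum_const, Finset.card_univ, Fintype.card_fin,
      Finsupp.smul_single]
    simp
  have hev : E.ev 1 (1 : F) x = 1 := by
    have ha : E.a x = 0 := by unfold PE.a; rw [if_neg hx]
    have := E.lift_a h x
    rw [ha, ← E.ev_f, E.f_zero] at this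
    exact this
  have hnm : E.nm v 1 (1 : F) = 1 := by
    have := E.nm_lin h v (Pi.single 0 1)
    have e : ∑ j, (Pi.single 0 1 : Fin (E.r + 1) → K) j • E.f j = 1 := by
      rw [Finset.sum_eq_single 0]
      · simp [E.f_zero]
      · intro b _ hb
        simp [hb]
      · simp
    rw [e] at this
    rw [this]
    apply le_antisymm
    · apply nv_le
      intro j
      by_cases hj : j = 0
      · subst hj; simp
      · simp [hj]
    · have := le_nv v (Pi.single 0 1 : Fin (E.r + 1) → K) 0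
      simpa using this
  have a1 := h1 v 1 (fun _ => E.oo) x hW one_ne_zero hdiv
  have a2 := h2 v 1 (fun _ => E.oo) x hW one_ne_zero hdiv
  rw [hev, hnm, map_one, Finset.prod_const, Finset.card_univ, Fintype.card_fin, one_mul, one_mul,
    pow_one] at a1 a2
  have m1 : mk S1 M1 v ≤ mk (S1 ∪ S2) (M1 + M2) v := mk_mono Finset.subset_union_left (by omega) v
  have m2 : mk S2 M2 v ≤ mk (S1 ∪ S2) (M1 + M2) v := mk_mono Finset.subset_union_right (by omega) v
  constructor
  · rw [mul_one] at a1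
    exact a1.trans m1
  · refine a2.trans (mul_le_mul_of_nonneg_right m2 ?_)
    exact mul_nonneg (E.nx_pos h v x).le (pow_nonneg (E.dist_nonneg v x _) _)

end Fermat.Agent.S17.Loc
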