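/-
S17 / LOC, KEY [S17/L-TRI]  (~350 lines, uses Loc/Sec, Ev, Mult, Dist, E1 (`secant`) statements).    (TRI): lower bound for the maximal interpolation minor.

   `k ≤ m`:   `∏ ‖y~_i‖^m ∏_{i<j} d_v(y_i,y_j) ≪ max_J v (det (w_{J l}(y~_i)))`,   `w_μ = ` the monomial `μ ∈ B m`.

PROOF.  Constants: `prod_upper h m`; `N := card (B m)`.
 For `j : Fin k`: `a_j` := argmax of `lift (y j)` (`exists_nv_eq`: `nx v (y j) = v (lift (y j) a_j)`); for `i < j`: `l_(i,j) := secant E h v (y j) (y i)` (through `y i`, `v (ev 1 l (y j)) = wedge v (y j) (y i)`, `nm ≤ nx v (y i)`).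
 `u_j := ∏ s : Fin m, L_(j,s)` with `L_(j,s) = l_(s,j)` if `s < j` and `f (a_j)` otherwise (`j < k ≤ m`).   `u_j ∈ W m` (`prod_mem_W`).
   `ev m u_j (y i) = 0` for `i < j` (`ev_prod`, the factor `s = i` vanishes at `y i`: `ev_eq_zero_iff`).
   `v (ev m u_j (y j)) = nx (y j)^(m - j) * ∏_{i<j} wedge v (y j) (y i)`,      `nm v m u_j ≤ mk * ∏_{i<j} nx v (y i)`   (`nm v 1 (f a) = 1`: `nm_lin` with `Pi.single`).
 `U i j := ev m (u_j) (y i)` is triangular: `Matrix.det_of_lowerTriangular` / `det_of_upperTriangular`: `det U = ∏ j, ev m u_j (y j)`.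
 Expansion: `u_j = ∑ μ ∈ B m, c_(j,μ) • w_μ`, `c_(j,μ) = coeff μ (co m u_j)`, `v c ≤ nm v m u_j` (`le_nP`); `U i j = ∑ μ, c_(j,μ) * eval (lift (y i)) (monomial μ 1)` (`co_spec`, `ev_aeval`/`ev_sum`).
   By multilinearity of `det` in the columns (`Matrix.det` of a matrix whose column `j` is `∑ μ, c_(j,μ) • Y_μ`: `(Matrix.detRowAlternating).map_sum` on the transpose, i.e. `MultilinearMap.map_sum`, `map_smul_univ`):
   `det U = ∑ J : Fin k → ↥(B m), (∏ j, c_(j,J j)) * det (fun i l => eval (lift (y i)) (monomial (J l) 1))`.     `MK.sum_le`: some `J` has `v (det U) ≤ tau^(N^k) * (∏ j, nm v m u_j) * v (det Y_J)`.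
 Put together with `wedge = dist * nx * nx` (`wedge_eq`, `dist_comm`) and cancel `∏_j ∏_{i<j} nx v (y i) > 0`:
   `∏_j [nx (y j)^(m-j) ∏_{i<j} dist (y i) (y j) nx (y i) nx (y j)] = ∏_j nx (y j)^m * ∏_{i<j} dist * ∏_j ∏_{i<j} nx (y i)`.
 (`k = 0`: `det = 1`.)
-/
import Fermat.Agent.S17.Loc.E1

set_option autoImplicit false

noncomputable section

namespace Fermat.Agent.S17.Loc

open AlgebraicCurve Fermat.Agent.S37 Fermat.Agent.S27 MvPolynomial MK

variable {K F : Type*} [Field K] [Field F] [Algebra K F] [IsAlgClosed K] [CharZero K]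

omit [IsAlgClosed K] [CharZero K] in
theorem triAux_prod_ite (φ : ℕ → ℝ) {n M : ℕ} (h : n ≤ M) :
    ∏ s : Fin M, (if (s : ℕ) < n then φ s else 1) = ∏ t ∈ Finset.range n, φ t := by
  rw [Fin.prod_univ_eq_prod_range (fun t => if t < n then φ t else 1) M, ← Finset.prod_filter]
  congr 1
  ext t
  simp only [Finset.mem_filter, Finset.mem_range]
  omega

theorem triAux_reindex {k m : ℕ} (hk : k ≤ m) (g : ℕ → ℕ → ℝ) :
    ∏ j : Fin k, ∏ s : Fin m, (if (s : ℕ) < (j : ℕ) then g s j else 1) =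
      ∏ i : Fin k, ∏ j ∈ Finset.Ioi i, g i j := by
  have h1 : ∀ j : Fin k, ∏ s : Fin m, (if (s : ℕ) < (j : ℕ) then g s j else 1) =
      ∏ i : Fin k, (if i < j then g i j else 1) := by
    intro j
    rw [triAux_prod_ite (fun s => g s j) (j.2.le.trans hk)]
    have := triAux_prod_ite (fun s => g s j) (n := j) (M := k) j.2.le
    rw [← this]
    rfl
  simp_rw [h1]
  rw [Finset.prod_comm]
  refine Finset.prod_congr rfl fun i _ => ?_
  rw [← Finset.prod_filter]
  congr 1
  ext j
  simp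

/-- expansion of a determinant whose columns are linear combinations -/
theorem triAux_det_expand {R T : Type*} [CommRing R] [Fintype T] {k : ℕ} (c : Fin k → T → R)
    (Y : T → Fin k → R) :
    Matrix.det (Matrix.of fun i j => ∑ μ, c j μ * Y μ i) =
      ∑ J : Fin k → T, (∏ j, c j (J j)) * Matrix.det (Matrix.of fun i l => Y (J l) i) := by
  classical
  have h1 : Matrix.det (Matrix.of fun i j => ∑ μ, c j μ * Y μ i) =
      Matrix.detRowAlternating (fun j : Fin k => ∑ μ, c j μ • Y μ) := by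
    rw [← Matrix.det_transpose]
    change Matrix.det _ = Matrix.det _
    congr 1
    ext j i
    simp [Matrix.transpose_apply, Finset.sum_apply]
  rw [h1]
  have h2 := (Matrix.detRowAlternating (R := R) (n := Fin k)).toMultilinearMap.map_sum
    (fun (j : Fin k) (μ : T) => c j μ • Y μ)
  change (Matrix.detRowAlternating (R := R) (n := Fin k)).toMultilinearMap _ = _
  rw [h2]
  refine Finset.sum_congr rfl fun J _ => ?_
  rw [MultilinearMap.map_smul_univ, smul_eq_mul]
  congr 1
  change Matrix.det _ = _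
  rw [← Matrix.det_transpose]
  rfl

theorem tri (E : PE K F) (h : IsFF K F) (m k : ℕ) (hk : k ≤ m) : ∃ (S : Finset K) (M : ℕ),
    ∀ (v : AbsoluteValue K ℝ) (y : Fin k → Place K F),
      ∃ J : Fin k → (Fin (E.r + 1) →₀ ℕ), (∀ l, J l ∈ E.B m) ∧
        (∏ i, E.nx v (y i) ^ m) * ∏ i, ∏ j ∈ Finset.Ioi i, E.dist v (y i) (y j) ≤
          mk S M v * v (Matrix.det (Matrix.of fun i l => eval (E.lift (y i)) (monomial (J l) (1 : K)))) := by
  classical
  obtain ⟨S₁, M₁, hprod⟩ := E.prod_upper h m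
  -- `B m` is not empty
  have hne : Nonempty ↥(E.B m) := by
    by_contra hcon
    rw [not_nonempty_iff] at hcon
    have h3 := (E.isMB_B h m).2.2
    rw [Set.range_eq_empty, Submodule.span_empty] at h3
    have h4 : (E.f 0) ^ m ∈ E.W (m * 1) := E.W_pow (E.f_mem 0) m
    rw [mul_one, ← h3, Submodule.mem_bot, E.f_zero, one_pow] at h4
    exact one_ne_zero h4
  refine ⟨S₁, Fintype.card (Fin k → ↥(E.B m)) + M₁ * k, fun v y => ?_⟩
  choose sec hs1 hs2 hs3 hs4 using fun x t => secant E h v x t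
  choose a ha using fun j : Fin k => exists_nv_eq v (E.lift (y j))
  let y' : ℕ → Place K F := fun n => if hn : n < k then y ⟨n, hn⟩ else E.oo
  have hy' : ∀ i : Fin k, y' i = y i := fun i => by
    simp only [y', dif_pos i.2, Fin.eta]
  let L : Fin k → Fin m → F := fun j s => if (s : ℕ) < (j : ℕ) then sec (y j) (y' s) else E.f (a j)
  have hL : ∀ j s, L j s ∈ E.W 1 := by
    intro j s
    simp only [L]
    split_ifs
    · exact hs2 _ _
    · exact E.f_mem _
  let u : Fin k → F := fun j => ∏ s, L j s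
  have hu : ∀ j, u j ∈ E.W m := fun j => E.prod_mem_W _ (hL j)
  have hev : ∀ j x, E.ev m (u j) x = ∏ s, E.ev 1 (L j s) x := fun j x => E.ev_prod h _ (hL j) x
  -- triangular
  have htri : ∀ i j : Fin k, i < j → E.ev m (u j) (y i) = 0 := by
    intro i j hij
    rw [hev]
    refine Finset.prod_eq_zero (Finset.mem_univ (⟨i, i.2.trans_le hk⟩ : Fin m)) ?_
    have e : L j ⟨i, i.2.trans_le hk⟩ = sec (y j) (y i) := by
      simp only [L]
      rw [if_pos (by exact hij), hy']
    rw [e, E.ev_eq_zero_iff h (hs2 _ _)]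
    exact hs1 _ _
  have hdet : Matrix.det (Matrix.of fun i j => E.ev m (u j) (y i)) = ∏ j, E.ev m (u j) (y j) := by
    rw [Matrix.det_of_isLowerTriangular]
    · rfl
    · intro i j hij
      exact htri i j hij
  -- the diagonal
  set P : Fin k → ℝ := fun j => ∏ s : Fin m, (if (s : ℕ) < (j : ℕ) then E.nx v (y' s) else 1) with hP
  set Dd : Fin k → ℝ := fun j => ∏ s : Fin m, (if (s : ℕ) < (j : ℕ) then E.dist v (y j) (y' s) else 1)
    with hDd
  have hPpos : ∀ j, 0 < P j := by
    intro j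
    refine Finset.prod_pos fun s _ => ?_
    split_ifs
    · exact E.nx_pos h v _
    · exact one_pos
  have hdiag : ∀ j, v (E.ev m (u j) (y j)) = E.nx v (y j) ^ m * Dd j * P j := by
    intro j
    rw [hev, map_prod]
    have h1 : ∀ s : Fin m, v (E.ev 1 (L j s) (y j)) =
        E.nx v (y j) * (if (s : ℕ) < (j : ℕ) then E.dist v (y j) (y' s) else 1) *
          (if (s : ℕ) < (j : ℕ) then E.nx v (y' s) else 1) := by
      intro s
      simp only [L]
      split_ifs
      · rw [hs3, E.wedge_eq h]; ring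
      · rw [E.ev_f, mul_one, mul_one]
        exact (ha j).symm
    simp_rw [h1]
    rw [Finset.prod_mul_distrib, Finset.prod_mul_distrib, Finset.prod_const, Finset.card_univ,
      Fintype.card_fin]
  have hnmf : ∀ j : Fin (E.r + 1), E.nm v 1 (E.f j) = 1 := by
    intro j
    unfold PE.nm
    rw [E.co_f h, X, nP_monomial, map_one]
  have hnm : ∀ j, E.nm v m (u j) ≤ mk S₁ M₁ v * P j := by
    intro j
    refine (hprod v _ (hL j)).trans (mul_le_mul_of_nonneg_left ?_ (mk_pos _ _ _).le)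
    refine Finset.prod_le_prod (fun s _ => E.nm_nonneg v 1 _) fun s _ => ?_
    simp only [L]
    split_ifs
    · exact hs4 _ _
    · exact (hnmf _).le
  -- expansion
  let c : Fin k → ↥(E.B m) → K := fun j μ => (E.co m (u j)).coeff (μ : Fin (E.r + 1) →₀ ℕ)
  let Y : ↥(E.B m) → Fin k → K := fun μ i => eval (E.lift (y i)) (monomial (μ : Fin (E.r + 1) →₀ ℕ) (1 : K))
  have hU : ∀ i j, E.ev m (u j) (y i) = ∑ μ, c j μ * Y μ i := by
    intro i j
    obtain ⟨h1, h2⟩ := E.co_spec h (hu j)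
    have h3 := E.ev_aeval h (E.co_hom h m (u j)) (y i)
    rw [h2] at h3
    rw [h3]
    conv_lhs => rw [(E.co m (u j)).as_sum, map_sum]
    rw [Finset.sum_subset h1 (fun μ _ hμ => by
      rw [MvPolynomial.notMem_support_iff.1 hμ, monomial_zero, map_zero]), ← Finset.sum_coe_sort (E.B m)]
    refine Finset.sum_congr rfl fun μ _ => ?_
    simp only [c, Y]
    rw [eval_monomial, eval_monomial, one_mul]
  have hexp : Matrix.det (Matrix.of fun i j => E.ev m (u j) (y i)) =
      ∑ J : Fin k → ↥(E.B m), (∏ j, c j (J j)) * Matrix.det (Matrix.of fun i l => Y (J l) i) := by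
    rw [← triAux_det_expand]
    congr 2
    funext i j
    exact hU i j
  obtain ⟨J0, -, hJ0⟩ := Finset.exists_max_image (Finset.univ : Finset (Fin k → ↥(E.B m)))
    (fun J => v (Matrix.det (Matrix.of fun i l => Y (J l) i))) Finset.univ_nonempty
  refine ⟨fun l => (J0 l : Fin (E.r + 1) →₀ ℕ), fun l => (J0 l).2, ?_⟩
  set V0 : ℝ := v (Matrix.det (Matrix.of fun i l => Y (J0 l) i)) with hV0
  have hV0nn : 0 ≤ V0 := v.nonneg _
  have hbound : v (Matrix.det (Matrix.of fun i j => E.ev m (u j) (y i))) ≤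
      tau v ^ Fintype.card (Fin k → ↥(E.B m)) * ((∏ j, (mk S₁ M₁ v * P j)) * V0) := by
    rw [hexp]
    refine MK.sum_le Finset.univ _ v (mul_nonneg (Finset.prod_nonneg fun j _ =>
      mul_nonneg (mk_pos _ _ _).le (hPpos j).le) hV0nn) fun J _ => ?_
    rw [map_mul, map_prod]
    refine mul_le_mul ?_ (hJ0 J (Finset.mem_univ _)) (v.nonneg _)
      (Finset.prod_nonneg fun j _ => mul_nonneg (mk_pos _ _ _).le (hPpos j).le)
    refine Finset.prod_le_prod (fun j _ => v.nonneg _) fun j _ => ?_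
    exact (le_nP v _ _).trans (hnm j)
  rw [hdet, map_prod] at hbound
  simp_rw [hdiag] at hbound
  rw [Finset.prod_mul_distrib, Finset.prod_mul_distrib, Finset.prod_mul_distrib, Finset.prod_const,
    Finset.card_univ, Fintype.card_fin] at hbound
  have hDre : ∏ j, Dd j = ∏ i, ∏ j ∈ Finset.Ioi i, E.dist v (y i) (y j) := by
    have := triAux_reindex hk (fun s j => E.dist v (y' j) (y' s))
    have e1 : ∏ j, Dd j = ∏ j : Fin k, ∏ s : Fin m,
        (if (s : ℕ) < (j : ℕ) then E.dist v (y' j) (y' s) else 1) := by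
      simp only [hDd]
      refine Finset.prod_congr rfl fun j _ => Finset.prod_congr rfl fun s _ => ?_
      rw [hy']
    rw [e1, this]
    refine Finset.prod_congr rfl fun i _ => Finset.prod_congr rfl fun j _ => ?_
    rw [hy', hy', E.dist_comm]
  rw [hDre] at hbound
  have hPP : 0 < ∏ j, P j := Finset.prod_pos fun j _ => hPpos j
  have hfinal : (∏ i, E.nx v (y i) ^ m) * (∏ i, ∏ j ∈ Finset.Ioi i, E.dist v (y i) (y j)) ≤
      tau v ^ Fintype.card (Fin k → ↥(E.B m)) * mk S₁ M₁ v ^ k * V0 := by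
    refine le_of_mul_le_mul_right ?_ hPP
    calc _ ≤ _ := hbound
      _ = _ := by ring
  refine hfinal.trans (mul_le_mul_of_nonneg_right ?_ hV0nn)
  rw [← mk_empty_eq, mk_pow]
  have := mk_mul_le ∅ S₁ (Fintype.card (Fin k → ↥(E.B m))) (M₁ * k) v
  rwa [Finset.empty_union] at this

end Fermat.Agent.S17.Loc
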