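/-
S17 / LOC, KEY [S17/L-HOM]  (~250 lines, uses Loc/Norm, Gen, Ev, Sec, Chart statements + MK).   Sections attached to a polynomial in `(z(x), τ)`.

`exists_sect`: `p ∈ K[Z, T]` (variables `inl j`, `inr j`) of total degree `≤ k`.  For a bounded parameter `τ : σ → K` there is a section `C ∈ W k`, of bounded norm, with `C(x~) = x~_b^k p(z(x), τ)` on the chart `b`.
PROOF.  For `m ∈ p.support` write `m₁ = m.comapDomain inl`, `m₂ = m.comapDomain inr` (or `Finsupp.sumFinsuppEquivProdFinsupp`), `|m₁| ≤ k`.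
   `Q_τ := ∑ m ∈ p.support, C (coeff m p * ∏ j, τ j ^ m₂ j) * (monomial m₁ 1 * X b ^ (k - |m₁|))`, homogeneous of degree `k`;  `C := aeval f Q_τ ∈ W k` (`aeval_mem`).
   Norm: `co_bound h k` and `nP v Q_τ ≤ tau^(card support) * max_m (v (coeff m p) * tau^(deg))` (`nP_sum_le`, `nP_C_mul`, `nP` of a monomial is `1`): an M_K-constant with `S = ` the coefficients of `p` (`le_mk`, `tau_le_mk`, `mk_mul_le`, `mk_pow`).
   Value: `ev_aeval`: `ev k C x = eval (lift x) Q_τ`; `lift x j = z b x j * lift x b`, so `eval (lift x) (monomial m₁ 1 * X b^(k-|m₁|)) = (∏ (z b x j)^(m₁ j)) * (lift x b)^k`; and `eval (Sum.elim (z b x) τ) p = ∑ m, coeff m p * ∏ (z b x)^m₁ * ∏ τ^m₂` (`MvPolynomial.eval_eq'`, `Fintype.prod_sum_type`).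
-/
import Fermat.Agent.S17.Loc.Chart

set_option autoImplicit false

noncomputable section

namespace Fermat.Agent.S17.Loc

open AlgebraicCurve Fermat.Agent.S37 Fermat.Agent.S27 MvPolynomial MK

variable {K F : Type*} [Field K] [Field F] [Algebra K F] [IsAlgClosed K] [CharZero K]

namespace PE

variable (E : PE K F)

omit [IsAlgClosed K] [CharZero K] in
/-- the exponent of the homogenised monomial -/
theorem hom_aux_sum_le {p : MvPolynomial (Fin (E.r + 1) ⊕ Fin (E.r + 1)) K} {k : ℕ}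
    (hk : p.totalDegree ≤ k) {m : Fin (E.r + 1) ⊕ Fin (E.r + 1) →₀ ℕ} (hm : m ∈ p.support) :
    (∑ j, m (Sum.inl j)) + ∑ j, m (Sum.inr j) ≤ k := by
  have h1 := MvPolynomial.le_totalDegree hm
  rw [Finsupp.sum_fintype _ _ (fun _ => rfl), Fintype.sum_sum_type] at h1
  exact h1.trans hk

theorem exists_sect (h : IsFF K F) (b : Fin (E.r + 1)) (p : MvPolynomial (Fin (E.r + 1) ⊕ Fin (E.r + 1)) K)
    (k : ℕ) (hk : p.totalDegree ≤ k) :
    ∃ (S : Finset K) (M : ℕ), ∀ (v : AbsoluteValue K ℝ) (τ : Fin (E.r + 1) → K), (∀ j, v (τ j) ≤ tau v) →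
      ∃ C ∈ E.W k, E.nm v k C ≤ MK.mk S M v ∧
        ∀ x : Place K F, E.lift x b ≠ 0 → E.ev k C x = E.lift x b ^ k * eval (Sum.elim (E.z b x) τ) p := by
  classical
  obtain ⟨S0, M0, hco⟩ := E.co_bound h k
  set S : Finset K := p.support.image (fun d => p.coeff d) with hS
  refine ⟨S0 ∪ S, M0 + (p.support.card + (1 + k)), fun v τ hτ => ?_⟩
  -- the data
  let m1 : (Fin (E.r + 1) ⊕ Fin (E.r + 1) →₀ ℕ) → (Fin (E.r + 1) →₀ ℕ) := fun m =>
    Finsupp.equivFunOnFinite.symm (fun j => m (Sum.inl j))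
  let c : (Fin (E.r + 1) ⊕ Fin (E.r + 1) →₀ ℕ) → K := fun m =>
    p.coeff m * ∏ j, τ j ^ m (Sum.inr j)
  let Q : MvPolynomial (Fin (E.r + 1)) K := ∑ m ∈ p.support,
    monomial (m1 m + Finsupp.single b (k - ∑ j, m (Sum.inl j))) (c m)
  have hm1 : ∀ m j, m1 m j = m (Sum.inl j) := fun m j => rfl
  have hle : ∀ m ∈ p.support, ∑ j, m (Sum.inl j) ≤ k := fun m hm =>
    le_trans (Nat.le_add_right _ _) (E.hom_aux_sum_le hk hm)
  have hQ : Q.IsHomogeneous k := by
    refine IsHomogeneous.sum _ _ _ fun m hm => isHomogeneous_monomial _ ?_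
    rw [map_add, Finsupp.degree_single, Finsupp.degree_eq_sum]
    simp only [hm1]
    exact Nat.add_sub_cancel' (hle m hm)
  have ht0 : 0 ≤ tau v := le_trans zero_le_one (one_le_tau v)
  -- the bound for the coefficients
  have hc : ∀ m ∈ p.support, v (c m) ≤ MK.mk S (1 + k) v := by
    intro m hm
    have h1 : v (p.coeff m) ≤ MK.mk S 1 v := le_mk (Finset.mem_image_of_mem _ hm) le_rfl v
    have h2 : v (∏ j, τ j ^ m (Sum.inr j)) ≤ MK.mk S k v := by
      rw [map_prod]
      calc ∏ j, v (τ j ^ m (Sum.inr j)) ≤ ∏ j : Fin (E.r + 1), tau v ^ m (Sum.inr j) := by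
            refine Finset.prod_le_prod (fun j _ => v.nonneg _) fun j _ => ?_
            rw [map_pow]
            exact pow_le_pow_left₀ (v.nonneg _) (hτ j) _
        _ = tau v ^ ∑ j, m (Sum.inr j) := Finset.prod_pow_eq_pow_sum _ _ _
        _ ≤ tau v ^ k := pow_le_pow_right₀ (one_le_tau v)
            (le_trans (Nat.le_add_left _ _) (E.hom_aux_sum_le hk hm))
        _ ≤ MK.mk S 1 v ^ k := pow_le_pow_left₀ ht0 (tau_le_mk S le_rfl v) _
        _ = MK.mk S k v := by rw [mk_pow, one_mul]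
    have h3 := mk_mul_le S S 1 k v
    rw [Finset.union_self] at h3
    show v (p.coeff m * ∏ j, τ j ^ m (Sum.inr j)) ≤ _
    rw [map_mul]
    exact le_trans (mul_le_mul h1 h2 (v.nonneg _) (mk_pos _ _ _).le) h3
  have hnP : nP v Q ≤ MK.mk S (p.support.card + (1 + k)) v := by
    have h1 := nP_sum_le v p.support
      (fun m => monomial (m1 m + Finsupp.single b (k - ∑ j, m (Sum.inl j))) (c m))
      (mk_pos S (1 + k) v).le (fun m hm => by rw [nP_monomial]; exact hc m hm)
    have h2 : tau v ^ p.support.card ≤ MK.mk S p.support.card v := by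
      have := pow_le_pow_left₀ ht0 (tau_le_mk S le_rfl v) p.support.card
      rwa [mk_pow, one_mul] at this
    have h3 := mk_mul_le S S p.support.card (1 + k) v
    rw [Finset.union_self] at h3
    exact le_trans h1 (le_trans (mul_le_mul_of_nonneg_right h2 (mk_pos _ _ _).le) h3)
  refine ⟨aeval E.f Q, E.aeval_mem hQ, ?_, fun x hx => ?_⟩
  · exact le_trans (hco v Q hQ) (le_trans
      (mul_le_mul_of_nonneg_left hnP (mk_pos _ _ _).le) (mk_mul_le _ _ _ _ v))
  · rw [E.ev_aeval h hQ, eval_eq' (Sum.elim (E.z b x) τ) p, Finset.mul_sum, map_sum]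
    refine Finset.sum_congr rfl fun m hm => ?_
    have hz : ∀ j, E.lift x j = E.z b x j * E.lift x b := fun j => by
      show _ = E.lift x j / E.lift x b * E.lift x b
      rw [div_mul_cancel₀ _ hx]
    rw [monomial_add_single, map_mul, map_pow, eval_X, eval_monomial,
      Finsupp.prod_fintype _ _ (fun _ => pow_zero _), Fintype.prod_sum_type]
    simp only [hm1, Sum.elim_inl, Sum.elim_inr]
    have h1 : ∏ j, E.lift x j ^ m (Sum.inl j) =
        (∏ j, E.z b x j ^ m (Sum.inl j)) * E.lift x b ^ ∑ j, m (Sum.inl j) := by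
      rw [← Finset.prod_pow_eq_pow_sum, ← Finset.prod_mul_distrib]
      refine Finset.prod_congr rfl fun j _ => ?_
      rw [← mul_pow, ← hz]
    have h2 : E.lift x b ^ k =
        E.lift x b ^ (∑ j, m (Sum.inl j)) * E.lift x b ^ (k - ∑ j, m (Sum.inl j)) := by
      rw [← pow_add, Nat.add_sub_cancel' (hle m hm)]
    rw [h1, h2]
    ring

end PE

end Fermat.Agent.S17.Loc
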