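/-
S17 / LOC : everything GLOB consumes.   `schw`, `e1_lower`, `e1_upper`, `nx_dist_oo`, `alt`, `tri`, and the small API of `Norm`, `RR`, `Gen`, `Ev`, `Sec`, `Mult`, `Sep`, `Dist`.
-/
import Fermat.Agent.S17.Loc.Alt
import Fermat.Agent.S17.Loc.Tri
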